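import Fermat.Agent.CFT.Duality.Main

/-!
# Orders of ideles outside a finite set of primes
-/

set_option autoImplicit false

noncomputable section

namespace Fermat.Agent.CFT.PT

open Fermat.Agent.Arith IntermediateField Fermat.Agent.CFT.Local Fermat.Agent.CFT.Idele
open Fermat.Agent.CFT.Duality

variable (L : IntermediateField ℚ QBar) [Normal ℚ L]

theorem val_zero_J (q : Nat.Primes) (σ : L ≃ₐ[ℚ] L) : val (0 : J L).toMul q σ = 1 := val_one q σ

/-- The norm of an idele at `(q, g)`. -/
def normAt (q : Nat.Primes) (g : GQ) (x : J L) : ℝ := ‖((x.toMul : PreIdele) q g : Ω q)‖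

/-- `normAt` is the absolute value of the component at the restriction of `g`. -/
theorem norm_val_eq (x : J L) (q : Nat.Primes) (g : GQ) :
    ‖((val x.toMul q (res L g) : (E L q)ˣ) : E L q)‖ = normAt L q g x := norm_val x.toMul q rfl

omit [Normal ℚ ↥L] in
theorem normAt_add (q : Nat.Primes) (g : GQ) (x y : J L) :
    normAt L q g (x + y) = normAt L q g x * normAt L q g y := by
  simp only [normAt, toMul_add, Subgroup.coe_mul, Pi.mul_apply, Units.val_mul, norm_mul]

omit [Normal ℚ ↥L] in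
theorem normAt_zero (q : Nat.Primes) (g : GQ) : normAt L q g 0 = 1 := by
  simp [normAt]

omit [Normal ℚ ↥L] in
theorem normAt_neg (q : Nat.Primes) (g : GQ) (x : J L) :
    normAt L q g (-x) = (normAt L q g x)⁻¹ := by
  simp [normAt]

theorem normAt_smul_lift (q : Nat.Primes) (g h : GQ) (x : J L) :
    normAt L q g (res L h • x) = normAt L q (g * h) x := by
  unfold normAt
  rw [show (res L h • x).toMul = res L h • x.toMul from rfl, coe_smul_idl L _ _ rfl, transl_apply]

/-- Ideles which are units outside `S`. -/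
def unitsOutside (S : Set Nat.Primes) : AddSubgroup (J L) where
  carrier := {x | ∀ q ∉ S, ∀ g, normAt L q g x = 1}
  zero_mem' q _ g := normAt_zero L q g
  add_mem' {x y} hx hy q hq g := by rw [normAt_add, hx q hq, hy q hq, one_mul]
  neg_mem' {x} hx q hq g := by rw [normAt_neg, hx q hq, inv_one]

/-- Ideles whose orders outside `S` are divisible by `m`. -/
def divOrd (m : ℕ) (S : Set Nat.Primes) : AddSubgroup (J L) where
  carrier := {x | ∀ q ∉ S, ∀ g, ∃ n : ℤ, normAt L q g x = (q : ℝ) ^ ((m : ℤ) * n)}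
  zero_mem' q _ g := ⟨0, by rw [normAt_zero, mul_zero, zpow_zero]⟩
  add_mem' {x y} hx hy q hq g := by
    obtain ⟨n, hn⟩ := hx q hq g
    obtain ⟨n', hn'⟩ := hy q hq g
    refine ⟨n + n', ?_⟩
    rw [normAt_add, hn, hn', mul_add, zpow_add₀ (Nat.cast_ne_zero.2 q.2.ne_zero)]
  neg_mem' {x} hx q hq g := by
    obtain ⟨n, hn⟩ := hx q hq g
    exact ⟨-n, by rw [normAt_neg, hn, mul_neg, zpow_neg]⟩

variable {L}

omit [Normal ℚ ↥L] in
theorem unitsOutside_le_divOrd (m : ℕ) (S : Set Nat.Primes) :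
    unitsOutside L S ≤ divOrd L m S :=
  fun x hx q hq g => ⟨0, by rw [hx q hq g, mul_zero, zpow_zero]⟩

theorem smul_mem_unitsOutside {S : Set Nat.Primes} (σ : L ≃ₐ[ℚ] L) {x : J L}
    (hx : x ∈ unitsOutside L S) : σ • x ∈ unitsOutside L S := fun q hq g => by
  rw [← res_lift L σ, normAt_smul_lift]; exact hx q hq _

theorem smul_mem_divOrd {m : ℕ} {S : Set Nat.Primes} (σ : L ≃ₐ[ℚ] L) {x : J L}
    (hx : x ∈ divOrd L m S) : σ • x ∈ divOrd L m S := fun q hq g => by
  rw [← res_lift L σ, normAt_smul_lift]; exact hx q hq _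

omit [Normal ℚ ↥L] in
/-- Inclusion in a larger field preserves and reflects `divOrd`. -/
theorem inclJ_mem_divOrd_iff {L' : IntermediateField ℚ QBar} [FiniteDimensional ℚ L'] [Normal ℚ L']
    (h : L ≤ L') {m : ℕ} {S : Set Nat.Primes} {x : J L} :
    inclJ h x ∈ divOrd L' m S ↔ x ∈ divOrd L m S := Iff.rfl

omit [Normal ℚ ↥L] in
/-- `normAt` turns multiples into powers. -/
theorem normAt_nsmul (q : Nat.Primes) (g : GQ) (m : ℕ) (x : J L) :
    normAt L q g (m • x) = normAt L q g x ^ m := by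
  induction m with
  | zero => rw [zero_nsmul, normAt_zero, pow_zero]
  | succ m ih => rw [succ_nsmul, normAt_add, ih, pow_succ]

omit [Normal ℚ ↥L] in
/-- Torsion ideles are units. -/
theorem mem_unitsOutside_of_torsion {m : ℕ} (hm : m ≠ 0) {x : J L} (hx : m • x = 0)
    (S : Set Nat.Primes) : x ∈ unitsOutside L S := fun q _ g => by
  have e := normAt_nsmul q g m x
  rw [hx, normAt_zero] at e
  exact (pow_eq_one_iff_of_nonneg (norm_nonneg _) hm).1 e.symm

theorem mem_unitsOff_of_mem [FiniteDimensional ℚ L] {T : Set Nat.Primes} {x : J L}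
    (hx : x ∈ supportedIn L Tᶜ) (hu : x ∈ unitsOutside L T) : x ∈ unitsOff L T := fun q σ => by
  refine ⟨?_, fun hq => hx q (fun h => h hq) σ⟩
  by_cases hq : q ∈ T
  · rw [hx q (fun h => h hq) σ]; exact one_mem _
  · rw [mem_unitGroup, ← res_lift L σ, norm_val_eq]
    exact hu q hq _

end Fermat.Agent.CFT.PT
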