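import Fermat.Agent.CFT.PT.Levels
import Fermat.Agent.CFT.Local.Units
import Fermat.Agent.CFT.TWPrimes.Kummer

/-!
# The level of all Kummer extensions unramified outside `S`

For `K` unramified outside `S` with the `p`-th roots of unity, the `p`-th roots of elements whose
orders off `S` are divisible by `p` generate a finite normal `p`-extension `L` unramified outside
`S`; every homomorphism of `Gal(ℚ̄/K)` into `ℤ/p` of such a level vanishes on `Gal(ℚ̄/L)`.
-/

set_option autoImplicit false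

noncomputable section

namespace Fermat.Agent.CFT.PT

open ExtCitation Fermat.Agent.Arith IntermediateField Fermat.Agent.CFT.Local Fermat.Agent.CFT.Idele
open Fermat.Agent.CFT.Duality groupCohomology

variable {p : ℕ} [hp : Fact p.Prime] {S : Finset Nat.Primes}
  {K : IntermediateField ℚ QBar} [FiniteDimensional ℚ K] [Normal ℚ K]

variable (p S K) in
/-- The elements of `K` with orders divisible by `p` outside `S`. -/
def urRad : Set (Additive Kˣ) := {a | diag K a ∈ divOrd K p (S : Set Nat.Primes)}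

variable (p S K) in
/-- Their `p`-th roots. -/
def urRoots : Set QBar :=
  {y | ∃ a ∈ urRad p S K, y ^ p = (((a.toMul : Kˣ) : K) : QBar)}

/-- An idele with orders divisible by `p` outside `S` is a multiple of `p` there, up to units. -/
theorem exists_qRoot {x : J K} (hx : x ∈ divOrd K p (S : Set Nat.Primes)) :
    ∃ y ∈ supportedIn K (S : Set Nat.Primes)ᶜ,
      ∀ q ∉ S, ∀ g, normAt K q g x = normAt K q g y ^ p := by
  classical
  obtain ⟨T, hT⟩ := val_mem_unitGroup_cofinite x.toMul
  have hex : ∀ q, q ∉ S → ∀ σ : K ≃ₐ[ℚ] K,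
      ∃ n : ℤ, ‖((val x.toMul q σ : (E K q)ˣ) : E K q)‖ = (q : ℝ) ^ ((p : ℤ) * n) :=
        fun q hq σ => by
    obtain ⟨n, hn⟩ := hx q (fun h => hq (Finset.mem_coe.mp h)) (lift K σ)
    exact ⟨n, by rw [← res_lift K σ, norm_val_eq]; exact hn⟩
  choose n hn using hex
  have hq1 : ∀ q : Nat.Primes, (1 : ℝ) < q := fun q => by exact_mod_cast q.2.one_lt
  -- The exponents `n` are unique, hence invariant under the decomposition group.
  have huniq : ∀ q hq σ (m : ℤ),
      ‖((val x.toMul q σ : (E K q)ˣ) : E K q)‖ = (q : ℝ) ^ ((p : ℤ) * m) → n q hq σ = m :=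
    fun q hq σ m hm => mul_left_cancel₀ (Int.natCast_ne_zero.mpr hp.out.ne_zero)
      (zpow_right_injective₀ (zero_lt_one.trans (hq1 q)) (hq1 q).ne'
        ((hn q hq σ).symm.trans hm))
  let w : ∀ q : Nat.Primes, (E K q)ˣ := fun q =>
    Units.mk0 ((q : ℕ) : E K q) (Nat.cast_ne_zero.mpr q.2.ne_zero)
  have hwn : ∀ (q : Nat.Primes) (m : ℤ),
      ‖((w q ^ (-m) : (E K q)ˣ) : E K q)‖ = (q : ℝ) ^ m := fun q m => by
    have e : ‖((w q : (E K q)ˣ) : E K q)‖ = (q : ℝ)⁻¹ := by
      show ‖(((q : ℕ) : E K q) : Ω q)‖ = _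
      rw [← norm_padicEmbedding_natCast_self (q : ℕ), map_natCast]
      rfl
    rw [Units.val_zpow_eq_zpow_val, norm_zpow, e, inv_zpow, zpow_neg, inv_inv]
  -- The idele `q ^ (-n)` outside `S` and `1` on `S` is the required root.
  let y : J K := Additive.ofMul (Family.toIdl (L := K)
    { toFun := fun q σ => if hq : q ∈ S then 1 else w q ^ (-n q hq σ)
      equi := fun q t σ => by
        by_cases hq : q ∈ S
        · simp only [dif_pos hq, smul_one]
        · simp only [dif_neg hq]
          have e1 : n q hq (toGlobal (q : ℕ) K t * σ) = n q hq σ := by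
            refine huniq q hq _ _ ?_
            rw [val_toGlobal_mul, norm_smul_unit]
            exact hn q hq σ
          have e2 : t • w q = w q := Units.ext (map_natCast t (q : ℕ))
          rw [e1, show t • (w q ^ (-n q hq σ)) = (t • w q) ^ (-n q hq σ) from
            map_zpow (MulDistribMulAction.toMonoidHom _ t) _ _, e2]
      cofinite := ⟨T ∪ S, fun q hq σ => by
        rw [Finset.mem_union, not_or] at hq
        rw [dif_neg hq.2, huniq q hq.2 σ 0 (by
          rw [mul_zero, zpow_zero]; exact (mem_unitGroup _).1 (hT q hq.1 σ)), neg_zero, zpow_zero]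
        exact one_mem _⟩ })
  refine ⟨y, fun q hq σ => ?_, fun q hq g => ?_⟩
  · rw [toMul_ofMul, Family.val_toIdl]
    exact dif_pos (by simpa using hq)
  · rw [← norm_val_eq, ← norm_val_eq, toMul_ofMul, Family.val_toIdl]
    simp only [dif_neg hq, hwn, hn q hq]
    rw [← zpow_natCast, ← zpow_mul, mul_comm]

omit hp [FiniteDimensional ℚ ↥K] [Normal ℚ ↥K] in
theorem sub_nsmul_mem_unitsOutside {x y : J K}
    (h : ∀ q ∉ S, ∀ g, normAt K q g x = normAt K q g y ^ p) :
    x - p • y ∈ unitsOutside K (S : Set Nat.Primes) := fun q hq g => by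
  rw [sub_eq_add_neg, normAt_add, normAt_neg, normAt_nsmul,
    ← h q (fun hm => hq (Finset.mem_coe.mpr hm)) g, mul_inv_cancel₀]
  exact (norm_ne_zero_iff.mpr (Units.ne_zero _))

variable {ζ : QBar} (hp2 : p ≠ 2) (hζ : IsPrimitiveRoot ζ p) (hζK : ζ ∈ K)
  (hpS : pPrime p ∈ S) (hKS : K.IsUnramifiedOutside S)

include hp2 hζ hζK in
/-- Modulo `p`-th powers there are finitely many elements with divisible orders outside `S`. -/
theorem exists_finite_urRad :
    ∃ B : Set (Additive Kˣ), B.Finite ∧ B ⊆ urRad p S K ∧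
      ∀ a ∈ urRad p S K, ∃ b ∈ B, ∃ c : Additive Kˣ, a = b + p • c := by
  classical
  -- Up to `p`-th powers each element is an `S₀`-unit, for a good finite set `S₀`.
  obtain ⟨S₀, hS0, hS₀⟩ := exists_goodSet hp2 hζ hζK S
  have : Finite (ModP p (sUnits S₀ K)) := Nat.finite_of_card_ne_zero hS₀.card
  have hkey : ∀ a ∈ urRad p S K, ∃ (c : Additive Kˣ) (u : sUnits S₀ K),
      unitsToQ K (a + p • c) = Additive.ofMul (u : QBarˣ) := fun a ha => by
    obtain ⟨y, -, hy⟩ := exists_qRoot ha
    obtain ⟨d, hd, hdu⟩ := hS₀.gen (y.toMul : PreIdele) y.toMul.2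
    obtain ⟨c, hc⟩ := exists_unitsToQ_eq (L := K) (x := Additive.ofMul d) hd
    refine ⟨c, ⟨(unitsToQ K (a + p • c)).toMul, mem_sUnits.mpr
      ⟨((a + p • c).toMul : K).2, fun q hq g => ?_⟩⟩, rfl⟩
    have e1 := hdu.2 q hq g
    rw [Pi.mul_apply, Pi.mul_apply, Units.val_mul, norm_mul, prin_val] at e1
    rw [map_add, map_nsmul, hc, toMul_add, toMul_nsmul, toMul_ofMul, Units.val_mul,
      Units.val_pow_eq_pow_val, map_mul, map_mul, map_pow, map_pow, norm_mul, norm_pow,
      unitsToQ_val, ← normAt_diag, hy q (fun h => hq (hS0 h)) g, ← mul_pow]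
    rw [show normAt K q g y = ‖(((y.toMul : idl K) : PreIdele) q g : Ω q)‖ from rfl, e1, one_pow]
  choose! cc uu hu using hkey
  -- `S₀`-units modulo `p`-th powers form a finite group; choose representatives of the classes met.
  let cls : urRad p S K → ModP p (sUnits S₀ K) := fun a => modClass p (uu a)
  have : Finite (Set.range cls) := Finite.of_injective _ Subtype.val_injective
  choose rep hrep using fun z : Set.range cls => z.2
  refine ⟨Set.range fun z => (rep z : Additive Kˣ), Set.finite_range _, ?_, fun a ha => ?_⟩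
  · rintro _ ⟨z, rfl⟩
    exact (rep z).2
  set z : Set.range cls := ⟨cls ⟨a, ha⟩, ⟨a, ha⟩, rfl⟩
  set b := rep z
  have e : modClass p (uu a) = modClass p (uu (b : Additive Kˣ)) := (hrep z).symm
  obtain ⟨v, hv⟩ : ∃ v : sUnits S₀ K, v ^ p = (uu (b : Additive Kˣ))⁻¹ * uu a :=
    (modClass_eq_zero_iff _).mp (by
      rw [modClass_mul, show modClass p (uu (b : Additive Kˣ))⁻¹ =
        -modClass p (uu (b : Additive Kˣ))
        from rfl, e, neg_add_cancel])
  obtain ⟨c, hc⟩ := exists_unitsToQ_eq (L := K) (x := Additive.ofMul (v : QBarˣ))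
    (sUnits_le S₀ K v.2)
  refine ⟨b, ⟨z, rfl⟩, c + cc b - cc a, unitsToQ_injective K ?_⟩
  have e1 := hu a ha
  have e2 := hu b b.2
  have e3 : p • unitsToQ K c = Additive.ofMul ((uu a : QBarˣ))
      - Additive.ofMul (uu (b : Additive Kˣ) : QBarˣ) := by
    rw [hc, ← ofMul_pow, ← ofMul_div, ← SubmonoidClass.coe_pow, hv, div_eq_inv_mul]
    rfl
  rw [← e1, ← e2] at e3
  simp only [map_add, map_sub, map_nsmul, nsmul_add, nsmul_sub] at e3 ⊢
  rw [e3]
  abel

omit hp [FiniteDimensional ℚ ↥K] in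
theorem urRoots_stable (g : GQ) {y : QBar} (hy : y ∈ urRoots p S K) : g y ∈ urRoots p S K := by
  obtain ⟨a, ha, hy⟩ := hy
  refine ⟨res K g • a, ?_, ?_⟩
  · show diag K (res K g • a) ∈ divOrd K p (S : Set Nat.Primes)
    rw [diag_smul]
    exact smul_mem_divOrd _ ha
  · rw [← map_pow, hy]
    exact (res_apply K g _).symm

include hp2 hζ hζK hpS hKS in
/-- The level generated by the roots. -/
theorem exists_kummerLevel :
    ∃ (L : IntermediateField ℚ QBar) (_ : FiniteDimensional ℚ L) (_ : Normal ℚ L) (h : K ≤ L),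
      L.IsUnramifiedOutside S ∧ IsPGroup p (levelRes h).ker ∧ urRoots p S K ⊆ L := by
  classical
  -- Roots of the finitely many representatives generate a level containing all the roots.
  obtain ⟨B, hBf, hBr, hB⟩ := exists_finite_urRad hp2 hζ hζK (S := S)
  have := hBf.to_subtype
  choose y hy using fun b : B =>
    IsAlgClosed.exists_pow_nat_eq ((((b : Additive Kˣ).toMul : Kˣ) : K) : QBar) hp.out.pos
  obtain ⟨L₁, hL₁, hKL₁, hyL⟩ := exists_level_roots hpS hKS (fun b : B => (b : Additive Kˣ))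
    (fun b => hBr b.2) y hy
  have hsub : urRoots p S K ⊆ L₁ := fun z ⟨a, ha, hz⟩ => by
    obtain ⟨b, hb, c, rfl⟩ := hB a ha
    set cK : QBar := (((c.toMul : Kˣ) : K) : QBar)
    have e : z ^ p = (y ⟨b, hb⟩ * cK) ^ p := by
      rw [hz, mul_pow, hy ⟨b, hb⟩, toMul_add, toMul_nsmul, Units.val_mul,
        Units.val_pow_eq_pow_val]
      rfl
    have h0 : y ⟨b, hb⟩ * cK ≠ 0 := fun h0 => by
      rw [h0, zero_pow hp.out.ne_zero, hz] at e
      exact (b + p • c).toMul.ne_zero (Subtype.ext e)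
    obtain ⟨i, -, hi⟩ := exists_eq_zeta_pow_mul hζ h0 e
    rw [hi]
    exact mul_mem (pow_mem (hKL₁ hζK) i) (mul_mem (hyL ⟨b, hb⟩) (hKL₁ (c.toMul : K).2))
  -- The field generated by all the roots over `K` is normal over `ℚ`.
  set L := K ⊔ IntermediateField.adjoin ℚ (urRoots p S K)
  have hLL : L ≤ L₁ := sup_le hKL₁ (IntermediateField.adjoin_le_iff.mpr hsub)
  have := hL₁.fd
  have : FiniteDimensional ℚ L := (hL₁.ur.of_le hLL).1
  have hnA : Normal ℚ (IntermediateField.adjoin ℚ (urRoots p S K)) := by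
    refine IntermediateField.normal_iff_forall_map_le'.mpr fun g => ?_
    rw [IntermediateField.adjoin_map, IntermediateField.adjoin_le_iff]
    rintro _ ⟨z, hz, rfl⟩
    exact IntermediateField.subset_adjoin ℚ _ (urRoots_stable g hz)
  have hnL : Normal ℚ L :=
    @IntermediateField.normal_sup ℚ QBar _ _ _ K _ ‹Normal ℚ K› hnA
  refine ⟨L, inferInstance, hnL, le_sup_left, hL₁.ur.of_le hLL, fun n => ⟨1, ?_⟩,
    fun z hz => (le_sup_right : _ ≤ L) (IntermediateField.subset_adjoin ℚ _ hz)⟩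
  -- Its group over `K` has exponent `p`, by Kummer theory.
  obtain ⟨g, hg⟩ := AlgEquiv.restrictNormalHom_surjective (K₁ := L) QBar (n : L ≃ₐ[ℚ] L)
  have hgK : g ∈ K.fixingSubgroup := by
    rw [← res_eq_one_iff, ← levelRes_res (le_sup_left : K ≤ L) g,
      show res L g = (n : L ≃ₐ[ℚ] L) from hg]
    exact n.2
  have hpow : g ^ p ∈ L.fixingSubgroup := by
    rw [IntermediateField.fixingSubgroup_sup]
    refine ⟨pow_mem hgK p, ?_⟩
    show g ^ p ∈ (IntermediateField.adjoin ℚ (urRoots p S K)).fixingSubgroup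
    rw [IntermediateField.mem_fixingSubgroup_iff]
    intro x hx
    induction hx using IntermediateField.adjoin_induction with
    | mem z hz =>
      obtain ⟨a, -, hz⟩ := hz
      have ha0 : (((a.toMul : Kˣ) : K) : QBar) ≠ 0 := fun h0 => a.toMul.ne_zero (Subtype.ext h0)
      have haK : (((a.toMul : Kˣ) : K) : QBar) ∈ K := (a.toMul : K).2
      refine (kum_eq_zero_iff hζ hζK (pow_mem hgK p) haK ha0 hz).mp ?_
      have hk : ∀ i : ℕ, kum hζ (g ^ i) (((a.toMul : Kˣ) : K) : QBar) =
          i * kum hζ g (((a.toMul : Kˣ) : K) : QBar) := fun i => by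
        induction i with
        | zero =>
          rw [pow_zero, Nat.cast_zero, zero_mul]
          exact (kum_eq_zero_iff hζ hζK (one_mem _) haK ha0 hz).mpr rfl
        | succ i ih =>
          rw [pow_succ, kum_comp hζ hζK (pow_mem hgK i) hgK haK ha0, ih, Nat.cast_succ]
          ring
      rw [hk, ZMod.natCast_self, zero_mul]
    | algebraMap r => exact (g ^ p).commutes r
    | add a b _ _ ha hb => rw [map_add, ha, hb]
    | inv a _ ha => rw [map_inv₀, ha]
    | mul a b _ _ ha hb => rw [map_mul, ha, hb]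
  refine Subtype.ext ?_
  rw [pow_one, SubgroupClass.coe_pow, ← show res L g = (n : L ≃ₐ[ℚ] L) from hg, ← map_pow,
    Subgroup.coe_one, res_eq_one_iff]
  exact hpow

include hζ hζK hKS in
/-- A homomorphism of such a level vanishes on the fixing group of the roots. -/
theorem hom_eq_zero_of_fix {F : IntermediateField ℚ QBar} (hF : F.IsUnramifiedOutside S)
    (χ : GQ → ZMod p) (hhom : ∀ g h, g ∈ K.fixingSubgroup → h ∈ K.fixingSubgroup →
      χ (g * h) = χ g + χ h)
    (hlev : ∀ g s, s ∈ F.fixingSubgroup → χ (g * s) = χ g) {L : IntermediateField ℚ QBar}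
    (hKL : K ≤ L) (hroots : urRoots p S K ⊆ L) {g : GQ} (hg : g ∈ L.fixingSubgroup) : χ g = 0 := by
  classical
  have : NeZero p := ⟨hp.out.ne_zero⟩
  -- At a level `F'` through which it factors, `χ` gives a cocycle with values in `μ_p`.
  obtain ⟨F', hF', hle⟩ := exists_levelS_ge (hF.sup hKS)
  have := hF'.fd; have := hF'.normal
  have hKF : K ≤ F' := le_sup_right.trans hle
  set H := (levelRes hKF).ker
  have hH : ∀ n : H, lift F' (n : F' ≃ₐ[ℚ] F') ∈ K.fixingSubgroup := fun n => by
    rw [← res_eq_one_iff, ← levelRes_res hKF, res_lift]; exact n.2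
  have hwd : ∀ g g' : GQ, res F' g = res F' g' → χ g = χ g' :=
    fun g g' h => eq_of_res_eq hlev (le_sup_left.trans hle) h
  set z : Additive F'ˣ := Additive.ofMul (Units.mk0 (⟨ζ, hKF hζK⟩ : F')
    fun h0 => hζ.ne_zero hp.out.ne_zero (congrArg Subtype.val h0))
  have hzp : p • z = 0 := Additive.toMul.injective (Units.ext (Subtype.ext (by
    rw [toMul_nsmul, Units.val_pow_eq_pow_val]
    exact hζ.pow_eq_one)))
  let c : H → Additive F'ˣ := fun n => (χ (lift F' (n : F' ≃ₐ[ℚ] F'))).val • z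
  have hc : IsCocycle₁ c := fun m n => by
    have e1 : χ (lift F' ((m * n : H) : F' ≃ₐ[ℚ] F')) =
        χ (lift F' (m : F' ≃ₐ[ℚ] F')) + χ (lift F' (n : F' ≃ₐ[ℚ] F')) := by
      rw [← hhom _ _ (hH m) (hH n)]
      exact hwd _ _ (by rw [res_lift, map_mul, res_lift, res_lift]; rfl)
    have e2 : (m : F' ≃ₐ[ℚ] F') • z = z := Additive.toMul.injective (Units.ext (Subtype.ext (by
      show (((m : F' ≃ₐ[ℚ] F') ⟨ζ, hKF hζK⟩ : F') : QBar) = ζ
      rw [← res_lift F' (m : F' ≃ₐ[ℚ] F'), res_apply]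
      exact (IntermediateField.mem_fixingSubgroup_iff _ _).mp (hH m) ζ hζK)))
    show (χ _).val • z = (m : F' ≃ₐ[ℚ] F') • ((χ _).val • z) + (χ _).val • z
    rw [e1, smul_comm, e2, ← add_smul, ZMod.val_add, add_comm (ZMod.val _)]
    conv_rhs => rw [← Nat.mod_add_div ((χ (lift F' (n : F' ≃ₐ[ℚ] F'))).val +
      (χ (lift F' (m : F' ≃ₐ[ℚ] F'))).val) p, add_smul, mul_comm, mul_smul, hzp, smul_zero,
      add_zero]
  -- By Hilbert 90 it is the coboundary of a unit `y`, whose `p`-th power is some `a` in `K`.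
  obtain ⟨y, hy⟩ := h1Zero_units H c hc
  obtain ⟨a, ha⟩ : ∃ a : Additive Kˣ, unitsIncl hKF a = p • y := by
    have hfix : ∀ n ∈ (levelRes hKF).ker, n • (p • y) = p • y := fun n hn => by
      have e := hy ⟨n, hn⟩
      rw [sub_eq_iff_eq_add, show (⟨n, hn⟩ : H) • y = n • y from rfl] at e
      rw [smul_comm, e, nsmul_add]
      simp only [c, smul_comm p (ZMod.val _) z, hzp, smul_zero, zero_add]
    obtain ⟨x, hx⟩ := exists_inclJ_eq hKF (x := diag F' (p • y)) fun n hn => by
      rw [← diag_smul, hfix n hn]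
    obtain ⟨a, ha⟩ := (inclIdl_mem_range_prinL hKF (f := x.toMul)).1
      ⟨(p • y).toMul, (congrArg Additive.toMul hx).symm⟩
    exact ⟨Additive.ofMul a, diag_injective F' (by
      rw [diag_unitsIncl, ← hx]
      exact congrArg (fun w : idl K => inclJ hKF (Additive.ofMul w)) ha)⟩
  -- `y` is one of the roots, since `a` has orders divisible by `p` outside `S`.
  have hyq : (((y.toMul : F'ˣ) : F') : QBar) ∈ urRoots p S K := by
    refine ⟨a, ?_, ?_⟩
    · show diag K a ∈ divOrd K p (S : Set Nat.Primes)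
      rw [← inclJ_mem_divOrd_iff hKF, ← diag_unitsIncl, ha, map_nsmul]
      exact nsmul_mem_divOrd hF'.ur _
    · have := congrArg (fun w : Additive F'ˣ => (((w.toMul : F'ˣ) : F') : QBar)) ha
      rw [toMul_nsmul, Units.val_pow_eq_pow_val] at this
      exact this.symm.trans (by rfl)
  -- Hence `g` fixes `y`, and `χ g = 0`.
  have hgK : g ∈ K.fixingSubgroup := IntermediateField.fixingSubgroup_antitone hKL hg
  set n : H := ⟨res F' g, by rw [MonoidHom.mem_ker, levelRes_res, res_eq_one_iff]; exact hgK⟩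
  have e := hy n
  have e0 : (n : F' ≃ₐ[ℚ] F') • y = y := Additive.toMul.injective (Units.ext (Subtype.ext (by
    show ((res F' g ((y.toMul : F'ˣ) : F') : F') : QBar) = _
    rw [res_apply]
    exact (IntermediateField.mem_fixingSubgroup_iff _ _).mp hg _ (hroots hyq))))
  rw [show n • y = (n : F' ≃ₐ[ℚ] F') • y from rfl, e0, sub_self] at e
  have e1 : χ (lift F' (n : F' ≃ₐ[ℚ] F')) = χ g := hwd _ _ (res_lift F' _)
  simp only [c, e1] at e
  have e2 : ζ ^ (χ g).val = 1 := by
    have := congrArg (fun w : Additive F'ˣ => (((w.toMul : F'ˣ) : F') : QBar)) e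
    rw [toMul_nsmul, Units.val_pow_eq_pow_val, toMul_zero, Units.val_one] at this
    exact this.symm.trans (by rfl)
  rw [← ZMod.natCast_zmod_val (χ g), ZMod.natCast_eq_zero_iff]
  exact (hζ.pow_eq_one_iff_dvd _).mp e2

variable {A : Type*} [AddCommGroup A] [DistribMulAction (K ≃ₐ[ℚ] K) A]

include hζ hζK hKS in
/-- Cocycles of a level unramified outside `S` are constant modulo the roots. -/
theorem cocycle_eq_of_res_eq (hA : ∀ a : A, p • a = 0) {L : IntermediateField ℚ QBar}
    [Normal ℚ L] (hKL : K ≤ L) (hroots : urRoots p S K ⊆ L) {a : GQ → A}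
    (ha : ∀ g h, a (g * h) = res K g • a h + a g) (hlev : IsLevelConstantS₁ S a) {g g' : GQ}
    (h : res L g = res L g') : a g = a g' := by
  let : Module (ZMod p) A := AddCommGroup.zmodModule hA
  obtain ⟨F, hF, hFa⟩ := hlev
  have hz : ∀ s ∈ L.fixingSubgroup, a s = 0 := fun s hs => by
    refine (Module.forall_dual_apply_eq_zero_iff (ZMod p) _).1 fun φ => ?_
    refine hom_eq_zero_of_fix (F := F) hζ hζK hKS hF (fun g => φ (a g)) (fun g g' hg _ => ?_)
      (fun g s hs => by rw [hFa g s hs]) hKL hroots hs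
    rw [ha, (res_eq_one_iff K).2 hg, one_smul, map_add, add_comm]
  have e := ha g (g⁻¹ * g')
  rw [mul_inv_cancel_left, hz _ ((res_eq_iff L).1 h), smul_zero, zero_add] at e
  exact e.symm

end Fermat.Agent.CFT.PT
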