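import Fermat.Agent.CFT.PT.KLevel
import Fermat.Agent.CFT.Idele.KummerDual

/-!
# Norms from the level of the Kummer extensions are `p`-th powers up to unit families

If `L` contains the `p`-th roots of the elements of `K` with orders divisible by `p` outside `S`,
the norm of every idele class of `L` is, in `C K`, a multiple of `p` plus a unit family outside `S`.
-/

set_option autoImplicit false

noncomputable section

namespace Fermat.Agent.CFT.PT

open ExtCitation Fermat.Agent.Arith IntermediateField Fermat.Agent.CFT.Local Fermat.Agent.CFT.Idele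
open Fermat.Agent.CFT.Duality groupCohomology

variable {p : ℕ} [hp : Fact p.Prime] {S : Finset Nat.Primes} {ζ : QBar}
  {K : IntermediateField ℚ QBar} [FiniteDimensional ℚ K] [Normal ℚ K]

/-- Unit families in the two descriptions. -/
theorem mem_unitsOff_of_unitsOffP {T : Set Nat.Primes} {x : J K}
    (hx : ((x.toMul : idl K) : PreIdele) ∈ unitsOffP T K) : x ∈ unitsOff K T := fun q σ => by
  obtain ⟨h1, h2⟩ := hx.2 q (Idele.lift K σ)
  refine ⟨(mem_unitGroup _).2 ?_, fun hq => Units.ext (Subtype.ext ?_)⟩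
  · rw [norm_val x.toMul q (res_lift K σ)]
    exact h1
  · rw [coe_val x.toMul q (res_lift K σ), h2 hq]
    simp

/-- An element which is a `p`-th power at a finite set and a unit elsewhere. -/
theorem exists_eq_nsmul_add_unitsOff {S₀ : Finset Nat.Primes} (hS : S ⊆ S₀) {x : J K}
    (hx : ((x.toMul : idl K) : PreIdele) ∈ powAt p S₀ K) :
    ∃ c : J K, ∃ w ∈ unitsOff K (S : Set Nat.Primes), x = p • c + w := by
  classical
  set e : PreIdele := ((x.toMul : idl K) : PreIdele)
  -- Glue the `p`-th roots at the places over `S₀`, extended by `1`, to an idele `c`.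
  choose y hy hyp using hx.2
  let z : (q : Nat.Primes) → GQ → (Ω q)ˣ := fun q g =>
    if h : q ∈ S₀ ∧ placeRep q K g = g then
      Units.mk0 (y q h.1 g h.2) (fun h0 => (e q g).ne_zero (by
        rw [← hyp q h.1 g h.2, h0, zero_pow hp.out.ne_zero]))
    else 1
  have hz : ∀ q g, ((z q g : (Ω q)ˣ) : Ω q) ∈ fieldAt q K g := fun q g => by
    simp only [z]
    split_ifs with h
    · exact hy q h.1 g h.2
    · rw [Units.val_one]; exact one_mem _
  have hzK : glue K (fun q => placeRep q K) z ∈ idl K :=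
    glue_placeRep_mem_idl hz S₀ fun q hq g => by
    simp only [z, dif_neg fun h : q ∈ S₀ ∧ placeRep q K g = g => hq h.1, Units.val_one, norm_one]
  set c : idl K := ⟨glue K (fun q => placeRep q K) z, hzK⟩
  set w : idl K := (c ^ p)⁻¹ * x.toMul
  refine ⟨Additive.ofMul c, Additive.ofMul w, mem_unitsOff_of_unitsOffP ⟨w.2, fun q g => ?_⟩, ?_⟩
  swap
  · refine Additive.toMul.injective ?_
    rw [toMul_add, toMul_nsmul, toMul_ofMul, toMul_ofMul]
    exact (mul_inv_cancel_left _ _).symm
  obtain ⟨τ, s, hs, eg⟩ := placeRep_spec (q := q) (K := K) g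
  set r := placeRep q K g
  have hr : placeRep q K r = r := placeRep_idem g
  -- The quotient `x / c ^ p` is a unit everywhere, and `1` over `S`.
  have hwr : ((w : PreIdele) q r : Ω q) = (((z q r) ^ p)⁻¹ * e q r : (Ω q)ˣ) := by
    simp only [w, c, Subgroup.coe_mul, InvMemClass.coe_inv, SubmonoidClass.coe_pow, Pi.mul_apply,
      Pi.inv_apply, Pi.pow_apply, glue_placeRep hz hr]
    rfl
  have hw : ((w : PreIdele) q g : Ω q) = τ ((w : PreIdele) q r : Ω q) := by
    rw [eg, apply_eq_of_rep w.2 q τ r hs]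
  have hone : q ∈ S₀ → ((w : PreIdele) q r : Ω q) = 1 := fun hq => by
    rw [hwr]
    have e1 : (z q r) ^ p = e q r := Units.ext (by
      simp only [z, dif_pos (⟨hq, hr⟩ : q ∈ S₀ ∧ placeRep q K r = r), Units.val_pow_eq_pow_val,
        Units.val_mk0, hyp q hq r hr])
    rw [e1, inv_mul_cancel, Units.val_one]
  refine ⟨?_, fun hq => Units.ext ?_⟩
  · show ‖((w : PreIdele) q g : Ω q)‖ = 1
    rw [hw, norm_algEquiv_Ω]
    by_cases hq : q ∈ S₀
    · rw [hone hq, norm_one]
    · rw [hwr]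
      simp only [z, dif_neg fun h : q ∈ S₀ ∧ placeRep q K r = r => hq h.1, one_pow,
        inv_one, one_mul]
      exact hx.1.2 q hq r
  · show ((w : PreIdele) q g : Ω q) = 1
    rw [hw, hone (hS (Finset.mem_coe.mp hq)), map_one]

variable {L : IntermediateField ℚ QBar} [FiniteDimensional ℚ L] [Normal ℚ L] (hKL : K ≤ L)

omit [FiniteDimensional ℚ ↥K] in
open Classical in
/-- Norms from `L` are norms from the intermediate Kummer extension. -/
theorem exists_normStep_eq_normSum (hζ : IsPrimitiveRoot ζ p) (hζK : ζ ∈ K)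
    [Fintype (levelRes hKL).ker] {b : QBar} (hbK : b ∈ K) (hb0 : b ≠ 0)
    (hβL : rootP p b ∈ L) {g₀ : GQ} (hg₀ : g₀ ∈ K.fixingSubgroup) (hkum : kum hζ g₀ b = 1)
    (y : J L) : ∃ Y ∈ idl (kumField K (rootP p b)),
      ((((normSum (levelRes hKL).ker (J L) y).toMul : idl L)) : PreIdele) = normStep p g₀ Y := by
  set M := kumField K (rootP p b)
  have hML : M ≤ L := sup_le hKL (IntermediateField.adjoin_le_iff.mpr (by rintro _ rfl; exact hβL))
  set N : Subgroup (L ≃ₐ[ℚ] L) := M.fixingSubgroup.map (res L)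
  set γ := res L g₀
  have hγ : γ ∈ (levelRes hKL).ker := by
    rw [MonoidHom.mem_ker, levelRes_res, res_eq_one_iff]; exact hg₀
  have hN : ∀ n ∈ N, n ∈ (levelRes hKL).ker := fun n hn => by
    obtain ⟨s, hs, rfl⟩ := hn
    rw [MonoidHom.mem_ker, levelRes_res, res_eq_one_iff]
    exact (mem_fixingSubgroup_kumField.1 hs).1
  -- Let `z` be the norm of `y` down to the Kummer extension `M`.
  let z : J L := ∑ n : N, (n : L ≃ₐ[ℚ] L) • y
  have hzfix : ∀ n ∈ N, n • z = z := fun n hn => by
    rw [Finset.smul_sum]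
    refine Fintype.sum_equiv (Equiv.mulLeft (⟨n, hn⟩ : N)) _ _ fun m => ?_
    rw [smul_smul]
    rfl
  refine ⟨((z.toMul : idl L) : PreIdele), (mem_fixedBy_idl_iff L z.toMul).mp fun k hk =>
    congrArg Additive.toMul (hzfix k hk), ?_⟩
  have hkum' : ∀ g g' : GQ, res L g = res L g' → kum hζ g b = kum hζ g' b := fun g g' e => by
    have : g (rootP p b) = g' (rootP p b) := by
      rw [← res_apply L g ⟨_, hβL⟩, e, res_apply]
    unfold kum
    simp only [this]
  -- The group of `L` over `K` is the union of `γ ^ i N`, so the norm is the step norm of `z`.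
  let φ : ZMod p × N → (levelRes hKL).ker := fun x =>
    ⟨γ ^ x.1.val * (x.2 : L ≃ₐ[ℚ] L), mul_mem (pow_mem hγ _) (hN _ x.2.2)⟩
  have hker : ∀ (i : ZMod p) (s : GQ), s ∈ M.fixingSubgroup → kum hζ (g₀ ^ i.val * s) b = i :=
    fun i s hs => by
      obtain ⟨hsK, hsβ⟩ := mem_fixingSubgroup_kumField.1 hs
      rw [kum_comp hζ hζK (pow_mem hg₀ _) hsK hbK hb0, kum_pow hζ hζK hbK hb0 hg₀ hkum,
        (kum_eq_zero_iff hζ hζK hsK hbK hb0 (rootP_pow b)).mpr hsβ, add_zero, ZMod.natCast_zmod_val]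
  have hbij : Function.Bijective φ := by
    refine ⟨fun x x' e => ?_, fun σ => ?_⟩
    · have e1 : γ ^ x.1.val * (x.2 : L ≃ₐ[ℚ] L) = γ ^ x'.1.val * (x'.2 : L ≃ₐ[ℚ] L) :=
        congrArg Subtype.val e
      obtain ⟨s, hs, es⟩ := x.2.2
      obtain ⟨s', hs', es'⟩ := x'.2.2
      have hi : x.1 = x'.1 := by
        have e2 : res L (g₀ ^ x.1.val * s) = res L (g₀ ^ x'.1.val * s') := by
          rw [map_mul, map_mul, map_pow, map_pow, es, es']; exact e1
        rw [← hker x.1 s hs, hkum' _ _ e2, hker x'.1 s' hs']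
      refine Prod.ext hi (Subtype.ext ?_)
      rw [hi] at e1
      exact mul_left_cancel e1
    · obtain ⟨g, hg⟩ := AlgEquiv.restrictNormalHom_surjective (K₁ := L) QBar (σ : L ≃ₐ[ℚ] L)
      have hgK : g ∈ K.fixingSubgroup := by
        rw [← res_eq_one_iff, ← levelRes_res hKL, show res L g = (σ : L ≃ₐ[ℚ] L) from hg]
        exact σ.2
      refine ⟨(kum hζ g b, ⟨_, (g₀ ^ (kum hζ g b).val)⁻¹ * g,
        inv_pow_mul_mem hζ hζK hbK hb0 hg₀ hkum hgK, rfl⟩), Subtype.ext ?_⟩
      show γ ^ (kum hζ g b).val * res L ((g₀ ^ (kum hζ g b).val)⁻¹ * g) = (σ : L ≃ₐ[ℚ] L)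
      rw [map_mul, map_inv, map_pow, mul_inv_cancel_left]
      exact hg
  have hsum : normSum (levelRes hKL).ker (J L) y = ∑ i ∈ Finset.range p, γ ^ i • z := by
    show ∑ σ : (levelRes hKL).ker, (σ : L ≃ₐ[ℚ] L) • y = _
    rw [← hbij.sum_comp (fun σ : (levelRes hKL).ker => (σ : L ≃ₐ[ℚ] L) • y), Fintype.sum_prod_type,
      Finset.sum_range]
    refine Fintype.sum_bijective (fun i : ZMod p => (⟨i.val, ZMod.val_lt i⟩ : Fin p))
      ((Fintype.bijective_iff_injective_and_card _).mpr ⟨fun i j e => ZMod.val_injective p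
        (congrArg Fin.val e), by rw [ZMod.card, Fintype.card_fin]⟩) _ _ fun i => ?_
    simp only [φ, z, Finset.smul_sum, smul_smul]
  rw [hsum, toMul_sum]
  exact coe_prod_smul L g₀ p z.toMul

/-- **Norms of classes are multiples of `p` up to unit families.** -/
theorem exists_normSum_eq (hp2 : p ≠ 2) (hζ : IsPrimitiveRoot ζ p) (hζK : ζ ∈ K)
    (hpS : pPrime p ∈ S) (hKS : K.IsUnramifiedOutside S) [Fintype (levelRes hKL).ker]
    (hroots : urRoots p S K ⊆ L) (x : C L) :
    ∃ c : C K, ∃ w ∈ unitsOff K (S : Set Nat.Primes),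
      normSum (levelRes hKL).ker (C L) x = Duality.inclC hKL (p • c + proj K w) := by
  classical
  obtain ⟨y, rfl⟩ := proj_surjective L x
  have hy : normSum (levelRes hKL).ker (C L) (proj L y) =
      proj L (normSum (levelRes hKL).ker (J L) y) := by
    simp only [normSum, map_sum, Subgroup.smul_def, proj_smul]
  -- The norm descends to an idele `f₀` of `K`.
  obtain ⟨f₀, hf₀⟩ := exists_inclJ_eq hKL (x := normSum (levelRes hKL).ker (J L) y)
    fun σ hσ => smul_normSum (⟨σ, hσ⟩ : (levelRes hKL).ker) y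
  rw [hy, ← hf₀, ← Duality.inclC_proj]
  obtain ⟨S₀, hSS₀, hS₀⟩ := exists_goodSet hp2 hζ hζK S
  by_cases hf : ((f₀.toMul : idl K) : PreIdele) ∈
      (prinSub K ⊔ powAt p S₀ K) ⊔ unitsOffP (S : Set Nat.Primes) K
  -- Either it is principal times `p`-th powers times units, which gives the decomposition, ...
  · obtain ⟨_, h1, u, hu, e1⟩ := Subgroup.mem_sup.1 hf
    obtain ⟨_, ⟨c, hc, rfl⟩, e, he, e2⟩ := Subgroup.mem_sup.1 h1
    obtain ⟨a, ha⟩ := exists_unitsToQ_eq (L := K) (x := Additive.ofMul c) hc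
    set eJ : J K := Additive.ofMul ⟨e, he.1.1⟩
    set uJ : J K := Additive.ofMul ⟨u, hu.1⟩
    obtain ⟨c', w, hw, hec⟩ := exists_eq_nsmul_add_unitsOff (x := eJ) hSS₀ he
    have hdiag : f₀ = diag K a + eJ + uJ := by
      refine Additive.toMul.injective (Subtype.ext (e1.symm.trans ?_))
      rw [← e2]
      simp only [toMul_add, Subgroup.coe_mul, eJ, uJ, toMul_ofMul]
      congr 2
      show prin c = prin (unitsToQ K a).toMul
      rw [ha, toMul_ofMul]
    refine ⟨proj K c', w + uJ, add_mem hw (mem_unitsOff_of_unitsOffP (x := uJ) hu), ?_⟩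
    rw [hdiag, hec]
    simp only [map_add, map_nsmul, Idele.proj_diag _]
    rw [map_zero, zero_add]
    abel
  · exfalso
    -- ... or some Kummer extension inside `L` has norm group avoiding it, which is absurd.
    obtain ⟨b, hbK, hb0, -, hur, g₀, hg₀, hkum, hnot⟩ := exists_notMem_normSub hp2 hζ hζK hS₀
      (T := (S : Set Nat.Primes)) hpS (f₀.toMul : idl K).2 hf
    obtain ⟨a, ha⟩ := exists_unitsToQ_eq (L := K) (x := Additive.ofMul (Units.mk0 b hb0)) hbK
    have haq : (((a.toMul : Kˣ) : K) : QBar) = b :=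
      congrArg (fun z : Additive QBarˣ => ((z.toMul : QBarˣ) : QBar)) ha
    have hrad : a ∈ urRad p S K := fun q hq g => by
      obtain ⟨c, hc, hcn⟩ := hur q hq _ (placeRep_idem g)
      have hcE : c ∈ E K q := fieldAt_eq K q (placeRep q K g) ▸ hc
      have hb' : ‖emb q (g b)‖ = ‖emb q (placeRep q K g b)‖ := by
        have h := norm_value_eq (prin_mem_idl_iff.mpr (show Units.mk0 b hb0 ∈ unitsOf K from hbK))
          q g
        rwa [prin_val, prin_val] at h
      have hc0 : (⟨c, hcE⟩ : E K q) ≠ 0 := fun h0 => by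
        rw [show c = 0 from congrArg Subtype.val h0, norm_zero, zero_pow hp.out.ne_zero,
          norm_eq_zero, map_eq_zero, map_eq_zero] at hcn
        exact hb0 hcn
      obtain ⟨n, hn⟩ := exists_norm_eq_zpow_of_ur K hKS (fun h => hq (Finset.mem_coe.mpr h))
        (Units.mk0 _ hc0)
      refine ⟨n, ?_⟩
      rw [normAt_diag, haq, hb', hcn, show ‖c‖ = (q : ℝ) ^ n from hn, ← zpow_natCast, ← zpow_mul,
        mul_comm]
    have hβL : rootP p b ∈ L := hroots ⟨a, hrad, (rootP_pow b).trans haq.symm⟩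
    obtain ⟨Y, hY, hYe⟩ := exists_normStep_eq_normSum hKL hζ hζK hbK hb0 hβL hg₀ hkum y
    refine hnot (Subgroup.mem_sup_right ⟨Y, hY, ?_⟩)
    show normStep p g₀ Y = _
    rw [← hYe, ← hf₀]
    rfl

end Fermat.Agent.CFT.PT
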