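import Fermat.Agent.CFT.PT.LocalInput
import Fermat.Agent.CFT.PT.Arith.LocalRoot

/-!
# Every equivariant map into classes is linked to a locally trivial cocycle

The obstruction to extending an equivariant `f : R → C K` to ideles of a level is a `2`-cocycle with
values in the twisted dual; locally it is the coboundary of the extension of the local component.
-/

set_option autoImplicit false

noncomputable section

namespace Fermat.Agent.CFT.PT

open ExtCitation Fermat.Agent.Arith IntermediateField Fermat.Agent.CFT.Local Fermat.Agent.CFT.Idele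
open Fermat.Agent.CFT.Duality groupCohomology

variable {p : ℕ} [hp : Fact p.Prime] {K : IntermediateField ℚ QBar} [FiniteDimensional ℚ K]
  [Normal ℚ K] {A ι : Type} [AddCommGroup A] [DistribMulAction (K ≃ₐ[ℚ] K) A] [Fintype ι]
  {ε : Lat (K ≃ₐ[ℚ] K) ι →+ A} {S : Finset Nat.Primes}

omit [DistribMulAction (K ≃ₐ[ℚ] K) A] in
/-- A lift of an equivariant map to ideles with divisible orders outside `S` at some level. -/
theorem exists_lift_divOrd (hpS : pPrime p ∈ S) (hKS : K.IsUnramifiedOutside S)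
    (f : ε.ker →+ C K) :
    ∃ (L : IntermediateField ℚ QBar) (_ : FiniteDimensional ℚ L) (_ : Normal ℚ L) (le : K ≤ L)
      (b : ε.ker →+ J L), L.IsUnramifiedOutside S ∧ (∀ s, proj L (b s) = Duality.inclC le (f s)) ∧
        ∀ s, b s ∈ divOrd L p (S : Set Nat.Primes) := by
  classical
  have := free_subgroup ε.ker
  have : Module.Finite ℤ ε.ker :=
    Module.Finite.iff_addGroup_fg.mpr (AddGroup.fg_iff_addSubgroup_fg _ |>.mpr
      ((Submodule.fg_iff_addSubgroup_fg (AddSubgroup.toIntSubmodule ε.ker)).1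
        (IsNoetherian.noetherian _)))
  let bas := Module.Free.chooseBasis ℤ ε.ker
  -- Lift a basis to ideles; after capitulation at some level their orders off `S` are divisible.
  choose x hx using fun j => proj_surjective K (f (bas j))
  choose L2 hfd hn h2 α hur hα using fun j => exists_capitulation (p := p) hpS hKS (x j).toMul
  obtain ⟨L, hL, hKL, hle⟩ := exists_level_forall (fun j L => L2 j ≤ L)
    (fun _ _ _ _ _ hle h => h.trans hle) (⟨inferInstance, inferInstance, hKS⟩ : IsLevelS S K)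
    fun j L hL _ => ⟨L ⊔ L2 j, hL.sup ⟨hfd j, hn j, hur j⟩, le_sup_left, le_sup_right⟩
  have := hL.fd; have := hL.normal
  have hgood : ∀ j, inclJ hKL (x j) - diag L (unitsIncl (hle j) (Additive.ofMul (α j))) ∈
      divOrd L p (S : Set Nat.Primes) := fun j => by
    let := hfd j; let := hn j
    have e : inclJ hKL (x j) - diag L (unitsIncl (hle j) (Additive.ofMul (α j))) =
        inclJ (hle j) (inclJ (h2 j) (x j) - diag (L2 j) (Additive.ofMul (α j))) := by
      rw [map_sub, diag_unitsIncl]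
      rfl
    rw [e, inclJ_mem_divOrd_iff]
    intro q hq g
    obtain ⟨n, hn⟩ := hα j q (fun h => hq (Finset.mem_coe.mpr h)) (res (L2 j) g)
    refine ⟨n, ?_⟩
    rw [sub_eq_add_neg, normAt_add, normAt_neg, normAt_diag_res, ← norm_val_eq, ← div_eq_mul_inv]
    exact hn
  -- The lift on the basis gives the map `b`.
  let b : ε.ker →+ J L := (bas.constr ℤ fun j =>
    inclJ hKL (x j) - diag L (unitsIncl (hle j) (Additive.ofMul (α j)))).toAddMonoidHom
  have hb : ∀ j, b (bas j) = inclJ hKL (x j) - diag L (unitsIncl (hle j) (Additive.ofMul (α j))) :=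
    fun j => Module.Basis.constr_basis bas ℤ _ j
  refine ⟨L, hL.fd, hL.normal, hKL, b, hL.ur, fun s => ?_, fun s => ?_⟩
  · have : ((proj L).comp b).toIntLinearMap = ((Duality.inclC hKL).comp f).toIntLinearMap :=
      bas.ext fun j => by
        show proj L (b (bas j)) = Duality.inclC hKL (f (bas j))
        rw [hb, map_sub, Idele.proj_diag _, sub_zero, ← Duality.inclC_proj, hx]
    exact LinearMap.congr_fun this s
  · rw [← bas.sum_repr s, map_sum]
    refine sum_mem fun j _ => ?_
    rw [map_zsmul, hb]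
    exact zsmul_mem (hgood j) _

variable (hε : Presentation p ε)

include hε in
/-- The coboundary of such a lift extends to the lattice at some level. -/
theorem exists_extend_coboundary (hpS : pPrime p ∈ S) (f : equivHom (C := C K) hε.isStable_ker)
    {L : IntermediateField ℚ QBar} [FiniteDimensional ℚ L] [Normal ℚ L] (le : K ≤ L)
    (hLS : L.IsUnramifiedOutside S) (b : ε.ker →+ J L)
    (hbf : ∀ s, proj L (b s) = Duality.inclC le (f.1 s))
    (hb : ∀ s, b s ∈ divOrd L p (S : Set Nat.Primes)) :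
    ∃ (L' : IntermediateField ℚ QBar) (_ : FiniteDimensional ℚ L') (_ : Normal ℚ L') (le' : K ≤ L')
      (b' : ε.ker →+ J L')
      (e : (L' ≃ₐ[ℚ] L') → TwHom (levelRes le') (Lat (K ≃ₐ[ℚ] K) ι) (Additive L'ˣ)),
      L'.IsUnramifiedOutside S ∧ (∀ s, proj L' (b' s) = Duality.inclC le' (f.1 s)) ∧
      (∀ g (s : ε.ker),
        g • b' (smulS hε.isStable_ker (levelRes le' g⁻¹) s) - b' s = diag L' (e g s)) ∧
      ∀ s, b' s ∈ divOrd L' p (S : Set Nat.Primes) := by
  classical
  -- The coboundary of `b` is diagonal, so it extends to the lattice by roots.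
  let δ : (L ≃ₐ[ℚ] L) → ε.ker →+ J L := fun g => AddMonoidHom.mk'
    (fun s => g • b (smulS hε.isStable_ker (levelRes le g⁻¹) s) - b s) fun s t => by
      rw [show smulS hε.isStable_ker (levelRes le g⁻¹) (s + t) =
        smulS hε.isStable_ker (levelRes le g⁻¹) s + smulS hε.isStable_ker (levelRes le g⁻¹) t from
        Subtype.ext (smul_add _ _ _), map_add b, map_add b, smul_add]
      abel
  have hδ : ∀ g s, proj L (δ g s) = 0 := fun g s => by
    simp only [δ, AddMonoidHom.mk'_apply, map_sub, proj_smul, hbf]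
    rw [Duality.smul_inclC, ← f.2, smulS_smulS, map_inv, mul_inv_cancel,
      show smulS hε.isStable_ker (1 : K ≃ₐ[ℚ] K) s = s from Subtype.ext (one_smul _ _), sub_self]
  choose β hβ using fun g => exists_diag_hom (δ g) (hδ g)
  choose W hW using fun g => exists_extension_divisible (X := Additive QBarˣ)
    (exists_nsmul_eq hp.out.pos) hε ((unitsToQ L).comp (β g))
  -- These roots lie at a level `L'` unramified outside `S`.
  let κ := (L ≃ₐ[ℚ] L) × ι × (K ≃ₐ[ℚ] K)
  obtain ⟨L', hL', hLL', hyL⟩ := exists_level_roots (p := p) hpS hLS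
    (fun i : κ => β i.1 (mulP hε.smul_mem (Lat.e i.2.1 i.2.2))) (fun i => by
      rw [hβ]
      exact sub_mem (smul_mem_divOrd _ (hb _)) (hb _))
    (fun i => (((W i.1 (Lat.e i.2.1 i.2.2)).toMul : QBarˣ) : QBar)) fun i => by
      have e := congrArg (fun z : Additive QBarˣ => ((z.toMul : QBarˣ) : QBar))
        (nsmul_extension hε (hW i.1) (Lat.e i.2.1 i.2.2))
      simp only [toMul_nsmul, Units.val_pow_eq_pow_val, AddMonoidHom.comp_apply] at e
      exact e.trans (unitsToQ_val L _)
  have := hL'.fd; have := hL'.normal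
  choose w hw using fun i : κ => exists_unitsToQ_eq (L := L')
    (x := W i.1 (Lat.e i.2.1 i.2.2)) (hyL i)
  let le' := le.trans hLL'
  -- Read the extensions as homomorphisms into the units of `L'`.
  let e : (L' ≃ₐ[ℚ] L') → TwHom (levelRes le') (Lat (K ≃ₐ[ℚ] K) ι) (Additive L'ˣ) := fun σ =>
    TwHom.of (Lat.ofBasis fun i x => w (levelRes hLL' σ, i, x))
  have he : ∀ σ z, unitsToQ L' (e σ z) = W (levelRes hLL' σ) z := fun σ => DFunLike.congr_fun
    (show (unitsToQ L').comp (e σ).toHom = W (levelRes hLL' σ) from Lat.hom_ext fun i x => by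
      simp only [e, AddMonoidHom.comp_apply, TwHom.toHom_apply, TwHom.of_apply, Lat.ofBasis_e]
      exact hw (levelRes hLL' σ, i, x))
  refine ⟨L', hL'.fd, hL'.normal, le', (inclJ hLL').comp b, e, hL'.ur, fun s => ?_, fun g s => ?_,
    fun s => (inclJ_mem_divOrd_iff hLL').2 (hb s)⟩
  · rw [AddMonoidHom.comp_apply, ← Duality.inclC_proj, hbf, Duality.inclC_inclC]
  · have e1 : unitsToQ L' (e g s) = unitsToQ L' (unitsIncl hLL' (β (levelRes hLL' g) s)) := by
      rw [he, unitsToQ_unitsIncl, hW]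
      rfl
    rw [unitsToQ_injective L' e1, diag_unitsIncl, hβ]
    simp only [δ, AddMonoidHom.mk'_apply, AddMonoidHom.comp_apply, map_sub, smul_inclJ, map_inv,
      levelRes_levelRes]

include hε in
omit hp [FiniteDimensional ℚ K] [Normal ℚ K] [Fintype ι] in
/-- A homomorphism on the lattice vanishing on the relations factors. -/
theorem exists_factor {X : Type*} [AddCommGroup X] (φ : Lat (K ≃ₐ[ℚ] K) ι →+ X)
    (h : ∀ s : ε.ker, φ s = 0) : ∃ ψ : A →+ X, ∀ z, ψ (ε z) = φ z :=
  ⟨AddMonoidHom.liftOfSurjective ε hε.surjective ⟨φ, fun z hz => h ⟨z, hz⟩⟩, fun z =>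
    AddMonoidHom.liftOfRightInverse_comp_apply ε _ _ ⟨φ, fun z hz => h ⟨z, hz⟩⟩ z⟩

/-- The embedding of units. -/
def embU (q : Nat.Primes) : Additive QBarˣ →+ Additive (Ω q)ˣ :=
  MonoidHom.toAdditive (Units.map (emb q : QBar →* Ω q))

theorem embU_val (q : Nat.Primes) (x : Additive QBarˣ) :
    (((embU q x).toMul : (Ω q)ˣ) : Ω q) = emb q ((x.toMul : QBarˣ) : QBar) := rfl

theorem embU_injective (q : Nat.Primes) : Function.Injective (embU q) := fun _x _y h =>
  Additive.toMul.injective (Units.ext ((emb q).injective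
    (congrArg (fun z : Additive (Ω q)ˣ => ((z.toMul : (Ω q)ˣ) : Ω q)) h)))

/-- The local Galois group on units. -/
def galU (q : Nat.Primes) (τ : Ω q ≃ₐ[ℚ_[(q : ℕ)]] Ω q) : Additive (Ω q)ˣ →+ Additive (Ω q)ˣ :=
  MonoidHom.toAdditive (Units.map (τ : Ω q →* Ω q))

theorem galU_galU (q : Nat.Primes) (σ τ : Ω q ≃ₐ[ℚ_[(q : ℕ)]] Ω q) (x : Additive (Ω q)ˣ) :
    galU q σ (galU q τ x) = galU q (σ * τ) x := Additive.toMul.injective (Units.ext rfl)

theorem embU_smul (q : Nat.Primes) (τ : Ω q ≃ₐ[ℚ_[(q : ℕ)]] Ω q) (x : Additive QBarˣ) :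
    embU q (loc q τ • x) = galU q τ (embU q x) :=
  Additive.toMul.injective (Units.ext (emb_loc q τ _))

/-- Roots of unity of `ℚ̄_q` come from `ℚ̄`. -/
theorem exists_embU_eq {ζ : QBar} (hζ : IsPrimitiveRoot ζ p) {q : Nat.Primes}
    {x : Additive (Ω q)ˣ} (hx : p • x = 0) : ∃ y : Additive QBarˣ, embU q y = x := by
  have : NeZero p := ⟨hp.out.ne_zero⟩
  obtain ⟨i, -, hi⟩ := (hζ.map_of_injective (f := emb q) (emb q).injective).eq_pow_of_pow_eq_one
    (ξ := ((x.toMul : (Ω q)ˣ) : Ω q)) (by
      rw [← Units.val_pow_eq_pow_val, ← toMul_nsmul, hx, toMul_zero, Units.val_one])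
  exact ⟨Additive.ofMul (Units.mk0 (ζ ^ i) (pow_ne_zero i (hζ.ne_zero hp.out.ne_zero))),
    Additive.toMul.injective (Units.ext (by rw [embU_val]; simpa using hi))⟩

theorem embU_diag {L : IntermediateField ℚ QBar}
    (q : Nat.Primes) (a : Additive Lˣ) :
    embU q (unitsToQ L a) = Additive.ofMul (((diag L a).toMul : PreIdele) q 1) :=
  Additive.toMul.injective (Units.ext rfl)

/-- The component at the distinguished place. -/
def compAt {L : IntermediateField ℚ QBar} [FiniteDimensional ℚ L] [Normal ℚ L] (q : Nat.Primes) :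
    J L →+ Additive (Ω q)ˣ :=
  AddMonoidHom.mk' (fun y => Additive.ofMul (((y.toMul : idl L) : PreIdele) q 1)) fun _ _ => rfl

theorem compAt_smul {L : IntermediateField ℚ QBar} [FiniteDimensional ℚ L] [Normal ℚ L]
    (q : Nat.Primes) (τ : Ω q ≃ₐ[ℚ_[(q : ℕ)]] Ω q) (y : J L) :
    compAt q (res L (loc q τ) • y) = galU q τ (compAt q y) := by
  refine Additive.toMul.injective (Units.ext ?_)
  show (((res L (loc q τ) • y.toMul : idl L) : PreIdele) q 1 : Ω q) = _
  rw [coe_smul_idl L _ _ rfl, transl_apply, one_mul]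
  have h := (mem_idl.1 y.toMul.2).1 q τ 1
  rw [mul_one] at h
  exact h

theorem compAt_mem {L : IntermediateField ℚ QBar} [FiniteDimensional ℚ L] [Normal ℚ L]
    (q : Nat.Primes) (y : J L) :
    (((compAt q y).toMul : (Ω q)ˣ) : Ω q) ∈ localField (q : ℕ) L := value_mem_E L y.toMul.2 q 1

include hε in
/-- **The local cochain**: at each place the cocycle of such data is a coboundary of finite
level. -/
theorem isLocTriv₂_of_data (hp2 : p ≠ 2) {ζ : QBar} (hζ : IsPrimitiveRoot ζ p)
    {L : IntermediateField ℚ QBar} [FiniteDimensional ℚ L] [Normal ℚ L] (le : K ≤ L)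
    (b : ε.ker →+ J L)
    (e : (L ≃ₐ[ℚ] L) → TwHom (levelRes le) (Lat (K ≃ₐ[ℚ] K) ι) (Additive Lˣ))
    (hbe : ∀ g (s : ε.ker),
      g • b (smulS hε.isStable_ker (levelRes le g⁻¹) s) - b s = diag L (e g s))
    (c : GQ × GQ → DualMod K A)
    (hc : ∀ g h, TwHom.pre ε (c (g, h)) = toQHom (dOne e (res L g, res L h))) (q : Nat.Primes) :
    IsLocTriv₂ q c := by
  classical
  obtain ⟨U, hU⟩ := exists_extension_divisible (X := Additive (Ω q)ˣ)
    (exists_nsmul_eq hp.out.pos) hε ((compAt q).comp b)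
  let φ : (Ω q ≃ₐ[ℚ_[(q : ℕ)]] Ω q) → Lat (K ≃ₐ[ℚ] K) ι →+ Additive (Ω q)ˣ := fun τ =>
    (embU q).comp (toQHom (e (res L (loc q τ)))).toHom -
      ((galU q τ).comp (U.comp (DistribSMul.toAddMonoidHom _ (res K (loc q τ)⁻¹))) - U)
  have hφ : ∀ τ (s : ε.ker), φ τ s = 0 := fun τ s => by
    have e1 := congrArg (compAt q) (hbe (res L (loc q τ)) s)
    rw [map_sub, compAt_smul, ← map_inv (res L), levelRes_res] at e1
    simp only [φ, AddMonoidHom.sub_apply, AddMonoidHom.comp_apply, TwHom.toHom_apply, toQHom_apply,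
      DistribSMul.toAddMonoidHom_apply]
    rw [embU_diag, ← coe_smulS hε.isStable_ker, hU, hU, AddMonoidHom.comp_apply,
      AddMonoidHom.comp_apply, sub_eq_zero]
    exact e1.symm
  choose ψ hψ using fun τ => exists_factor hε (φ τ) (hφ τ)
  have hψp : ∀ τ a, p • ψ τ a = 0 := fun τ a => by rw [← map_nsmul, hε.killed, map_zero]
  choose x hx using fun τ a => exists_embU_eq hζ (hψp τ a)
  let X : (Ω q ≃ₐ[ℚ_[(q : ℕ)]] Ω q) → DualMod K A := fun τ =>
    TwHom.of (AddMonoidHom.mk' (x τ) fun a a' => embU_injective q (by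
      rw [map_add (embU q), hx, hx, hx, map_add (ψ τ)]))
  have hX : ∀ τ z, embU q (X τ (ε z)) = φ τ z := fun τ z => (hx τ (ε z)).trans (hψ τ z)
  -- the level of the extension
  have hyroot : ∀ i : ι × (K ≃ₐ[ℚ] K),
      (((U (Lat.e i.1 i.2)).toMul : (Ω q)ˣ) : Ω q) ^ p ∈ localField (q : ℕ) L := fun i => by
    rw [← Units.val_pow_eq_pow_val, ← toMul_nsmul, nsmul_extension hε hU]
    exact compAt_mem q _
  choose F hFfd hFn hLF hyF using fun i => exists_mem_localField_of_pow_mem hp2 L
    (Units.ne_zero _) (hyroot i)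
  have := fun i => hFfd i
  have hfdS : FiniteDimensional ℚ (⨆ i, F i : IntermediateField ℚ QBar) :=
    IntermediateField.finiteDimensional_iSup_of_finite
  refine ⟨L ⊔ ⨆ i, F i, X, IntermediateField.finiteDimensional_sup _ _, fun g s hs => ?_,
    fun σ τ => ?_⟩
  · refine TwHom.ext fun a => embU_injective q ?_
    obtain ⟨z, rfl⟩ := hε.surjective a
    have hsL : res L (loc q s) = 1 := (res_eq_one_iff L).2
      (IntermediateField.fixingSubgroup_antitone le_sup_left hs)
    have hsK : res K (loc q s) = 1 := by rw [← levelRes_res le, hsL, map_one]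
    have hsfix : ∀ y ∈ localField (q : ℕ) (L ⊔ ⨆ i, F i : IntermediateField ℚ QBar), s y = y :=
      fun y hy => fixes_localField (q : ℕ) _ (fun x => by
        rw [← emb_loc]
        exact congrArg (emb q) ((IntermediateField.mem_fixingSubgroup_iff _ _).mp hs x x.2)) hy
    have hU' : (galU q s).comp U = U := Lat.hom_ext fun i y => Additive.toMul.injective (Units.ext
      (hsfix _ (localField_mono (q : ℕ) ((le_iSup F (i, y)).trans le_sup_right) (hyF (i, y)))))
    rw [hX, hX]
    simp only [φ, AddMonoidHom.sub_apply, AddMonoidHom.comp_apply, TwHom.toHom_apply, toQHom_apply,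
      DistribSMul.toAddMonoidHom_apply, map_mul, hsL, mul_one, map_inv, hsK,
      ← galU_galU]
    rw [← AddMonoidHom.comp_apply (galU q s) U, hU']
  · refine TwHom.ext fun a => embU_injective q ?_
    obtain ⟨z, rfl⟩ := hε.surjective a
    have e1 := congr_arg (fun η : TwHom (res K) (Lat (K ≃ₐ[ℚ] K) ι) (Additive QBarˣ) =>
      embU q (η z)) (hc (loc q σ) (loc q τ))
    simp only [TwHom.pre_apply, dOne, toQHom_apply, TwHom.add_apply, TwHom.sub_apply,
      TwHom.smul_apply, map_add, map_sub, ← smul_unitsToQ, embU_smul] at e1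
    simp only [TwHom.add_apply, TwHom.sub_apply, TwHom.smul_apply, map_add, map_sub, embU_smul]
    rw [← hε.map_smul, hX, hX, hX, e1]
    simp only [φ, AddMonoidHom.sub_apply, AddMonoidHom.comp_apply, TwHom.toHom_apply, toQHom_apply,
      DistribSMul.toAddMonoidHom_apply, map_sub, galU_galU, map_mul, map_inv, mul_inv_rev, mul_smul,
      levelRes_res]
    abel

include hε in
/-- **Every equivariant map into classes is linked to a locally trivial cocycle.** -/
theorem exists_cocycle_linked (hp2 : p ≠ 2) {ζ : QBar} (hζ : IsPrimitiveRoot ζ p)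
    (hpS : pPrime p ∈ S) (hKS : K.IsUnramifiedOutside S)
    (f : equivHom (C := C K) hε.isStable_ker) :
    ∃ c ∈ sha₂Cocycles K A S, Linked hε S c f.1 := by
  classical
  obtain ⟨L₀, hfd₀, hn₀, le₀, b₀, hur₀, hbf₀, hb₀⟩ := exists_lift_divOrd (p := p) hpS hKS f.1
  obtain ⟨L, hfd, hn, le, b, e, hur, hbf, hbe, hb⟩ :=
    exists_extend_coboundary hε hpS f le₀ hur₀ b₀ hbf₀ hb₀
  let D : GQ → GQ → TwHom (res K) (Lat (K ≃ₐ[ℚ] K) ι) (Additive QBarˣ) := fun g h =>
    toQHom (dOne e (res L g, res L h))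
  have hD : ∀ g h (s : ε.ker), D g h s = 0 := fun g h s => by
    have e0 : ∀ x y (s : ε.ker), dOne e (x, y) s = 0 := fun x y s => by
      have e1 := congrArg (fun z : J L => x • z) (hbe y (smulS hε.isStable_ker (levelRes le x⁻¹) s))
      simp only [smul_sub] at e1
      have e2 := hbe (x * y) s
      have e3 := hbe x s
      rw [mul_inv_rev, map_mul, ← smulS_smulS, mul_smul] at e2
      refine diag_injective L ?_
      simp only [dOne, TwHom.add_apply, TwHom.sub_apply, TwHom.smul_apply, map_add, map_sub,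
        diag_smul, map_zero]
      rw [← e2, ← e3, ← coe_smulS hε.isStable_ker, ← e1]
      abel
    show unitsToQ L (dOne e (res L g, res L h) s) = 0
    rw [e0, map_zero]
  choose ψ hψ using fun g h => exists_factor hε (D g h).toHom (hD g h)
  let c : GQ × GQ → DualMod K A := fun gh => TwHom.of (ψ gh.1 gh.2)
  have hc : ∀ g h, TwHom.pre ε (c (g, h)) = toQHom (dOne e (res L g, res L h)) :=
    fun g h => TwHom.ext fun z => hψ g h z
  have hpre : Function.Injective (TwHom.pre (π := res K) (X := Additive QBarˣ) ε) := fun u v huv =>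
    TwHom.ext fun a => by
      obtain ⟨z, rfl⟩ := hε.surjective a
      exact congr_arg (fun η : TwHom (res K) (Lat (K ≃ₐ[ℚ] K) ι) (Additive QBarˣ) => η z) huv
  refine ⟨c, ⟨fun g h j => hpre ?_, ⟨L, hur, fun g g' s s' hs hs' => hpre ?_⟩, fun q _ =>
    isLocTriv₂_of_data hε hp2 hζ le b e hbe c hc q⟩, L, hfd, hn, le, hur, b, e, hbf, hbe,
    fun x => hb _, hc⟩
  · rw [map_add, map_add, TwHom.pre_smul ε hε.map_smul, hc, hc, hc, hc, smul_toQHom, ← map_add,
      ← map_add, map_mul, map_mul]
    exact congrArg toQHom (isCocycle₂_dOne e (res L g) (res L h) (res L j))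
  · rw [hc, hc, map_mul, map_mul, (res_eq_one_iff L).2 hs, (res_eq_one_iff L).2 hs', mul_one,
      mul_one]

end Fermat.Agent.CFT.PT
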