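import Fermat.Agent.CFT.PT.LocalDual
import Fermat.Agent.CFT.PT.NormPow
import Fermat.Agent.CFT.PT.Surj

/-!
# The kernel of the pairing on the side of `2`-cocycles

A map killing the cocycles trivial at `S` is, modulo restrictions from the lattice, a map into
ideles which are units outside `S`; a cocycle linked to it is a coboundary of a level unramified
outside `S`.
-/

set_option autoImplicit false

noncomputable section

namespace Fermat.Agent.CFT.PT

open ExtCitation Fermat.Agent.Arith IntermediateField Fermat.Agent.CFT.Local Fermat.Agent.CFT.Idele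
open Fermat.Agent.CFT.Duality groupCohomology

variable {p : ℕ} [hp : Fact p.Prime]

/-- A functional killing an intersection of finitely many subgroups is a sum of functionals killing
each of them. -/
theorem exists_sum_functionals {V : Type} [AddCommGroup V] (hV : ∀ v : V, p • v = 0) {κ : Type*}
    (s : Finset κ) (N : κ → AddSubgroup V) (μ : V →+ ZMod p)
    (hμ : ∀ v, (∀ i ∈ s, v ∈ N i) → μ v = 0) :
    ∃ μs : κ → V →+ ZMod p, (∀ i, ∀ v ∈ N i, μs i v = 0) ∧ μ = ∑ i ∈ s, μs i := by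
  classical
  let : ∀ i : s, Module (ZMod p) (V ⧸ N (i : κ)) := fun i => AddCommGroup.zmodModule fun x => by
    obtain ⟨v, rfl⟩ := QuotientAddGroup.mk'_surjective _ x
    rw [← map_nsmul, hV, map_zero]
  let r : V →+ (∀ i : s, V ⧸ N (i : κ)) := AddMonoidHom.pi fun i : s => QuotientAddGroup.mk' _
  have hker : r.rangeRestrict.ker ≤ μ.ker := fun v hv => hμ v fun i hi =>
    (QuotientAddGroup.eq_zero_iff v).1 (congrFun (congrArg Subtype.val hv) ⟨i, hi⟩)
  obtain ⟨ℓ, hℓ⟩ := Euler.exists_extend_zmod (p := p) r.range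
    (AddMonoidHom.liftOfSurjective r.rangeRestrict r.rangeRestrict_surjective ⟨μ, hker⟩)
  have hℓv : ∀ v, ℓ (r v) = μ v := fun v => (hℓ (r.rangeRestrict v)).trans
    (AddMonoidHom.liftOfRightInverse_comp_apply r.rangeRestrict _ _ ⟨μ, hker⟩ v)
  let μs : κ → V →+ ZMod p := fun i => if hi : i ∈ s then
    ℓ.comp ((AddMonoidHom.single (fun i : s => V ⧸ N (i : κ)) ⟨i, hi⟩).comp
      (QuotientAddGroup.mk' _))
    else 0
  refine ⟨μs, fun i v hv => ?_, AddMonoidHom.ext fun v => ?_⟩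
  · by_cases hi : i ∈ s
    · simp only [μs, dif_pos hi, AddMonoidHom.comp_apply, QuotientAddGroup.mk'_apply,
        (QuotientAddGroup.eq_zero_iff v).2 hv, map_zero]
    · simp [μs, dif_neg hi]
  · rw [AddMonoidHom.finsetSum_apply, ← hℓv, ← Finset.univ_sum_single (r v), map_sum,
      ← Finset.sum_coe_sort s]
    refine Finset.sum_congr rfl fun i _ => ?_
    simp only [μs, dif_pos i.2]
    rfl

variable {S : Finset Nat.Primes} {ζ : QBar} {K : IntermediateField ℚ QBar}
  [FiniteDimensional ℚ K] [Normal ℚ K] {A ι : Type} [AddCommGroup A]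
  [DistribMulAction (K ≃ₐ[ℚ] K) A] [Fintype ι] {ε : Lat (K ≃ₐ[ℚ] K) ι →+ A}
  {hε : Presentation p ε} {L : IntermediateField ℚ QBar} [FiniteDimensional ℚ L] [Normal ℚ L]
  (hKL : K ≤ L)

variable (A) in
/-- The cocycles of a level trivial at the decomposition group of `q`. -/
def locSub (q : Nat.Primes) : AddSubgroup (levelCocycles (levelRes hKL) A) where
  carrier := {a | ∃ x : A, ∀ g ∈ Duality.decomp L q,
    (a : (L ≃ₐ[ℚ] L) → A) g = levelRes hKL g • x - x}
  add_mem' {a b} ha hb := by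
    obtain ⟨x, hx⟩ := ha
    obtain ⟨y, hy⟩ := hb
    refine ⟨x + y, fun g hg => ?_⟩
    rw [AddSubgroup.coe_add, Pi.add_apply, hx g hg, hy g hg, smul_add]
    abel
  zero_mem' := ⟨0, fun g _ => by simp⟩
  neg_mem' {a} ha := by
    obtain ⟨x, hx⟩ := ha
    refine ⟨-x, fun g hg => ?_⟩
    rw [AddSubgroup.coe_neg, Pi.neg_apply, hx g hg, smul_neg]
    abel

variable {u : NormCocycle (L ≃ₐ[ℚ] L) (C L)} (hu : IsClassFormation p u)
  (hk : IsPGroup p (levelRes hKL).ker)

/-- A map whose dual kills the cocycles trivial at `S` differs by semilocal maps at `S` from one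
with zero dual. -/
theorem exists_semilocal_of_kills (hp2 : p ≠ 2) (hζ : IsPrimitiveRoot ζ p) (hζL : ζ ∈ L)
    (f : equivHom (C := C K) hε.isStable_ker)
    (hf : ∀ a : levelCocycles (levelRes hKL) A, (∀ q ∈ S, a ∈ locSub A hKL q) →
      dual hε hKL hu hk f a = 0) :
    ∃ w : equivHom (C := J K) hε.isStable_ker,
      (∀ s, w.1 s ∈ supportedIn K (S : Set Nat.Primes)) ∧
      dual hε hKL hu hk (f - projHom hε w) = 0 := by
  classical
  obtain ⟨μs, hμs, hsum⟩ := exists_sum_functionals (p := p)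
    (V := levelCocycles (levelRes hKL) A)
    (fun v => Subtype.ext (funext fun g => by
      rw [AddSubgroup.coe_nsmul, Pi.smul_apply, hε.killed]; rfl))
    S (locSub A hKL) (dual hε hKL hu hk f) hf
  choose w hw hwd using fun q => exists_local_dual (hε := hε) hKL hu hk hp2 hζ hζL q (μs q)
    fun a ha => hμs q a ha
  refine ⟨∑ q ∈ S, w q, fun s => ?_, ?_⟩
  · rw [AddSubgroup.val_finsetSum, AddMonoidHom.finsetSum_apply]
    refine sum_mem fun q hq => fun q' hq' σ => hw q s q' (fun h => hq' ?_) σ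
    rw [Set.mem_singleton_iff] at h
    exact h ▸ Finset.mem_coe.2 hq
  · rw [map_sub, map_sum, map_sum, Finset.sum_congr rfl fun q _ => hwd q, ← hsum, sub_self]

/-- **The structure of maps killing the locally trivial cocycles.** -/
theorem exists_of_kills (hp2 : p ≠ 2) (hζ : IsPrimitiveRoot ζ p) (hζK : ζ ∈ K)
    (hpS : pPrime p ∈ S) (hKS : K.IsUnramifiedOutside S) (hroots : urRoots p S K ⊆ L)
    (f : equivHom (C := C K) hε.isStable_ker)
    (hf : ∀ a : levelCocycles (levelRes hKL) A, (∀ q ∈ S, a ∈ locSub A hKL q) →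
      dual hε hKL hu hk f a = 0) :
    ∃ (Y : Lat (K ≃ₐ[ℚ] K) ι →+ C K) (w : equivHom (C := J K) hε.isStable_ker),
      (∀ (g : K ≃ₐ[ℚ] K) x, Y (g • x) = g • Y x) ∧
      (∀ s, w.1 s ∈ unitsOutside K (S : Set Nat.Primes)) ∧
      ∀ s : ε.ker, f.1 s = Y s + proj K (w.1 s) := by
  classical
  let : Fintype (levelRes hKL).ker := Fintype.ofFinite _
  obtain ⟨w₁, hw₁, hd⟩ := exists_semilocal_of_kills (hε := hε) hKL hu hk hp2 hζ (hKL hζK) f hf
  obtain ⟨Y, w₂, hY, hw₂, he⟩ := exists_of_dual_eq_zero hε hKL hu hk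
    (T := (S : Set Nat.Primes))
    (exists_normSum_eq hKL hp2 hζ hζK hpS hKS hroots) (f - projHom hε w₁) hd
  refine ⟨Y, w₁ + w₂, hY, fun s => add_mem
    (fun q hq g => normAt_of_supported (hw₁ s) hq g) (fun q _ g => ?_), fun s => ?_⟩
  · rw [← norm_val_eq]
    exact (mem_unitGroup _).1 (hw₂ s q _).1
  · have e : f.1 s - proj K (w₁.1 s) = Y s + proj K (w₂.1 s) := DFunLike.congr_fun he s
    show f.1 s = Y s + proj K (w₁.1 s + w₂.1 s)
    rw [map_add, sub_eq_iff_eq_add.mp e]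
    abel

/-- An equivariant lift to ideles of an equivariant map on the lattice. -/
theorem exists_equivariant_lift (Y : Lat (K ≃ₐ[ℚ] K) ι →+ C K)
    (hY : ∀ (g : K ≃ₐ[ℚ] K) x, Y (g • x) = g • Y x) :
    ∃ Y' : Lat (K ≃ₐ[ℚ] K) ι →+ J K,
      (∀ (g : K ≃ₐ[ℚ] K) x, Y' (g • x) = g • Y' x) ∧ ∀ x, proj K (Y' x) = Y x := by
  choose y hy using fun i => proj_surjective K (Y (Lat.e i 1))
  let Y' : Lat (K ≃ₐ[ℚ] K) ι →+ J K := Lat.ofBasis fun i g => g • y i
  refine ⟨Y', fun g x => Lat.map_smul_of_basis Y' g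
    (fun i h => by simp only [Y', Lat.ofBasis_e, mul_smul]) x, fun x => ?_⟩
  refine DFunLike.congr_fun (show (proj K).comp Y' = Y from Lat.hom_ext fun i g => ?_) x
  rw [AddMonoidHom.comp_apply]
  simp only [Y', Lat.ofBasis_e, proj_smul, hy, ← hY, Lat.smul_e, mul_one]

/-- The data of a link to such a map: roots at a higher level. -/
theorem exists_roots_of_link (hpS : pPrime p ∈ S) (hKS : K.IsUnramifiedOutside S)
    {L₂ : IntermediateField ℚ QBar} [FiniteDimensional ℚ L₂] [Normal ℚ L₂] (le₂ : K ≤ L₂)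
    (hur₂ : L₂.IsUnramifiedOutside S) {c : GQ × GQ → DualMod K A}
    {f : equivHom (C := C K) hε.isStable_ker} {b : ε.ker →+ J L₂}
    {e : (L₂ ≃ₐ[ℚ] L₂) → TwHom (levelRes le₂) (Lat (K ≃ₐ[ℚ] K) ι) (Additive L₂ˣ)}
    (hl : LinkAt hε S le₂ c f.1 b e) {Y : Lat (K ≃ₐ[ℚ] K) ι →+ C K}
    (hY : ∀ (g : K ≃ₐ[ℚ] K) x, Y (g • x) = g • Y x) {w : equivHom (C := J K) hε.isStable_ker}
    (hw : ∀ s, w.1 s ∈ unitsOutside K (S : Set Nat.Primes))
    (he : ∀ s : ε.ker, f.1 s = Y s + proj K (w.1 s)) :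
    ∃ (E : TwHom (res K) (Lat (K ≃ₐ[ℚ] K) ι) (Additive QBarˣ)) (L₃ : IntermediateField ℚ QBar),
      L₃.IsUnramifiedOutside S ∧ L₂ ≤ L₃ ∧
      (∀ s ∈ L₃.fixingSubgroup, ∀ z, s • E z = E z) ∧
      ∀ g (s : ε.ker), toQHom (e (res L₂ g)) (s : Lat (K ≃ₐ[ℚ] K) ι) =
        (g • E) (s : Lat (K ≃ₐ[ℚ] K) ι) - E (s : Lat (K ≃ₐ[ℚ] K) ι) := by
  classical
  -- Lift `Y` to ideles; then `b` minus the image of `w + Y` is diagonal, given by `β`.
  obtain ⟨Y', hY', hY'p⟩ := exists_equivariant_lift Y hY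
  let wt : ε.ker →+ J K := w.1 + Y'.comp ε.ker.subtype
  have hwt : ∀ g s, wt (smulS hε.isStable_ker g s) = g • wt s := fun g s => by
    simp only [wt, AddMonoidHom.add_apply, AddMonoidHom.comp_apply, AddSubgroup.coe_subtype,
      coe_smulS, w.2 g s, hY', smul_add]
  let b' : ε.ker →+ J L₂ := b - (inclJ le₂).comp wt
  obtain ⟨β, hβ⟩ := exists_diag_hom b' fun s => by
    simp only [b', wt, AddMonoidHom.sub_apply, AddMonoidHom.comp_apply, AddMonoidHom.add_apply,
      AddSubgroup.coe_subtype, map_sub, map_add, hl.proj_b, ← Duality.inclC_proj, he, hY'p]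
    abel
  have hdiv : ∀ z, diag L₂ (β (mulP hε.smul_mem z)) ∈ divOrd L₂ p (S : Set Nat.Primes) :=
    fun z => by
    rw [hβ]
    refine sub_mem (hl.good z) ((inclJ_mem_divOrd_iff le₂).2 (add_mem
      (unitsOutside_le_divOrd p _ (hw _)) ?_))
    simp only [AddMonoidHom.comp_apply, AddSubgroup.coe_subtype, coe_mulP, map_nsmul]
    exact nsmul_mem_divOrd hKS _
  -- Extend `β` to the lattice by roots, which lie at a level `L₃` unramified outside `S`.
  obtain ⟨W, hW⟩ := exists_extension_divisible (X := Additive QBarˣ)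
    (exists_nsmul_eq hp.out.pos) hε ((unitsToQ L₂).comp β)
  obtain ⟨L₃, hL₃, hle, hy⟩ := exists_level_roots (p := p) hpS hur₂
    (fun i : ι × (K ≃ₐ[ℚ] K) => β (mulP hε.smul_mem (Lat.e i.1 i.2))) (fun i => hdiv _)
    (fun i => (((W (Lat.e i.1 i.2)).toMul : QBarˣ) : QBar)) fun i => by
      have e1 := congrArg (fun z : Additive QBarˣ => ((z.toMul : QBarˣ) : QBar))
        (nsmul_extension hε hW (Lat.e i.1 i.2))
      simp only [toMul_nsmul, Units.val_pow_eq_pow_val, AddMonoidHom.comp_apply] at e1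
      exact e1.trans (unitsToQ_val L₂ _)
  refine ⟨TwHom.of W, L₃, hL₃.ur, hle, fun s hs z => ?_, fun g s => ?_⟩
  · refine DFunLike.congr_fun (show (DistribSMul.toAddMonoidHom _ s).comp W = W from
      Lat.hom_ext fun i x => Additive.toMul.injective (Units.ext ?_)) z
    exact (IntermediateField.mem_fixingSubgroup_iff _ _).1 hs _ (hy (i, x))
  -- The coboundary of the extension agrees with `e` on the kernel.
  · have e1 := hl.coboundary (res L₂ g) s
    have hres : levelRes le₂ (res L₂ g)⁻¹ = res K g⁻¹ := by rw [map_inv, levelRes_res, map_inv]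
    rw [hres] at e1
    have e3 : res L₂ g • inclJ le₂ (wt (smulS hε.isStable_ker (res K g⁻¹) s)) =
        inclJ le₂ (wt s) := by
      rw [smul_inclJ, levelRes_res, hwt, smul_smul, ← map_mul, mul_inv_cancel, map_one, one_smul]
    have e2 : e (res L₂ g) s = res L₂ g • β (smulS hε.isStable_ker (res K g⁻¹) s) - β s := by
      refine diag_injective L₂ ?_
      rw [map_sub (diag L₂), diag_smul, hβ, hβ, ← e1]
      simp only [b', AddMonoidHom.sub_apply, AddMonoidHom.comp_apply, smul_sub, e3]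
      abel
    have e4 : ∀ t : ε.ker, W (t : Lat (K ≃ₐ[ℚ] K) ι) = unitsToQ L₂ (β t) := fun t => hW t
    simp only [toQHom_apply, TwHom.smul_apply, TwHom.of_apply, e2, map_sub, ← smul_unitsToQ]
    rw [← coe_smulS hε.isStable_ker, e4, e4]

/-- **A cocycle linked to a map killing the locally trivial cocycles is a coboundary.** -/
theorem exists_coboundary_of_kills (hp2 : p ≠ 2) (hζ : IsPrimitiveRoot ζ p) (hζK : ζ ∈ K)
    (hpS : pPrime p ∈ S) (hKS : K.IsUnramifiedOutside S) (hroots : urRoots p S K ⊆ L)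
    {c : GQ × GQ → DualMod K A} {f : equivHom (C := C K) hε.isStable_ker}
    (hl : Linked hε S c f.1)
    (hf : ∀ a : levelCocycles (levelRes hKL) A, (∀ q ∈ S, a ∈ locSub A hKL q) →
      dual hε hKL hu hk f a = 0) :
    ∃ x : GQ → DualMod K A, IsLevelConstantS₁ S x ∧ ∀ g h, c (g, h) = dOne x (g, h) := by
  classical
  obtain ⟨Y, w, hY, hw, he⟩ := exists_of_kills (hε := hε) hKL hu hk hp2 hζ hζK hpS hKS hroots f hf
  obtain ⟨L₂, hfd, hn, le₂, hur₂, b, e, hl⟩ := hl
  obtain ⟨E, L₃, hur₃, h23, hEfix, hEs⟩ :=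
    exists_roots_of_link (hε := hε) hpS hKS le₂ hur₂ hl hY hw he
  let φ : GQ → TwHom (res K) (Lat (K ≃ₐ[ℚ] K) ι) (Additive QBarˣ) := fun g =>
    toQHom (e (res L₂ g)) - (g • E - E)
  choose x hx using fun g => exists_factor hε (φ g).toHom fun s => by
    show φ g (s : Lat (K ≃ₐ[ℚ] K) ι) = 0
    simp only [φ, TwHom.sub_apply, hEs, sub_self]
  let X : GQ → DualMod K A := fun g => TwHom.of (x g)
  have hX : ∀ g, TwHom.pre ε (X g) = φ g := fun g => TwHom.ext fun z => hx g z
  have hpre : Function.Injective (TwHom.pre (π := res K) (X := Additive QBarˣ) ε) := fun u v huv =>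
    TwHom.ext fun a => by
      obtain ⟨z, rfl⟩ := hε.surjective a
      exact congr_arg (fun η : TwHom (res K) (Lat (K ≃ₐ[ℚ] K) ι) (Additive QBarˣ) => η z) huv
  refine ⟨X, ⟨L₃, hur₃, fun g s hs => hpre ?_⟩, fun g h => hpre ?_⟩
  · have hs₂ : res L₂ s = 1 :=
      (res_eq_one_iff L₂).2 (IntermediateField.fixingSubgroup_antitone h23 hs)
    have hsE : s • E = E := TwHom.ext fun z => by
      rw [TwHom.smul_apply, map_inv,
        (res_eq_one_iff K).2 (IntermediateField.fixingSubgroup_antitone (le₂.trans h23) hs),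
        inv_one, one_smul, hEfix s hs]
    rw [hX, hX]
    simp only [φ, map_mul, hs₂, mul_one, mul_smul, hsE]
  · rw [hl.spec, show dOne X (g, h) = g • X h - X (g * h) + X g from rfl, map_add (TwHom.pre ε),
      map_sub (TwHom.pre ε), TwHom.pre_smul ε hε.map_smul, hX, hX, hX]
    simp only [φ, dOne, map_add, map_sub, ← smul_toQHom, ← map_mul (res L₂), smul_sub, mul_smul]
    abel

end Fermat.Agent.CFT.PT
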