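import Fermat.Agent.CFT.PT.Link
import Fermat.Agent.CFT.PT.Arith.Roots
import Fermat.Agent.CFT.Euler.Extension

/-!
# Levels unramified outside a finite set, and extensions to lattices
-/

set_option autoImplicit false

noncomputable section

namespace Fermat.Agent.CFT.PT

open ExtCitation Fermat.Agent.Arith IntermediateField Fermat.Agent.CFT.Local Fermat.Agent.CFT.Idele
open groupCohomology

/-- A finite normal field unramified outside `S`. -/
structure IsLevelS (S : Finset Nat.Primes) (L : IntermediateField ℚ QBar) : Prop where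
  fd : FiniteDimensional ℚ L
  normal : Normal ℚ L
  ur : L.IsUnramifiedOutside S

/-- A compositum of levels unramified outside `S` is again one. -/
theorem IsLevelS.sup {S : Finset Nat.Primes} {L L' : IntermediateField ℚ QBar}
    (h : IsLevelS S L) (h' : IsLevelS S L') : IsLevelS S (L ⊔ L') := by
  have := h.fd; have := h'.fd
  exact ⟨IntermediateField.finiteDimensional_sup L L',
    @IntermediateField.normal_sup ℚ QBar _ _ _ L L' h.normal h'.normal, h.ur.sup h'.ur⟩

/-- A finite field unramified outside `S` lies in a normal one with the same property. -/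
theorem exists_levelS_ge {S : Finset Nat.Primes} {F : IntermediateField ℚ QBar}
    (hF : F.IsUnramifiedOutside S) : ∃ L, IsLevelS S L ∧ F ≤ L := by
  obtain ⟨L, h1, h2, h3, h4⟩ := exists_normal_ur_ge hF
  exact ⟨L, ⟨h1, h2, h3⟩, h4⟩

/-- Finitely many conditions which each hold at some higher level hold at a common one. -/
theorem exists_level_forall {S : Finset Nat.Primes} {κ : Type*} [Finite κ]
    (P : κ → IntermediateField ℚ QBar → Prop)
    (hmono : ∀ i L L', IsLevelS S L → IsLevelS S L' → L ≤ L' → P i L → P i L')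
    {L₀ : IntermediateField ℚ QBar} (hL₀ : IsLevelS S L₀)
    (h : ∀ i, ∀ L, IsLevelS S L → L₀ ≤ L → ∃ L', IsLevelS S L' ∧ L ≤ L' ∧ P i L') :
    ∃ L, IsLevelS S L ∧ L₀ ≤ L ∧ ∀ i, P i L := by
  classical
  have := Fintype.ofFinite κ
  suffices H : ∀ s : Finset κ, ∃ L, IsLevelS S L ∧ L₀ ≤ L ∧ ∀ i ∈ s, P i L by
    obtain ⟨L, h1, h2, h3⟩ := H Finset.univ
    exact ⟨L, h1, h2, fun i => h3 i (Finset.mem_univ i)⟩
  intro s
  induction s using Finset.induction_on with
  | empty => exact ⟨L₀, hL₀, le_rfl, by simp⟩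
  | insert i s _ ih =>
    obtain ⟨L, h1, h2, h3⟩ := ih
    obtain ⟨L', h1', h2', h3'⟩ := h i L h1 h2
    refine ⟨L', h1', h2.trans h2', fun j hj => ?_⟩
    rcases Finset.mem_insert.mp hj with rfl | hj
    · exact h3'
    · exact hmono j L L' h1 h1' h2' (h3 j hj)

/-- Functions constant on the cosets of a level depend on the restriction only. -/
theorem eq_of_res_eq {X : Type*} {f : GQ → X} {F L : IntermediateField ℚ QBar} [Normal ℚ L]
    (hf : ∀ g s, s ∈ F.fixingSubgroup → f (g * s) = f g) (hle : F ≤ L) {g g' : GQ}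
    (h : res L g = res L g') : f g = f g' := by
  have := hf g _ (IntermediateField.fixingSubgroup_antitone hle ((res_eq_iff L).1 h))
  rw [mul_inv_cancel_left] at this
  exact this.symm

theorem eq_of_res_eq₂ {X : Type*} {f : GQ × GQ → X} {F L : IntermediateField ℚ QBar} [Normal ℚ L]
    (hf : ∀ g g' s s', s ∈ F.fixingSubgroup → s' ∈ F.fixingSubgroup → f (g * s, g' * s') =
      f (g, g'))
    (hle : F ≤ L) {g g' k k' : GQ} (h : res L g = res L g') (h' : res L k = res L k') :
    f (g, k) = f (g', k') := by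
  have := hf g k _ _ (IntermediateField.fixingSubgroup_antitone hle ((res_eq_iff L).1 h))
    (IntermediateField.fixingSubgroup_antitone hle ((res_eq_iff L).1 h'))
  rw [mul_inv_cancel_left, mul_inv_cancel_left] at this
  exact this.symm

/-- A unit of `QBar` lying in `L` comes from `Lˣ`. -/
theorem exists_unitsToQ_eq {L : IntermediateField ℚ QBar} {x : Additive QBarˣ}
    (h : ((x.toMul : QBarˣ) : QBar) ∈ L) : ∃ y : Additive Lˣ, unitsToQ L y = x :=
  ⟨Additive.ofMul (Units.mk0 ⟨_, h⟩ fun e => x.toMul.ne_zero (congrArg Subtype.val e)),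
    Additive.toMul.injective (Units.ext rfl)⟩

variable {p : ℕ} [hp : Fact p.Prime]

/-- Roots of unity of order `p` lie in any field with a primitive one. -/
theorem mem_of_nsmul_eq_zero {ζ : QBar} (hζ : IsPrimitiveRoot ζ p) {L : IntermediateField ℚ QBar}
    (hζL : ζ ∈ L) {x : Additive QBarˣ} (hx : p • x = 0) : ((x.toMul : QBarˣ) : QBar) ∈ L := by
  have : NeZero p := ⟨hp.out.ne_zero⟩
  obtain ⟨i, -, hi⟩ := hζ.eq_pow_of_pow_eq_one (ξ := ((x.toMul : QBarˣ) : QBar)) (by
    rw [← Units.val_pow_eq_pow_val, ← toMul_nsmul, hx, toMul_zero, Units.val_one])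
  exact hi ▸ pow_mem hζL i

/-- Units of an algebraically closed field are `p`-divisible. -/
theorem exists_nsmul_eq {Ω : Type*} [Field Ω] [IsAlgClosed Ω] {p : ℕ} (hp : 0 < p)
    (x : Additive Ωˣ) : ∃ y : Additive Ωˣ, p • y = x := by
  obtain ⟨y, hy⟩ := IsAlgClosed.exists_pow_nat_eq ((x.toMul : Ωˣ) : Ω) hp
  have hy0 : y ≠ 0 := fun h => x.toMul.ne_zero (by rw [← hy, h, zero_pow hp.ne'])
  exact ⟨Additive.ofMul (Units.mk0 y hy0), Additive.toMul.injective (Units.ext (by
    rw [toMul_nsmul, Units.val_pow_eq_pow_val]; exact hy))⟩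

variable {K : IntermediateField ℚ QBar} [FiniteDimensional ℚ K] [Normal ℚ K]
  {A ι : Type*} [AddCommGroup A] [DistribMulAction (K ≃ₐ[ℚ] K) A] [Fintype ι]
  {ε : Lat (K ≃ₐ[ℚ] K) ι →+ A}

omit [Normal ℚ K] in
/-- Homomorphisms on the relations extend to the lattice when the target is `p`-divisible. -/
theorem exists_extension_divisible {X : Type*} [AddCommGroup X]
    (hdiv : ∀ x : X, ∃ y, p • y = x) (hε : Presentation p ε) (φ : ε.ker →+ X) :
    ∃ W : Lat (K ≃ₐ[ℚ] K) ι →+ X, ∀ s : ε.ker, W s = φ s := by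
  choose y hy using fun i g => hdiv (φ (mulP hε.smul_mem (Lat.e i g)))
  let W : Lat (K ≃ₐ[ℚ] K) ι →+ X := Lat.ofBasis y
  have hW : p • W = φ.comp (mulP hε.smul_mem) := Lat.hom_ext fun i g => by
    show p • W (Lat.e i g) = _
    rw [Lat.ofBasis_e, hy]
    rfl
  have hWap : ∀ z, p • W z = φ (mulP hε.smul_mem z) := fun z => DFunLike.congr_fun hW z
  let M := (nsmulAddMonoidHom p : X →+ X).ker
  let δ : ε.ker →+ M := (φ - W.comp ε.ker.subtype).codRestrict M fun s => by
    show p • (φ s - W s) = 0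
    rw [nsmul_sub, hWap, mulP_coe, map_nsmul, sub_self]
  have hMk : ∀ m : M, p • m = 0 := fun m => Subtype.ext (by rw [AddSubgroup.coe_nsmul]; exact m.2)
  obtain ⟨η, hη⟩ := Euler.exists_extend_killed hMk (S := ⊤) le_top (fun s _ => hε.smul_mem s) δ
    (fun s hs => Subtype.ext (by
      show φ (mulP hε.smul_mem s) - W (p • s) = 0
      rw [map_nsmul, hWap, sub_self]))
  refine ⟨W + (M.subtype.comp η).comp (AddMonoidHom.mk' (fun z => (⟨z, AddSubgroup.mem_top _⟩ :
    (⊤ : AddSubgroup (Lat (K ≃ₐ[ℚ] K) ι)))) fun _ _ => rfl), fun s => ?_⟩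
  rw [AddMonoidHom.add_apply]
  simp only [AddMonoidHom.comp_apply, AddMonoidHom.mk'_apply]
  show W (s : Lat (K ≃ₐ[ℚ] K) ι) + M.subtype (η (AddSubgroup.inclusion le_top s)) = φ s
  rw [hη]
  exact add_sub_cancel _ _

omit hp [Normal ℚ K] [FiniteDimensional ℚ ↥K] [Fintype ι] in
/-- `p` times an extension of `φ` to the lattice is `φ` of the multiple by `p`. -/
theorem nsmul_extension {X : Type*} [AddCommGroup X] (hε : Presentation p ε) {φ : ε.ker →+ X}
    {W : Lat (K ≃ₐ[ℚ] K) ι →+ X} (hW : ∀ s : ε.ker, W s = φ s) (z : Lat (K ≃ₐ[ℚ] K) ι) :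
    p • W z = φ (mulP hε.smul_mem z) := by
  rw [← map_nsmul, ← hW, coe_mulP]

/-- The absolute value of a diagonal idele is that of the number in the embedding. -/
theorem normAt_diag {L : IntermediateField ℚ QBar}
    (a : Additive Lˣ) (q : Nat.Primes) (g : GQ) :
    normAt L q g (diag L a) = ‖emb q (g (((a.toMul : Lˣ) : L) : QBar))‖ := rfl

theorem normAt_diag_res {L : IntermediateField ℚ QBar} [FiniteDimensional ℚ L] [Normal ℚ L]
    (a : Additive Lˣ) (q : Nat.Primes) (g : GQ) :
    normAt L q g (diag L a) = ‖localEmb (q : ℕ) L (res L g ((a.toMul : Lˣ) : L))‖ := by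
  rw [normAt_diag, norm_localEmb_res]

/-- Roots of elements with divisible orders lie at a higher level. -/
theorem exists_level_root {S : Finset Nat.Primes} (hpS : pPrime p ∈ S)
    {L₀ L : IntermediateField ℚ QBar} [FiniteDimensional ℚ L₀] [Normal ℚ L₀]
    (hL : IsLevelS S L) (hle : L₀ ≤ L) (a : Additive L₀ˣ)
    (ha : diag L₀ a ∈ divOrd L₀ p (S : Set Nat.Primes)) (y : QBar)
    (hy : y ^ p = (((a.toMul : L₀ˣ) : L₀) : QBar)) :
    ∃ L', IsLevelS S L' ∧ L ≤ L' ∧ y ∈ L' := by
  have := hL.fd; have := hL.normal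
  set x : Lˣ := Units.map (IntermediateField.inclusion hle).toRingHom.toMonoidHom a.toMul
  obtain ⟨L', h1, h2, h3, h4, h5⟩ := exists_ur_root hpS hL.ur x 1 (fun q hq σ => by
    obtain ⟨g, rfl⟩ := AlgEquiv.restrictNormalHom_surjective (K₁ := L) QBar σ
    obtain ⟨n, hn⟩ := ha q (fun h => hq (Finset.mem_coe.mp h)) g
    refine ⟨n, ?_⟩
    rw [pow_one, norm_localEmb_res]
    exact hn) y (by rw [pow_one]; exact hy)
  exact ⟨L', ⟨h1, h2, h3⟩, h4, h5⟩

/-- A level containing finitely many roots. -/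
theorem exists_level_roots {S : Finset Nat.Primes} (hpS : pPrime p ∈ S)
    {L₀ : IntermediateField ℚ QBar} [FiniteDimensional ℚ L₀] [Normal ℚ L₀]
    (hL₀ : L₀.IsUnramifiedOutside S) {κ : Type*} [Finite κ] (a : κ → Additive L₀ˣ)
    (ha : ∀ i, diag L₀ (a i) ∈ divOrd L₀ p (S : Set Nat.Primes)) (y : κ → QBar)
    (hy : ∀ i, y i ^ p = ((((a i).toMul : L₀ˣ) : L₀) : QBar)) :
    ∃ L, IsLevelS S L ∧ L₀ ≤ L ∧ ∀ i, y i ∈ L :=
  exists_level_forall (fun i L => y i ∈ L) (fun _ _ _ _ _ hle h => hle h)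
    ⟨inferInstance, inferInstance, hL₀⟩
    fun i _ hL hle => exists_level_root hpS hL hle (a i) (ha i) (y i) (hy i)

theorem exists_diag_eq {L : IntermediateField ℚ QBar}
    {x : J L} (hx : proj L x = 0) : ∃ a : Additive Lˣ, diag L a = x := by
  obtain ⟨a, ha⟩ := (proj_eq_zero_iff L).1 hx
  exact ⟨Additive.ofMul a, congrArg Additive.ofMul ha⟩

/-- A homomorphism into principal ideles comes from one into the multiplicative group. -/
theorem exists_diag_hom {L : IntermediateField ℚ QBar} [FiniteDimensional ℚ L] [Normal ℚ L]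
    {B : Type*} [AddCommGroup B] (b : B →+ J L) (hb : ∀ s, proj L (b s) = 0) :
    ∃ β : B →+ Additive Lˣ, ∀ s, diag L (β s) = b s := by
  choose β hβ using fun s => exists_diag_eq (hb s)
  exact ⟨AddMonoidHom.mk' β fun s t => diag_injective L (by
    rw [map_add (diag L), hβ, hβ, hβ, map_add]), hβ⟩

omit hp in
/-- In a field unramified outside `S` the orders outside `S` of a multiple of `p` are divisible. -/
theorem nsmul_mem_divOrd {L : IntermediateField ℚ QBar} [FiniteDimensional ℚ L] [Normal ℚ L]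
    {S : Finset Nat.Primes} (hL : L.IsUnramifiedOutside S) (x : J L) :
    p • x ∈ divOrd L p (S : Set Nat.Primes) := fun q hq g => by
  obtain ⟨n, hn⟩ := exists_norm_eq_zpow_of_ur L hL (fun h => hq (Finset.mem_coe.mpr h))
    (val x.toMul q (res L g))
  refine ⟨n, ?_⟩
  rw [norm_val_eq] at hn
  rw [normAt_nsmul, hn, ← zpow_natCast, ← zpow_mul, mul_comm]

/-- The tautological presentation of a module by the free lattice on its elements. -/
def selfEps (K : IntermediateField ℚ QBar) [FiniteDimensional ℚ K] [Normal ℚ K] (A : Type*)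
    [AddCommGroup A] [DistribMulAction (K ≃ₐ[ℚ] K) A] [Fintype A] : Lat (K ≃ₐ[ℚ] K) A →+ A :=
  Lat.ofBasis fun a g => g • a

omit hp in
theorem presentation_selfEps [Fintype A] (hA : ∀ a : A, p • a = 0) :
    Presentation p (selfEps K A) :=
  ⟨fun a => ⟨Lat.e a 1, by rw [selfEps, Lat.ofBasis_e, one_smul]⟩,
    fun g x => Lat.map_smul_of_basis (selfEps K A) g (fun a h => by
      simp only [selfEps, Lat.ofBasis_e, mul_smul]) x, hA⟩

end Fermat.Agent.CFT.PT
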