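import Fermat.Agent.CFT.PT.LocalSplit
import Fermat.Agent.CFT.Euler.Extension

/-!
# Functionals on local classes come from semilocal maps

A functional on the cocycles of a level which kills those trivial at one prime is the image of an
equivariant map into the ideles supported at that prime.
-/

set_option autoImplicit false

noncomputable section

namespace Fermat.Agent.CFT.PT

attribute [-instance] IsCyclic.isMulCommutative CommMagma.to_isCommutative
    Subgroup.instIsCyclicOfDiscreteTopology IsSimpleGroup.isCyclic SetLike.GradeZero.instRing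
    SetLike.GradeZero.instSemiring SetLike.GradeZero.instCommRing SetLike.GradeZero.instCommSemiring
    SetLike.GradeZero.instMonoid SetLike.GradeZero.instCommMonoid

open Fermat.Agent.Arith IntermediateField Fermat.Agent.CFT.Idele
open Fermat.Agent.CFT.Duality Fermat.Agent.CFT.TUnit groupCohomology

section Supported

variable (L : IntermediateField ℚ QBar) [FiniteDimensional ℚ L] [Normal ℚ L] (T : Set Nat.Primes)

/-- The Galois action on ideles supported at `T`. -/
instance supportedInAction : DistribMulAction (L ≃ₐ[ℚ] L) (supportedIn L T) where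
  smul σ x := ⟨σ • (x : J L), smul_mem_supportedIn σ x.2⟩
  one_smul x := Subtype.ext (one_smul _ (x : J L))
  mul_smul σ τ x := Subtype.ext (mul_smul σ τ (x : J L))
  smul_zero σ := Subtype.ext (smul_zero σ)
  smul_add σ x y := Subtype.ext (smul_add σ (x : J L) (y : J L))

variable {L T}

/-- Hilbert 90 for them, at one prime. -/
theorem h1Zero_supportedIn (q : Nat.Primes) (H : Subgroup (L ≃ₐ[ℚ] L)) :
    H1Zero H (supportedIn L {q}) := fun c hc => by
  obtain ⟨y, hy, hyc⟩ := exists_of_cocycle_supported q H (fun h => (c h : J L))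
    (fun g h => congrArg Subtype.val (hc g h)) fun h => (c h).2
  exact ⟨⟨y, hy⟩, fun h => Subtype.ext (hyc h)⟩

theorem loc'_mem_supportedIn (q : Nat.Primes) (v : Additive (E L q)ˣ) :
    loc' L q v ∈ supportedIn L {q} := fun q' hq' σ =>
  val_locIdl_of_ne q _ (by simpa using hq') σ

end Supported

variable {p : ℕ} [hp : Fact p.Prime] {K : IntermediateField ℚ QBar} [FiniteDimensional ℚ K]
  [Normal ℚ K] {A ι : Type} [AddCommGroup A] [DistribMulAction (K ≃ₐ[ℚ] K) A] [Fintype ι]
  {ε : Lat (K ≃ₐ[ℚ] K) ι →+ A} {hε : Presentation p ε}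
  {L : IntermediateField ℚ QBar} [FiniteDimensional ℚ L] [Normal ℚ L] (hKL : K ≤ L)

omit [FiniteDimensional ℚ ↥K] in
/-- Cocycles are trivial on subgroups of order prime to `p`. -/
theorem exists_coboundary_of_coprime (hA : ∀ a : A, p • a = 0) (D : Subgroup (L ≃ₐ[ℚ] L))
    (hD : ¬ p ∣ Nat.card D) (a : levelCocycles (levelRes hKL) A) :
    ∃ x : A, ∀ g ∈ D, (a : (L ≃ₐ[ℚ] L) → A) g = levelRes hKL g • x - x := by
  classical
  let : DistribMulAction D A := DistribMulAction.compHom A ((levelRes hKL).comp D.subtype)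
  let : Fintype D := Fintype.ofFinite _
  let c : D → A := fun d => (a : (L ≃ₐ[ℚ] L) → A) d
  have hc : IsCocycle₁ c := fun g h => a.2 g h
  obtain ⟨y, hy⟩ := index_nsmul_isCoboundary₁ (⊥ : Subgroup D) c hc ⟨0, fun h => by
    obtain rfl : h = 1 := Subsingleton.elim _ _
    have e := hc 1 1
    rw [one_mul, one_smul, left_eq_add] at e
    show _ = c 1
    rw [e, smul_zero, sub_zero]⟩
  rw [Subgroup.index_bot] at hy
  obtain ⟨s, t, hst⟩ : IsCoprime (Nat.card D : ℤ) (p : ℤ) :=
    Int.isCoprime_iff_nat_coprime.mpr (by simpa using (hp.out.coprime_iff_not_dvd.mpr hD).symm)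
  refine ⟨s • y, fun g hg => ?_⟩
  have e : levelRes hKL g • y - y = Nat.card D • c ⟨g, hg⟩ := hy ⟨g, hg⟩
  rw [smul_comm (levelRes hKL g) s, ← smul_sub, e, ← natCast_zsmul, smul_smul]
  conv_lhs => rw [← one_smul ℤ ((a : (L ≃ₐ[ℚ] L) → A) g), ← hst, add_smul, mul_smul t,
    natCast_zsmul _ p, hA, smul_zero, add_zero]

omit hp [FiniteDimensional ℚ ↥K] in
include hε in
/-- Lattice cochains give cocycles of the module. -/
theorem exists_push : ∃ push : cocycleMod (G := L ≃ₐ[ℚ] L) (S := relUp (levelRes hKL) ε) →+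
      levelCocycles (levelRes hKL) A,
    ∀ b g, (push b : (L ≃ₐ[ℚ] L) → A) g =
      ε (Lat.pr (levelRes hKL) ((b : (L ≃ₐ[ℚ] L) → Lat (L ≃ₐ[ℚ] L) ι) g)) :=
  ⟨AddMonoidHom.mk' (fun b => ⟨fun g => ε (Lat.pr (levelRes hKL)
      ((b : (L ≃ₐ[ℚ] L) → Lat (L ≃ₐ[ℚ] L) ι) g)), fun g h => by
      have e := b.2 g h
      rw [mem_relUp] at e
      simp only [map_add, map_sub, Lat.pr_smul, hε.map_smul] at e
      rw [← sub_eq_zero, ← neg_eq_zero]
      rw [← e]
      abel⟩) fun b b' => Subtype.ext (funext fun g => by simp), fun _ _ => rfl⟩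

omit [FiniteDimensional ℚ ↥K] in
include hε in
/-- A functional killing cocycles trivial on `D` factors through the cocycles of `D`. -/
theorem exists_local_functional (D : Subgroup (L ≃ₐ[ℚ] L))
    (μ : levelCocycles (levelRes hKL) A →+ ZMod p)
    (hμ : ∀ a : levelCocycles (levelRes hKL) A,
      (∃ x : A, ∀ g ∈ D, (a : (L ≃ₐ[ℚ] L) → A) g = levelRes hKL g • x - x) → μ a = 0) :
    ∃ ν : cocycleMod (G := D) (S := relUp (levelRes hKL) ε) →+ ZMod p,
      (∀ b : cocycleMod (G := D) (S := relUp (levelRes hKL) ε), (b : D → Lat (L ≃ₐ[ℚ] L) ι) ∈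
          coboundaryMod (S := relUp (levelRes hKL) ε) → ν b = 0) ∧
      ∀ (b : cocycleMod (G := L ≃ₐ[ℚ] L) (S := relUp (levelRes hKL) ε))
        (a : levelCocycles (levelRes hKL) A),
        (∀ g, ε (Lat.pr (levelRes hKL) ((b : (L ≃ₐ[ℚ] L) → Lat (L ≃ₐ[ℚ] L) ι) g)) =
          (a : (L ≃ₐ[ℚ] L) → A) g) → ν (resMod D b) = μ a := by
  classical
  obtain ⟨push, hpush⟩ := exists_push (hε := hε) hKL
  let Z := cocycleMod (G := D) (S := relUp (levelRes hKL) ε)
  -- Work in cocycles on `D` modulo coboundaries, a space over `ℤ/p`.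
  let B : AddSubgroup Z := (coboundaryMod (S := relUp (levelRes hKL) ε)).comap Z.subtype
  let : Module (ZMod p) (Z ⧸ B) := AddCommGroup.zmodModule fun x => by
    obtain ⟨b, rfl⟩ := QuotientAddGroup.mk'_surjective B x
    rw [← map_nsmul]
    refine (QuotientAddGroup.eq_zero_iff _).2 ⟨0, fun g => ?_⟩
    simp only [smul_zero, sub_zero, AddSubgroup.coe_subtype, AddSubgroup.coe_nsmul, Pi.smul_apply]
    exact hε.smul_mem_up _
  let r : cocycleMod (G := L ≃ₐ[ℚ] L) (S := relUp (levelRes hKL) ε) →+ Z ⧸ B :=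
    (QuotientAddGroup.mk' B).comp (resMod D)
  -- The pushed functional vanishes on cocycles whose restriction to `D` is a coboundary.
  have hker : r.rangeRestrict.ker ≤ (μ.comp push).ker := fun b hb => by
    have hb' : r b = 0 := congrArg Subtype.val (AddMonoidHom.mem_ker.1 hb)
    obtain ⟨x, hx⟩ := (QuotientAddGroup.eq_zero_iff (N := B) (resMod D b)).1 hb'
    refine hμ _ ⟨ε (Lat.pr (levelRes hKL) x), fun g hg => ?_⟩
    have e := hx ⟨g, hg⟩
    rw [mem_relUp] at e
    simp only [AddSubgroup.coe_subtype, resMod_apply, Subgroup.smul_def, map_sub, Lat.pr_smul,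
      hε.map_smul, sub_eq_zero] at e
    rw [hpush]
    exact e
  -- So it factors through restriction and extends to all classes on `D`.
  obtain ⟨ℓ, hℓ⟩ := Euler.exists_extend_zmod (p := p) r.range
    (AddMonoidHom.liftOfSurjective r.rangeRestrict r.rangeRestrict_surjective ⟨μ.comp push, hker⟩)
  refine ⟨ℓ.comp (QuotientAddGroup.mk' B), fun b hb => ?_, fun b a hba => ?_⟩
  · show ℓ (QuotientAddGroup.mk' B b) = 0
    rw [show QuotientAddGroup.mk' B b = 0 from (QuotientAddGroup.eq_zero_iff (N := B) b).2 hb,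
      map_zero]
  · show ℓ (r b) = μ a
    refine (hℓ (r.rangeRestrict b)).trans ?_
    refine (AddMonoidHom.liftOfRightInverse_comp_apply r.rangeRestrict _ _ ⟨μ.comp push,
      hker⟩ b).trans ?_
    show μ (push b) = μ a
    exact congrArg μ (Subtype.ext (funext fun g => (hpush b g).trans (hba g)))

omit hp in
include hε in
/-- An equivariant map into semilocal ideles of the upper level descends, up to the restriction
of one on the lattice. -/
theorem exists_descend_supported (q : Nat.Primes)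
    (ψ : relUp (levelRes hKL) ε →+ J L)
    (hψ : IsEquivariantOn hε.isStable_up ψ) (hψq : ∀ s, ψ s ∈ supportedIn L {q}) :
    ∃ (w : equivHom (C := J K) hε.isStable_ker) (Φ : Lat (L ≃ₐ[ℚ] L) ι →+ J L),
      (∀ (g : L ≃ₐ[ℚ] L) x, Φ (g • x) = g • Φ x) ∧ (∀ s, w.1 s ∈ supportedIn K {q}) ∧
      upJ hKL w.1 = ψ - Φ.comp (relUp (levelRes hKL) ε).subtype := by
  classical
  have hπ := levelRes_surjective hKL
  -- By Hilbert 90 at `q`, `ψ` on the kernel of the projection extends to an equivariant `Φ`.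
  obtain ⟨Φ₀, hΦ₀, hΦψ⟩ := Lat.exists_extend_ker (ι := ι) (levelRes hKL) hπ ⊤
    ((h1Zero_supportedIn q (levelRes hKL).ker).of_equiv (Subgroup.subgroupOfEquivOfLe le_top)
      fun _ _ => rfl)
    ((ψ.comp (AddSubgroup.inclusion ker_pr_le)).codRestrict (supportedIn L {q}) fun k => hψq _)
    fun h k => Subtype.ext (hψ (h : L ≃ₐ[ℚ] L) (AddSubgroup.inclusion ker_pr_le k))
  let Φ : Lat (L ≃ₐ[ℚ] L) ι →+ J L := (supportedIn L {q}).subtype.comp Φ₀
  have hΦ : ∀ (g : L ≃ₐ[ℚ] L) x, Φ (g • x) = g • Φ x := fun g x =>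
    congrArg Subtype.val (hΦ₀ ⟨g, trivial⟩ x)
  -- `ψ - Φ` factors through the lower lattice, with invariant values.
  let ψ₀ := ψ - Φ.comp (relUp (levelRes hKL) ε).subtype
  have hK : ∀ k, ψ₀ (AddSubgroup.inclusion ker_pr_le k) = 0 := fun k => by
    simp only [ψ₀, Φ, AddMonoidHom.sub_apply, AddMonoidHom.comp_apply, AddSubgroup.coe_subtype,
      AddSubgroup.coe_inclusion, hΦψ]
    exact sub_self _
  have heq : ∀ g s, ψ₀ (smulS hε.isStable_up g s) = g • ψ₀ s := fun g s => by
    simp only [ψ₀, AddMonoidHom.sub_apply, AddMonoidHom.comp_apply, AddSubgroup.coe_subtype,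
      coe_smulS, hψ g s, hΦ, smul_sub]
  let s₀ := secS (levelRes hKL) ε hπ
  have hsec : ∀ (g : L ≃ₐ[ℚ] L) t, ψ₀ (s₀ (smulS hε.isStable_ker (levelRes hKL g) t)) =
      g • ψ₀ (s₀ t) := fun g t => by
    rw [← heq, apply_eq_of_vanish hπ ψ₀ hK (smulS hε.isStable_up g (s₀ t)), prS_smul hε, prS_secS]
  -- Invariant values descend to `K`.
  choose w₁ hw₁ using fun t => exists_inclJ_eq hKL (x := ψ₀ (s₀ t)) fun n hn => by
    rw [← hsec, MonoidHom.mem_ker.1 hn,
      show smulS hε.isStable_ker (1 : K ≃ₐ[ℚ] K) t = t from Subtype.ext (one_smul _ _)]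
  let w : ε.ker →+ J K := AddMonoidHom.mk' w₁ fun s t => inclJ_injective hKL (by
    rw [map_add (inclJ hKL), hw₁, hw₁, hw₁, map_add, map_add])
  refine ⟨⟨w, fun σ t => inclJ_injective hKL ?_⟩, Φ, hΦ, fun t => ?_,
    AddMonoidHom.ext fun s => ?_⟩
  · obtain ⟨g, rfl⟩ := hπ σ
    show inclJ hKL (w₁ _) = inclJ hKL (levelRes hKL g • w₁ t)
    rw [← smul_inclJ, hw₁, hw₁, hsec]
  · have hmem : ψ₀ (s₀ t) ∈ supportedIn L {q} := sub_mem (hψq _) (Φ₀ _).2
    have e : partAt {q} (w t) = w t := inclJ_injective hKL (by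
      rw [← partAt_inclJ]
      show partAt {q} (inclJ hKL (w₁ t)) = inclJ hKL (w₁ t)
      rw [hw₁, partAt_of_mem hmem])
    show w t ∈ _
    rw [← e]
    exact partAt_mem_supportedIn _ _
  · show inclJ hKL (w₁ (prS _ ε s)) = ψ₀ s
    rw [hw₁, ← apply_eq_of_vanish hπ ψ₀ hK]

omit hp in
include hε in
/-- A semilocal map at `q` descends with the trace of its classes, up to a map on the lattice. -/
theorem exists_semilocal_trace (q : Nat.Primes) [Fintype ((L ≃ₐ[ℚ] L) ⧸ Duality.decomp L q)]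
    (m : ℕ) (j : LocUnits L q →+ C L) (hj : j = m • locC L q)
    (g : equivHom (C := LocUnits L q)
      (IsStable.restrict (hε.isStable_up (π := levelRes hKL)) (Duality.decomp L q))) :
    ∃ (w : equivHom (C := J K) hε.isStable_ker) (Φ : Lat (L ≃ₐ[ℚ] L) ι →+ C L),
      (∀ (g : L ≃ₐ[ℚ] L) x, Φ (g • x) = g • Φ x) ∧ (∀ s, w.1 s ∈ supportedIn K {q}) ∧
      ∀ s, pullHom (levelRes hKL) ε (Duality.inclC hKL) ((proj K).comp w.1) s =
        trHom (hε.isStable_up (π := levelRes hKL)) (Duality.decomp L q)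
          (j.comp g.1) s - Φ (s : Lat (L ≃ₐ[ℚ] L) ι) := by
  classical
  subst hj
  let jJ : LocUnits L q →+ J L := m • (loc' L q).comp (LocUnits.of L q).symm.toAddMonoidHom
  have hjJ : ∀ x, (m • locC L q) x = proj L (jJ x) := fun x => by
    simp only [jJ, AddMonoidHom.smul_apply, map_nsmul]
    rfl
  let ψ := trHom (hε.isStable_up (π := levelRes hKL)) (Duality.decomp L q) (jJ.comp g.1)
  have hjs : ∀ (d : Duality.decomp L q) (x : LocUnits L q),
      jJ (d • x) = (d : L ≃ₐ[ℚ] L) • jJ x := fun d x => by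
    obtain ⟨t, rfl⟩ := (decompEquiv L q).surjective d
    obtain ⟨v, rfl⟩ := (LocUnits.of L q).surjective x
    simp only [jJ, LocUnits.smul_of, AddMonoidHom.smul_apply, AddMonoidHom.comp_apply,
      AddEquiv.coe_toAddMonoidHom, AddEquiv.symm_apply_apply, loc'_smul, smul_comm _ m]
    rfl
  have hψ : IsEquivariantOn (hε.isStable_up (π := levelRes hKL)) ψ :=
    isEquivariantOn_trHom _ _ _ fun d s => by
      show jJ (g.1 (smulS _ d s)) = d • jJ (g.1 s)
      rw [g.2 d s, hjs]
      rfl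
  have hψq : ∀ s, ψ s ∈ supportedIn L {q} := fun s => by
    rw [show ψ = trHom (hε.isStable_up (π := levelRes hKL)) (Duality.decomp L q) (jJ.comp g.1)
      from rfl, trHom_apply, AddMonoidHom.finsetSum_apply]
    refine sum_mem fun r _ => ?_
    rw [conjOn_apply]
    exact smul_mem_supportedIn _ (nsmul_mem (loc'_mem_supportedIn q _) m)
  obtain ⟨w, Φ, hΦ, hw, hwψ⟩ := exists_descend_supported (hε := hε) hKL q ψ hψ hψq
  refine ⟨w, (proj L).comp Φ, fun g x => by rw [AddMonoidHom.comp_apply, hΦ, proj_smul]; rfl, hw,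
    fun s => ?_⟩
  rw [pullHom_proj, hwψ]
  simp only [AddMonoidHom.comp_apply, AddMonoidHom.sub_apply, map_sub]
  congr 1
  simp only [ψ, trHom_apply, AddMonoidHom.finsetSum_apply, map_sum, conjOn_apply, proj_smul,
    AddMonoidHom.comp_apply, hjJ]

omit [FiniteDimensional ℚ ↥K] in
include hε in
/-- Functionals on the cocycles of a subgroup are pairings. -/
theorem exists_pair_functional {Cv : Type*} [AddCommGroup Cv]
    (D : Subgroup (L ≃ₐ[ℚ] L)) [Fintype D] [DistribMulAction D Cv] {uv : NormCocycle D Cv}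
    (huv : IsClassFormation p uv)
    (ν : cocycleMod (G := D) (S := relUp (levelRes hKL) ε) →+ ZMod p)
    (hν : ∀ b : cocycleMod (G := D) (S := relUp (levelRes hKL) ε),
      (b : D → Lat (L ≃ₐ[ℚ] L) ι) ∈ coboundaryMod (S := relUp (levelRes hKL) ε) → ν b = 0) :
    ∃ g : equivHom (C := Cv) (IsStable.restrict (hε.isStable_up (π := levelRes hKL)) D),
      pair (IsStable.restrict (hε.isStable_up (π := levelRes hKL)) D) hε.smul_mem_up huv
        (Lat.isInduced.subgroup D) g = ν :=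
  exists_pair_eq (G := D) (IsStable.restrict (hε.isStable_up (π := levelRes hKL)) D)
    hε.smul_mem_up huv (Lat.isInduced.subgroup D) ν hν

variable {u : NormCocycle (L ≃ₐ[ℚ] L) (C L)} (hu : IsClassFormation p u)
  (hk : IsPGroup p (levelRes hKL).ker) {ζ : QBar}

/-- The dual of a semilocal map which is a trace up to a map on the lattice. -/
theorem dual_eq_of_semilocal {D : Subgroup (L ≃ₐ[ℚ] L)} [Fintype D]
    [Fintype ((L ≃ₐ[ℚ] L) ⧸ D)] {Cv : Type*} [AddCommGroup Cv] [DistribMulAction D Cv]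
    {uv : NormCocycle D Cv} (huv : IsClassFormation p uv) (σ : SplitHom D uv u)
    (g : equivHom (C := Cv) (IsStable.restrict (hε.isStable_up (π := levelRes hKL)) D))
    (w : equivHom (C := J K) hε.isStable_ker) (Φ : Lat (L ≃ₐ[ℚ] L) ι →+ C L)
    (hΦ : ∀ (g : L ≃ₐ[ℚ] L) x, Φ (g • x) = g • Φ x)
    (hwψ : ∀ s, pullHom (levelRes hKL) ε (Duality.inclC hKL) ((proj K).comp w.1) s =
      trHom (hε.isStable_up (π := levelRes hKL)) D (σ.j.comp g.1) s -
        Φ (s : Lat (L ≃ₐ[ℚ] L) ι))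
    (a : levelCocycles (levelRes hKL) A) :
    dual hε hKL hu hk (projHom hε w) a = (σ.s : ZMod p) *
      pair (IsStable.restrict hε.isStable_up D) hε.smul_mem_up huv (Lat.isInduced.subgroup D) g
        (resMod D ⟨_, liftC_mem (levelSystem hKL hu hk) hε a⟩) := by
  classical
  obtain ⟨T, hT⟩ := Lat.isInduced (G := L ≃ₐ[ℚ] L) (ι := ι)
  let n : equivHom (C := C L) (hε.isStable_up (π := levelRes hKL)) :=
    ⟨normOn hε.isStable_up ((Φ.comp T).comp (relUp (levelRes hKL) ε).subtype),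
      isEquivariantOn_normOn hε.isStable_up _⟩
  have he : pullEquiv (levelSystem hKL hu hk) hε (projHom hε w) =
      trEquiv hε.isStable_up σ g - n :=
    Subtype.ext (AddMonoidHom.ext fun s => by
      show pullHom (levelRes hKL) ε (Duality.inclC hKL) ((proj K).comp w.1) s =
        trHom hε.isStable_up D (σ.j.comp g.1) s - n.1 s
      rw [hwψ]
      congr 1
      exact (DFunLike.congr_fun (normOn_comp_of_equivariant hε.isStable_up hT Φ hΦ) s).symm)
  let b : cocycleMod (G := L ≃ₐ[ℚ] L) (S := relUp (levelRes hKL) ε) :=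
    ⟨_, liftC_mem (levelSystem hKL hu hk) hε a⟩
  let P := pair (hε.isStable_up (π := levelRes hKL)) hε.smul_mem_up
    (levelSystem hKL hu hk).classFormation
    (Lat.isInduced : IsInduced (L ≃ₐ[ℚ] L) (Lat (L ≃ₐ[ℚ] L) ι))
  have e1 : dual hε hKL hu hk (projHom hε w) a =
      P (pullEquiv (levelSystem hKL hu hk) hε (projHom hε w)) b :=
    theta_apply (levelSystem hKL hu hk) hε (projHom hε w) a
  have e2 := DFunLike.congr_fun (congrArg P he) b
  have e3 := DFunLike.congr_fun (map_sub P (trEquiv hε.isStable_up σ g) n) b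
  have e4 : P n b = 0 := pair_normOn hε.isStable_up hε.smul_mem_up
    (levelSystem hKL hu hk).classFormation Lat.isInduced _ b
  have e5 := pair_trEquiv hε.isStable_up hε.smul_mem_up (levelSystem hKL hu hk).classFormation
    Lat.isInduced huv σ g b
  refine e1.trans (e2.trans (e3.trans ?_))
  refine (AddMonoidHom.sub_apply _ _ _).trans ?_
  exact (congrArg (fun x => P (trEquiv hε.isStable_up σ g) b - x) e4).trans
    ((sub_zero _).trans e5)

/-- **The local duality.** -/
theorem exists_local_dual (hp2 : p ≠ 2) (hζ : IsPrimitiveRoot ζ p) (hζL : ζ ∈ L) (q : Nat.Primes)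
    (μ : levelCocycles (levelRes hKL) A →+ ZMod p)
    (hμ : ∀ a : levelCocycles (levelRes hKL) A,
      (∃ x : A, ∀ g ∈ Duality.decomp L q, (a : (L ≃ₐ[ℚ] L) → A) g = levelRes hKL g • x - x) →
        μ a = 0) :
    ∃ w : equivHom (C := J K) hε.isStable_ker, (∀ s, w.1 s ∈ supportedIn K {q}) ∧
      dual hε hKL hu hk (projHom hε w) = μ := by
  classical
  by_cases hD : p ∣ Nat.card (Duality.decomp L q)
  swap
  · refine ⟨0, fun s => zero_mem _, AddMonoidHom.ext fun a => ?_⟩
    rw [hμ a (exists_coboundary_of_coprime hKL hε.killed _ hD a), map_zero, map_zero]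
    rfl
  set D := Duality.decomp L q
  let : Fintype D := Fintype.ofFinite _
  let : Fintype ((L ≃ₐ[ℚ] L) ⧸ D) := Fintype.ofFinite _
  obtain ⟨uv, σ, m, huv, hs, hσj⟩ := exists_split hp2 hζ hζL q hu hD
  have h0 := exists_local_functional (hε := hε) hKL D μ hμ
  obtain ⟨ν, hν, hνμ⟩ := h0
  have hS : IsStable (L ≃ₐ[ℚ] L) (relUp (levelRes hKL) ε) := hε.isStable_up
  have h1 := exists_pair_functional (hε := hε) (Cv := LocUnits L q) hKL D huv ν hν
  obtain ⟨g₁, hg₁⟩ := h1
  let g := ((σ.s : ZMod p)⁻¹).val • g₁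
  have h2 := @exists_semilocal_trace p K _ _ A ι _ _ _ ε hε L _ _ hKL q _ m σ.j hσj g
  obtain ⟨w, Φ, hΦ, hw, hwψ⟩ := h2
  refine ⟨w, hw, AddMonoidHom.ext fun a => ?_⟩
  have h3 := @dual_eq_of_semilocal p hp K _ _ A ι _ _ _ ε hε L _ _ hKL u hu hk D _ _ (LocUnits L q)
    _ _ uv huv σ g w Φ hΦ hwψ a
  refine h3.trans ?_
  let P := pair (IsStable.restrict (hε.isStable_up (π := levelRes hKL)) D) hε.smul_mem_up huv
    (Lat.isInduced.subgroup D)
  let b := resMod D (⟨_, liftC_mem (levelSystem hKL hu hk) hε a⟩ :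
    cocycleMod (G := L ≃ₐ[ℚ] L) (S := relUp (levelRes hKL) ε))
  have e1 : P g₁ b = μ a := (DFunLike.congr_fun hg₁ b).trans
    (hνμ _ a fun g => eps_liftC (levelSystem hKL hu hk) hε _ g)
  have e2 : P g b = ((σ.s : ZMod p)⁻¹).val • P g₁ b :=
    (DFunLike.congr_fun (map_nsmul P _ g₁) b).trans (AddMonoidHom.smul_apply _ _ _)
  have e3 : ∀ x : ZMod p, (σ.s : ZMod p) * (((σ.s : ZMod p)⁻¹).val • x) = x := fun x => by
    rw [nsmul_eq_mul, ZMod.natCast_zmod_val, ← mul_assoc, mul_inv_cancel₀ hs, one_mul]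
  exact (congrArg (fun y => (σ.s : ZMod p) * y) e2).trans ((e3 _).trans e1)

end Fermat.Agent.CFT.PT
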