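import Fermat.Agent.CFT.PT.LinkC
import Fermat.Agent.CFT.PT.Levels
import Fermat.Agent.CFT.PT.SemiH2
import Fermat.Agent.CFT.PT.Arith.Frobenius
import Fermat.Agent.CFT.Idele.Fundamental

/-!
# From cocycles locally trivial at `S` to links

A cocycle of a level unramified outside `S` with values in the dual module, trivial at the places
of `S`, is linked to an equivariant map into classes: at the other places it dies on an unramified
enlargement of the decomposition group.

The main theorem is `exists_linked_of_cocycle`.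
-/

set_option autoImplicit false

noncomputable section

namespace Fermat.Agent.CFT.PT

open Fermat.Agent.Arith IntermediateField Fermat.Agent.CFT.Local Fermat.Agent.CFT.Idele
open Fermat.Agent.CFT.Duality groupCohomology

/-! ### Inflated cocycles die on cyclic groups -/

/-- The values on the powers of `δ` of a cochain trivialising `c` on the powers of `δ`. -/
private def cycSeq {G M : Type*} [Group G] [AddCommGroup M] [DistribMulAction G M]
    (c : G × G → M) (δ : G) : ℕ → M
  | 0 => c (1, 1)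
  | j + 1 => δ • cycSeq c δ j - c (δ, δ ^ j)

private theorem cycSeq_eq_sum {G M : Type*} [Group G] [AddCommGroup M] [DistribMulAction G M]
    (c : G × G → M) (δ : G) (i : ℕ) : cycSeq c δ i = δ ^ i • c (1, 1) -
      ∑ j ∈ Finset.range i, δ ^ (i - 1 - j) • c (δ, δ ^ j) := by
  induction i with
  | zero => simp [cycSeq]
  | succ i ih =>
    rw [cycSeq, ih, smul_sub, smul_smul, ← pow_succ', Finset.sum_range_succ, Finset.smul_sum]
    simp only [Nat.add_sub_cancel, Nat.sub_self, pow_zero, one_smul, smul_smul, ← pow_succ']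
    rw [sub_sub]
    congr 2
    refine Finset.sum_congr rfl fun j hj => ?_
    rw [Finset.mem_range] at hj
    rw [show i - 1 - j + 1 = i - j by omega]

/-- The sequence has period `orderOf δ`: the sum over a period is `p` times a smaller sum. -/
private theorem cycSeq_mod_orderOf {G M : Type*} [Group G] [AddCommGroup M]
    [DistribMulAction G M] {p : ℕ} (hM : ∀ m : M, p • m = 0) (c : G × G → M) (δ : G) {n : ℕ}
    (hn : p * n ∣ orderOf δ) (hfix : ∀ m : M, δ ^ n • m = m)
    (hper : ∀ j k, c (δ, δ ^ (j + n * k)) = c (δ, δ ^ j)) (i : ℕ) :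
    cycSeq c δ (i % orderOf δ) = cycSeq c δ i := by
  set N := orderOf δ
  obtain ⟨k, hk⟩ := hn
  have hfixm : ∀ m (v : M), δ ^ (n * m) • v = v := fun m v => by
    induction m with
    | zero => rw [mul_zero, pow_zero, one_smul]
    | succ m ih => rw [Nat.mul_succ, pow_add, mul_smul, hfix, ih]
  -- the sum over `m` blocks of length `n` is `m` times the sum over one
  have hblock : ∀ m, ∑ j ∈ Finset.range (n * m), δ ^ (n * m - 1 - j) • c (δ, δ ^ j) =
      m • ∑ j ∈ Finset.range n, δ ^ (n - 1 - j) • c (δ, δ ^ j) := fun m => by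
    induction m with
    | zero => simp
    | succ m ih =>
      rw [Nat.mul_succ, Nat.add_comm, Finset.sum_range_add, add_smul, one_smul, ← ih,
        add_comm (∑ j ∈ Finset.range (n * m), _)]
      congr 1
      · refine Finset.sum_congr rfl fun j hj => ?_
        rw [Finset.mem_range] at hj
        rw [show n + n * m - 1 - j = n * m + (n - 1 - j) by omega, pow_add, mul_smul, hfixm]
      · refine Finset.sum_congr rfl fun j hj => ?_
        rw [show n + n * m - 1 - (n + j) = n * m - 1 - j by omega,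
          show n + j = j + n * 1 by omega, hper]
  have hN : cycSeq c δ N = cycSeq c δ 0 := by
    rw [cycSeq_eq_sum, show δ ^ N = 1 from pow_orderOf_eq_one δ, one_smul]
    have e : N = n * (p * k) := by rw [hk]; ring
    rw [e, hblock, mul_smul, hM, sub_zero, cycSeq]
  have hadd : ∀ i, cycSeq c δ (i + N) = cycSeq c δ i := fun i => by
    induction i with
    | zero => rw [Nat.zero_add, hN]
    | succ i ih =>
      rw [Nat.add_right_comm, cycSeq, cycSeq, ih, pow_add,
        show δ ^ N = 1 from pow_orderOf_eq_one δ, mul_one]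
  have hmul : ∀ q r, cycSeq c δ (r + N * q) = cycSeq c δ r := fun q r => by
    induction q with
    | zero => rw [mul_zero, add_zero]
    | succ q ih => rw [Nat.mul_succ, ← add_assoc, hadd, ih]
  conv_rhs => rw [← Nat.mod_add_div i N, hmul]

/-- An inflated cocycle dies on a cyclic group of order divisible by `p` times the original. -/
theorem exists_cyclic_trivialisation {G M : Type*} [Group G] [Finite G] [AddCommGroup M]
    [DistribMulAction G M] {p : ℕ} (hM : ∀ m : M, p • m = 0) (c : G × G → M) (hc : IsCocycle₂ c)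
    (δ : G) {n : ℕ} (hn : p * n ∣ orderOf δ) (hfix : ∀ m : M, δ ^ n • m = m)
    (hper : ∀ j k, c (δ, δ ^ (j + n * k)) = c (δ, δ ^ j)) :
    ∃ x : G → M, ∀ g ∈ Subgroup.zpowers δ, ∀ h ∈ Subgroup.zpowers δ,
      g • x h - x (g * h) + x g = c (g, h) := by
  classical
  let x : G → M := fun g => if hg : ∃ i : ℕ, δ ^ i = g then cycSeq c δ hg.choose else 0
  have hx : ∀ i, x (δ ^ i) = cycSeq c δ i := fun i => by
    have hg : ∃ j : ℕ, δ ^ j = δ ^ i := ⟨i, rfl⟩
    simp only [x, dif_pos hg]
    rw [← cycSeq_mod_orderOf hM c δ hn hfix hper hg.choose,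
      ← cycSeq_mod_orderOf hM c δ hn hfix hper i]
    exact congrArg (cycSeq c δ) (pow_eq_pow_iff_modEq.mp hg.choose_spec)
  have hpow : ∀ g ∈ Subgroup.zpowers δ, ∃ i : ℕ, δ ^ i = g := fun g hg =>
    (isOfFinOrder_of_finite δ).mem_powers_iff_mem_zpowers.mpr hg
  -- the difference `c'` is a cocycle vanishing at `(1, ·)` and `(δ, δ ^ l)`, hence everywhere
  let c' : G → G → M := fun g h => c (g, h) - (g • x h - x (g * h) + x g)
  have hc' : ∀ g h j, c' (g * h) j + c' g h = g • c' h j + c' g (h * j) := fun g h j => by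
    have e : c (g * h, j) + c (g, h) = g • c (h, j) + c (g, h * j) := hc g h j
    rw [← sub_eq_zero] at e ⊢
    simp only [c', smul_sub, smul_add, mul_smul, mul_assoc]
    rw [← e]
    abel
  have hone : ∀ j, c (1, j) = c (1, 1) := fun j => by
    have e : c (1 * 1, j) + c (1, 1) = (1 : G) • c (1, j) + c (1, 1 * j) := hc 1 1 j
    simp only [one_mul, one_smul] at e
    exact (add_left_cancel e).symm
  have hδ : x δ = 0 := by
    have e : c (δ * 1, 1) + c (δ, 1) = δ • c (1, 1) + c (δ, 1 * 1) := hc δ 1 1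
    simp only [mul_one] at e
    rw [← pow_one δ, hx, cycSeq, cycSeq, pow_zero, ← add_right_cancel e, sub_self]
  have hstep : ∀ l : ℕ, c' δ (δ ^ l) = 0 := fun l => by
    simp only [c', ← pow_succ', hx, cycSeq, hδ, add_zero, sub_sub_cancel, sub_self]
  have h0 : ∀ i : ℕ, ∀ j ∈ Subgroup.zpowers δ, c' (δ ^ i) j = 0 := by
    intro i
    induction i with
    | zero =>
      intro j _
      simp only [c', pow_zero, one_smul, one_mul, hone, sub_self, zero_add]
      rw [sub_eq_zero]
      have h00 := hx 0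
      rw [pow_zero] at h00
      rw [h00, cycSeq]
    | succ i ih =>
      intro j hj
      obtain ⟨l, rfl⟩ := hpow j hj
      have e := hc' δ (δ ^ i) (δ ^ l)
      rw [← pow_succ', hstep, ← pow_add, hstep, add_zero, add_zero, ih _ hj, smul_zero] at e
      exact e
  refine ⟨x, fun g hg h hh => ?_⟩
  obtain ⟨i, rfl⟩ := hpow g hg
  exact (sub_eq_zero.mp (h0 i h hh)).symm

variable {p : ℕ} [hp : Fact p.Prime] {K : IntermediateField ℚ QBar}
  [Normal ℚ K] {A : Type} [AddCommGroup A] [DistribMulAction (K ≃ₐ[ℚ] K) A]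

/-! ### Semilocal trivialisations -/

/-- Trivial at the place over `q`. -/
def IsLocTriv₁ (q : Nat.Primes) (a : GQ → A) : Prop :=
  ∃ x : A, ∀ τ : Ω q ≃ₐ[ℚ_[(q : ℕ)]] Ω q, a (loc q τ) = res K (loc q τ) • x - x

/-- Trivial at the place over `q`, by a cochain of finite level. -/
def IsLocTriv₂ (q : Nat.Primes) (c : GQ × GQ → DualMod K A) : Prop :=
  ∃ (F : IntermediateField ℚ QBar) (x : (Ω q ≃ₐ[ℚ_[(q : ℕ)]] Ω q) → DualMod K A),
    FiniteDimensional ℚ F ∧ (∀ g s, loc q s ∈ F.fixingSubgroup → x (g * s) = x g) ∧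
      ∀ σ τ, loc q σ • x τ - x (σ * τ) + x σ = c (loc q σ, loc q τ)

omit [DistribMulAction Gal(↥K/ℚ) A] in
/-- Values in the dual module are values in a field with the roots of unity. -/
theorem exists_toQHom_eq {ζ : QBar} (hζ : IsPrimitiveRoot ζ p) (hA : ∀ a : A, p • a = 0)
    {L : IntermediateField ℚ QBar} [Normal ℚ L] (hKL : K ≤ L) (hζL : ζ ∈ L)
    (φ : DualMod K A) : ∃ φ' : TwHom (levelRes hKL) A (Additive Lˣ), toQHom φ' = φ := by
  choose y hy using fun a => exists_unitsToQ_eq (L := L) (x := φ a)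
    (mem_of_nsmul_eq_zero hζ hζL (nsmul_apply_eq_zero hA φ a))
  exact ⟨TwHom.of (AddMonoidHom.mk' y fun a b => unitsToQ_injective L (by
    rw [map_add (unitsToQ L), hy, hy, hy, map_add φ])), TwHom.ext fun a => hy a⟩

variable {L : IntermediateField ℚ QBar} [FiniteDimensional ℚ L] [Normal ℚ L] {le : K ≤ L}

/-- Semilocal trivialisations from trivialisations on the decomposition group. -/
theorem exists_semilocal (q : Nat.Primes)
    (cc : (L ≃ₐ[ℚ] L) × (L ≃ₐ[ℚ] L) → TwHom (levelRes le) A (Additive Lˣ)) (hcc : IsCocycle₂ cc)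
    (xx : (L ≃ₐ[ℚ] L) → TwHom (levelRes le) A (Additive Lˣ))
    (hxx : ∀ g ∈ Duality.decomp L q, ∀ h ∈ Duality.decomp L q, dOne xx (g, h) = cc (g, h)) :
    ∃ t : (L ≃ₐ[ℚ] L) → TwHom (levelRes le) A (J L), (∀ g a, t g a ∈ supportedIn L {q}) ∧
      ∀ g h a, dOne t (g, h) a = partAt {q} (diag L (cc (g, h) a)) := by
  classical
  -- Project onto the chosen place above `q`.
  let P : TwHom (levelRes le) A (J L) →+ TwHom (levelRes le) A (J L) := TwHom.map (locPart L q)
  let Zs : AddSubgroup (TwHom (levelRes le) A (J L)) :=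
    { carrier := {φ | ∀ a, φ a ∈ supportedIn L {q}}
      add_mem' := fun {φ ψ} hφ hψ a => add_mem (hφ a) (hψ a)
      zero_mem' := fun _ => zero_mem _
      neg_mem' := fun {φ} hφ a => neg_mem (hφ a) }
  have hlp : ∀ x : J L, locPart L q x ∈ supportedIn L {q} := fun x q' hq' σ =>
    val_locIdl_of_ne q _ (by simpa using hq') σ
  have hlp2 : ∀ x : J L, locPart L q (locPart L q x) = locPart L q x := fun x => by
    refine congrArg (fun y => Additive.ofMul (locIdl q y)) ?_
    show val (locIdl q (val x.toMul q 1)) q 1 = _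
    rw [← map_one (toGlobal (q : ℕ) L), val_locIdl_self, one_smul, map_one]
  have hlpp : ∀ x : J L, locPart L q (partAt {q} x) = locPart L q x := fun x => by
    refine congrArg (fun y => Additive.ofMul (locIdl q y)) ?_
    rw [val_partAt, if_pos (Set.mem_singleton q)]
  have hval : ∀ x : J L, ∀ σ : L ≃ₐ[ℚ] L,
      locPart L q (σ • x) = 0 → val x.toMul q σ = 1 := fun x σ h => by
    have e : val (locPart L q (σ • x)).toMul q 1 = val (0 : J L).toMul q 1 :=
      congrArg (fun z : J L => val z.toMul q 1) h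
    rw [val_zero_J, show val (locPart L q (σ • x)).toMul q 1 = val (σ • x).toMul q 1 by
      show val (locIdl q (val (σ • x).toMul q 1)) q 1 = _
      conv_lhs => rw [← map_one (toGlobal (q : ℕ) L), val_locIdl_self, one_smul, map_one],
      val_smul_J, one_mul] at e
    exact e
  -- This is a semilocal projection relative to the decomposition group.
  have hP : SemiProj (Duality.decomp L q) P Zs := by
    refine ⟨fun φ a => hlp _, fun g φ hφ a => smul_mem_supportedIn g (hφ _), fun d hd φ =>
      TwHom.ext fun a => locPart_smul q hd _, fun φ => TwHom.ext fun a => hlp2 _,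
      fun g hg φ => TwHom.ext fun a => ?_, fun φ hφ h0 => TwHom.ext fun a => J_ext fun q' σ => ?_⟩
    · show locPart L q (g • locPart L q _) = 0
      refine (congrArg (fun y => Additive.ofMul (locIdl q y)) ?_).trans
        (congrArg Additive.ofMul (map_one (locIdl q)))
      rw [val_smul_J, one_mul]
      exact val_locIdl_of_notMem q _ hg
    · rw [TwHom.zero_apply, val_zero_J]
      by_cases hq' : q' = q
      · subst hq'
        refine hval _ σ ?_
        have e := congr_arg (fun ψ : TwHom (levelRes le) A (J L) => ψ (levelRes le σ • a)) (h0 σ)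
        simp only [P, TwHom.map_apply, TwHom.smul_apply, map_inv, inv_smul_smul,
          TwHom.zero_apply] at e
        exact e
      · exact hφ a q' (by simpa using hq') σ
  have : Fintype ((L ≃ₐ[ℚ] L) ⧸ Duality.decomp L q) := Fintype.ofFinite _
  let cJ : (L ≃ₐ[ℚ] L) × (L ≃ₐ[ℚ] L) → TwHom (levelRes le) A (J L) := fun gh =>
    TwHom.map ((partAt {q}).comp (diag L)) (cc gh)
  have hsm : ∀ (g : L ≃ₐ[ℚ] L) (φ : TwHom (levelRes le) A (Additive Lˣ)),
      TwHom.map ((partAt {q}).comp (diag L)) (g • φ) =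
        g • TwHom.map ((partAt {q}).comp (diag L)) φ := fun g φ => TwHom.map_smul _ (fun g x => by
    simp only [AddMonoidHom.comp_apply, diag_smul, partAt_smul]) g φ
  have hcJ : IsCocycle₂ cJ := fun g h j => by
    have e := congrArg (TwHom.map ((partAt {q}).comp (diag L))) (hcc g h j)
    rw [map_add, map_add, hsm] at e
    exact e
  -- The semilocal Shapiro lemma globalises the local trivialisation.
  obtain ⟨t, ht, htc⟩ := hP.exists_h2 cJ hcJ (fun gh a => partAt_mem_supportedIn {q} _)
    (fun d => TwHom.map ((locPart L q).comp (diag L)) (xx d))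
    (fun d => TwHom.ext fun a => hlp2 _) fun a b => TwHom.ext fun z => by
      have e := congr_arg (fun φ : TwHom (levelRes le) A (Additive Lˣ) =>
        locPart L q (diag L (φ z))) (hxx a a.2 b b.2)
      simp only [dOne, TwHom.add_apply, TwHom.sub_apply, TwHom.smul_apply, map_add, map_sub,
        diag_smul, locPart_smul q a.2] at e
      simp only [P, cJ, TwHom.add_apply, TwHom.sub_apply, TwHom.smul_apply, TwHom.map_apply,
        AddMonoidHom.comp_apply, Subgroup.coe_mul, hlpp]
      exact e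
  exact ⟨t, ht, fun g h a => congr_arg (fun φ : TwHom (levelRes le) A (J L) => φ a) (htc g h)⟩

variable {ι : Type} [Fintype ι] {ε : Lat (K ≃ₐ[ℚ] K) ι →+ A} {S : Finset Nat.Primes} {ζ : QBar}

omit [FiniteDimensional ℚ ↥L] in
/-- The cocycle at a level of a cocycle of `ℚ`. -/
theorem exists_levelCocycle₂ (hζ : IsPrimitiveRoot ζ p) (hA : ∀ a : A, p • a = 0) (hζL : ζ ∈ L)
    (c : GQ × GQ → DualMod K A) (hc : IsCocycle₂ c) {F : IntermediateField ℚ QBar} (hFL : F ≤ L)
    (hlev : ∀ g g' s s', s ∈ F.fixingSubgroup → s' ∈ F.fixingSubgroup →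
      c (g * s, g' * s') = c (g, g')) :
    ∃ c₀ : (L ≃ₐ[ℚ] L) × (L ≃ₐ[ℚ] L) → TwHom (levelRes le) A (Additive Lˣ),
      IsCocycle₂ c₀ ∧ ∀ g h, c (g, h) = toQHom (c₀ (res L g, res L h)) := by
  choose c₀ hc₀ using fun x : (L ≃ₐ[ℚ] L) × (L ≃ₐ[ℚ] L) =>
    exists_toQHom_eq hζ hA le hζL (c (lift L x.1, lift L x.2))
  have h : ∀ g h, c (g, h) = toQHom (c₀ (res L g, res L h)) := fun g h => by
    rw [hc₀]
    exact eq_of_res_eq₂ hlev hFL (res_lift L _).symm (res_lift L _).symm
  refine ⟨c₀, fun x y z => toQHom_injective ?_, h⟩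
  obtain ⟨g, rfl⟩ := AlgEquiv.restrictNormalHom_surjective (K₁ := L) QBar x
  obtain ⟨g', rfl⟩ := AlgEquiv.restrictNormalHom_surjective (K₁ := L) QBar y
  obtain ⟨g'', rfl⟩ := AlgEquiv.restrictNormalHom_surjective (K₁ := L) QBar z
  rw [map_add, map_add, ← smul_toQHom, ← map_mul, ← map_mul, ← h, ← h, ← h, ← h]
  exact hc g g' g''

omit [DistribMulAction Gal(↥K/ℚ) A] [FiniteDimensional ℚ ↥L] in
theorem toQHom_unitsIncl {L' : IntermediateField ℚ QBar} [Normal ℚ L']
    (h' : L ≤ L') (φ : TwHom (levelRes le) A (Additive Lˣ)) :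
    toQHom (K := K) (L := L') (h := le.trans h') (TwHom.of ((unitsIncl h').comp φ.toHom)) =
      toQHom φ := TwHom.ext fun a => unitsToQ_unitsIncl h' (φ a)

theorem locTriv_of_isLocTriv₂ (hζ : IsPrimitiveRoot ζ p) (hA : ∀ a : A, p • a = 0) (hζL : ζ ∈ L)
    {q : Nat.Primes} (hq : q ∈ S) (c : GQ × GQ → DualMod K A)
    (c₀ : (L ≃ₐ[ℚ] L) × (L ≃ₐ[ℚ] L) → TwHom (levelRes le) A (Additive Lˣ)) (hc₀ : IsCocycle₂ c₀)
    (h : ∀ g h, c (g, h) = toQHom (c₀ (res L g, res L h))) (hloc : IsLocTriv₂ q c) :
    LocTriv S c₀ q := by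
  classical
  -- Pass to a normal level over which the local trivialisation is defined.
  obtain ⟨F, x, hF, hxF, hx⟩ := hloc
  have := hF
  have : FiniteDimensional ℚ (L ⊔ F : IntermediateField ℚ QBar) :=
    IntermediateField.finiteDimensional_sup _ _
  set L' := IntermediateField.normalClosure ℚ (L ⊔ F : IntermediateField ℚ QBar) QBar
  have : Normal ℚ L' := normal_normalClosure _
  have hle : L ⊔ F ≤ L' := IntermediateField.le_normalClosure _
  have h' : L ≤ L' := le_sup_left.trans hle
  refine ⟨L', inferInstance, inferInstance, h', fun hqS => absurd hq hqS, ?_⟩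
  let cc : (L' ≃ₐ[ℚ] L') × (L' ≃ₐ[ℚ] L') →
      TwHom (levelRes (le.trans h')) A (Additive L'ˣ) := fun gh =>
    TwHom.of ((unitsIncl h').comp (c₀ (levelRes h' gh.1, levelRes h' gh.2)).toHom)
  have hccq : ∀ g k, toQHom (cc (res L' g, res L' k)) = c (g, k) := fun g k => by
    rw [h, toQHom_unitsIncl, levelRes_res, levelRes_res]
  have hcc : IsCocycle₂ cc := fun x y z => toQHom_injective (by
    obtain ⟨g, rfl⟩ := AlgEquiv.restrictNormalHom_surjective (K₁ := L') QBar x
    obtain ⟨g', rfl⟩ := AlgEquiv.restrictNormalHom_surjective (K₁ := L') QBar y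
    obtain ⟨g'', rfl⟩ := AlgEquiv.restrictNormalHom_surjective (K₁ := L') QBar z
    rw [map_add, map_add, ← smul_toQHom, ← map_mul, ← map_mul, hccq, hccq, hccq, hccq, h, h, h, h,
      map_mul, map_mul, smul_toQHom, ← map_add, ← map_add, hc₀])
  -- It gives a trivialisation on the decomposition group of that level.
  choose xq hxq using fun τ => exists_toQHom_eq hζ hA (le.trans h') (h' hζL) (x τ)
  let xx : (L' ≃ₐ[ℚ] L') → TwHom (levelRes (le.trans h')) A (Additive L'ˣ) := fun g =>
    if hg : ∃ τ, res L' (loc q τ) = g then xq hg.choose else 0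
  have hxx : ∀ τ, toQHom (xx (res L' (loc q τ))) = x τ := fun τ => by
    have hg : ∃ τ', res L' (loc q τ') = res L' (loc q τ) := ⟨τ, rfl⟩
    simp only [xx, dif_pos hg, hxq]
    have e := hxF τ (τ⁻¹ * hg.choose) (by
      rw [map_mul, map_inv]
      exact IntermediateField.fixingSubgroup_antitone (le_sup_right.trans hle)
        ((res_eq_iff L').1 hg.choose_spec.symm))
    rw [mul_inv_cancel_left] at e
    exact e
  have hlift : ∀ g ∈ Duality.decomp L' q, ∃ τ, res L' (loc q τ) = g := fun g hg => by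
    obtain ⟨t, rfl⟩ := MonoidHom.mem_range.1 hg
    obtain ⟨τ, rfl⟩ := AlgEquiv.restrictNormalHom_surjective (K₁ := E L' q) (Ω q) t
    exact ⟨τ, (toGlobal_restrict _ L' τ).symm⟩
  -- Globalise it semilocally.
  obtain ⟨t, ht, htc⟩ := exists_semilocal q cc hcc xx fun g hg k hk => toQHom_injective (by
    obtain ⟨σ, rfl⟩ := hlift g hg
    obtain ⟨τ, rfl⟩ := hlift k hk
    simp only [dOne, map_add, map_sub, ← smul_toQHom, ← map_mul, hxx, hccq, hx])
  refine ⟨t, ht, fun g k a => ?_⟩
  rw [htc]
  show partAt {q} (diag L' (unitsIncl h' _)) = _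
  rw [diag_unitsIncl]
  rfl

/-! ### Places outside `S` and the linking -/

theorem locTriv_of_unramified [FiniteDimensional ℚ K] (hζ : IsPrimitiveRoot ζ p) (hζL : ζ ∈ L)
    (hA : ∀ a : A, p • a = 0) (hLS : L.IsUnramifiedOutside S) {q : Nat.Primes} (hq : q ∉ S)
    (c₀ : (L ≃ₐ[ℚ] L) × (L ≃ₐ[ℚ] L) → TwHom (levelRes le) A (Additive Lˣ)) (hc₀ : IsCocycle₂ c₀) :
    LocTriv S c₀ q := by
  classical
  -- Enlarge `L` so that Frobenius `δ` generates the decomposition group with order large enough.
  obtain ⟨L', hfd, hn, h', δ, hbot, hrange, hord⟩ :=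
    exists_frobenius_enlargement (p := p) (q : ℕ) ((isUnramifiedOutside_iff L S).mp hLS q hq)
  let := hfd; let := hn
  refine ⟨L', hfd, hn, h', fun _ => ⟨hbot, fun g x => ?_⟩, ?_⟩
  · obtain ⟨n, hn⟩ := exists_norm_eq_zpow L' hbot (val x.toMul q (res L' g))
    exact ⟨n, (norm_val_eq L' x q g).symm.trans hn⟩
  let cc : (L' ≃ₐ[ℚ] L') × (L' ≃ₐ[ℚ] L') →
      TwHom (levelRes (le.trans h')) A (Additive L'ˣ) := fun gh =>
    TwHom.of ((unitsIncl h').comp (c₀ (levelRes h' gh.1, levelRes h' gh.2)).toHom)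
  have hcc : IsCocycle₂ cc := fun g g' g'' => TwHom.ext fun a => by
    have e := congr_arg (fun φ : TwHom (levelRes le) A (Additive Lˣ) => unitsIncl h' (φ a))
      (hc₀ (levelRes h' g) (levelRes h' g') (levelRes h' g''))
    simp only [TwHom.add_apply, TwHom.smul_apply, map_add] at e
    simp only [cc, TwHom.add_apply, TwHom.smul_apply, TwHom.of_apply, AddMonoidHom.comp_apply,
      TwHom.toHom_apply, map_mul, smul_unitsIncl]
    rw [← map_inv (levelRes h'), levelRes_levelRes] at e
    exact e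
  have hres : levelRes h' δ = resTo h' δ := by
    obtain ⟨g, rfl⟩ := AlgEquiv.restrictNormalHom_surjective (K₁ := L') QBar δ
    rw [levelRes_res, resTo_res]
  set n := orderOf (resTo h' δ)
  have hn1 : levelRes h' (δ ^ n) = 1 := by rw [map_pow, hres, pow_orderOf_eq_one]
  -- `δ ^ n` fixes the coefficients, so on this cyclic group the cocycle is a coboundary.
  have hfixM : ∀ φ : TwHom (levelRes (le.trans h')) A (Additive L'ˣ), δ ^ n • φ = φ :=
    fun φ => TwHom.ext fun a => by
      rw [TwHom.smul_apply, ← levelRes_levelRes le h', map_inv, hn1, inv_one, map_one, one_smul]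
      set x := φ a
      have hx : p • x = 0 := nsmul_apply_eq_zero hA φ a
      obtain ⟨g, hg⟩ := AlgEquiv.restrictNormalHom_surjective (K₁ := L') QBar (δ ^ n)
      refine unitsToQ_injective L' ?_
      rw [← hg, ← smul_unitsToQ]
      refine Additive.toMul.injective (Units.ext ?_)
      show g (((unitsToQ L' x).toMul : QBarˣ) : QBar) = _
      have hmem : (((unitsToQ L' x).toMul : QBarˣ) : QBar) ∈ L :=
        mem_of_nsmul_eq_zero hζ hζL (by rw [← map_nsmul, hx, map_zero])
      refine (IntermediateField.mem_fixingSubgroup_iff _ _).mp ?_ _ hmem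
      rw [← res_eq_one_iff, ← levelRes_res h', show res L' g = δ ^ n from hg, hn1]
  obtain ⟨xx, hxx⟩ := exists_cyclic_trivialisation (p := p)
    (M := TwHom (levelRes (le.trans h')) A (Additive L'ˣ))
    (fun φ => TwHom.ext fun a => by
      rw [TwHom.nsmul_apply, TwHom.zero_apply, nsmul_apply_eq_zero hA])
    cc hcc δ hord hfixM (fun j k => by
      simp only [cc, map_mul, map_pow, hres, pow_add, pow_mul, n, pow_orderOf_eq_one,
        one_pow, mul_one])
  -- Globalise it semilocally.
  obtain ⟨t, ht, htc⟩ := exists_semilocal q cc hcc xx fun g hg k hk => by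
    rw [show Duality.decomp L' q = Subgroup.zpowers δ from hrange] at hg hk
    exact hxx g hg k hk
  refine ⟨t, ht, fun g k a => ?_⟩
  rw [htc]
  show partAt {q} (diag L' (unitsIncl h' _)) = _
  rw [diag_unitsIncl]
  rfl

variable (S K A) in
/-- The cocycles of levels unramified outside `S`, locally trivial at `S`. -/
def sha₂Cocycles : AddSubgroup (GQ × GQ → DualMod K A) where
  carrier := {c | IsCocycle₂ c ∧ IsLevelConstantS₂ S c ∧ ∀ q ∈ S, IsLocTriv₂ q c}
  add_mem' := fun {c c'} hc hc' => ⟨fun g h j => by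
      simp only [Pi.add_apply, smul_add]
      rw [add_add_add_comm, hc.1, hc'.1, add_add_add_comm],
    hc.2.1.add hc'.2.1, fun q hq => by
      obtain ⟨F, x, hF, hxF, hx⟩ := hc.2.2 q hq
      obtain ⟨F', x', hF', hxF', hx'⟩ := hc'.2.2 q hq
      have := hF; have := hF'
      refine ⟨F ⊔ F', x + x', IntermediateField.finiteDimensional_sup _ _, fun g s hs => ?_,
        fun σ τ => ?_⟩
      · simp only [Pi.add_apply]
        rw [hxF g s (IntermediateField.fixingSubgroup_antitone le_sup_left hs),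
          hxF' g s (IntermediateField.fixingSubgroup_antitone le_sup_right hs)]
      · simp only [Pi.add_apply, smul_add, ← hx, ← hx']
        abel⟩
  zero_mem' := ⟨fun g h j => by simp, isLevelConstantS₂_const S 0, fun q _ =>
    ⟨⊥, 0, inferInstance, fun _ _ _ => rfl, fun σ τ => by simp⟩⟩
  neg_mem' := fun {c} hc => ⟨fun g h j => by
      simp only [Pi.neg_apply, smul_neg]
      rw [← neg_add, hc.1, neg_add],
    hc.2.1.comp Neg.neg, fun q hq => by
      obtain ⟨F, x, hF, hxF, hx⟩ := hc.2.2 q hq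
      refine ⟨F, -x, hF, fun g s hs => by simp only [Pi.neg_apply, hxF g s hs], fun σ τ => ?_⟩
      simp only [Pi.neg_apply, smul_neg, ← hx]
      abel⟩

theorem mem_sha₂Cocycles {c : GQ × GQ → DualMod K A} :
    c ∈ sha₂Cocycles K A S ↔
      IsCocycle₂ c ∧ IsLevelConstantS₂ S c ∧ ∀ q ∈ S, IsLocTriv₂ q c := Iff.rfl

/-- **Locally trivial cocycles are linked** to equivariant maps into classes. -/
theorem exists_linked_of_cocycle [FiniteDimensional ℚ K] (hp2 : p ≠ 2) (hζ : IsPrimitiveRoot ζ p)
    (hζK : ζ ∈ K) (hKS : K.IsUnramifiedOutside S) (hε : Presentation p ε)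
    {c : GQ × GQ → DualMod K A} (hc : c ∈ sha₂Cocycles K A S) :
    ∃ f : equivHom (C := C K) hε.isStable_ker, Linked hε S c f.1 := by
  obtain ⟨hcc, ⟨F, hF, hlev⟩, hloc⟩ := hc
  obtain ⟨L, hL, hle⟩ := exists_levelS_ge (hF.sup hKS)
  have := hL.fd; have := hL.normal
  have hKL : K ≤ L := le_sup_right.trans hle
  have hζL : ζ ∈ L := hKL hζK
  obtain ⟨c₀, hc₀, hcc₀⟩ := exists_levelCocycle₂ (le := hKL) hζ hε.killed hζL c hcc
    (le_sup_left.trans hle) hlev
  obtain ⟨u, hu⟩ := exists_fundamental L hp2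
    (IsPrimitiveRoot.of_map_of_injective (f := L.val)
      (show IsPrimitiveRoot (L.val ⟨ζ, hζL⟩) p from hζ)
      L.val.injective)
  have hloc' : ∀ q, LocTriv S c₀ q := fun q => by
    by_cases hq : q ∈ S
    · exact locTriv_of_isLocTriv₂ hζ hε.killed hζL hq c c₀ hc₀ hcc₀ (hloc q hq)
    · exact locTriv_of_unramified hζ hζL hε.killed hL.ur hq c₀ hc₀
  obtain ⟨f, b, e, hl⟩ := exists_linked hε hu.h1 c₀ hc₀ hloc' c hcc₀
  exact ⟨f, L, hL.fd, hL.normal, hKL, hL.ur, b, e, hl⟩

end Fermat.Agent.CFT.PT
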