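import Fermat.Agent.CFT.PT.LocalInput
import Fermat.Agent.CFT.PT.KLevel
import Fermat.Agent.CFT.Duality.Main

/-!
# Linked maps of coboundaries are killed by the locally trivial classes

If `dOne x` is linked to `f`, then `f` comes from an equivariant map into ideles with divisible
orders outside `S`; such a map is the sum of one supported at `S`, of the restriction of an
equivariant map on the lattice and of a unit family, which all pair to zero with locally trivial
classes.
-/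

set_option autoImplicit false

noncomputable section

namespace Fermat.Agent.CFT.PT

open Fermat.Agent.Arith IntermediateField Fermat.Agent.CFT.Local Fermat.Agent.CFT.Idele
open Fermat.Agent.CFT.Duality groupCohomology

variable {p : ℕ} [hp : Fact p.Prime] {K : IntermediateField ℚ QBar} [FiniteDimensional ℚ K]
  [Normal ℚ K] {A ι : Type} [AddCommGroup A] [DistribMulAction (K ≃ₐ[ℚ] K) A] [Fintype ι]
  {ε : Lat (K ≃ₐ[ℚ] K) ι →+ A} {hε : Presentation p ε} {S : Finset Nat.Primes}

theorem add_three_eq_zero {M : Type*} [AddCommGroup M] {x y z : M} (hx : x = 0) (hy : y = 0)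
    (hz : z = 0) : x + y + z = 0 := by rw [hx, hy, hz, add_zero, add_zero]

omit hp [FiniteDimensional ℚ ↥K] in
theorem mem_divOrd_of_unitsOutside_sub {x y : J K}
    (h : x - p • y ∈ unitsOutside K (S : Set Nat.Primes)) {σ : K ≃ₐ[ℚ] K} :
    σ • x - p • (σ • y) ∈ unitsOutside K (S : Set Nat.Primes) := by
  rw [← smul_comm σ p, ← smul_sub]
  exact smul_mem_unitsOutside σ h

/-- An equivariant map with divisible orders outside `S` splits. -/
theorem exists_decomp (w : equivHom (C := J K) hε.isStable_ker)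
    (hw : ∀ x, w.1 (mulP hε.smul_mem x) ∈ divOrd K p (S : Set Nat.Primes)) :
    ∃ (Y : Lat (K ≃ₐ[ℚ] K) ι →+ J K) (wu : equivHom (C := J K) hε.isStable_ker),
      (∀ (g : K ≃ₐ[ℚ] K) x, Y (g • x) = g • Y x) ∧
      (∀ s, wu.1 s ∈ unitsOff K (S : Set Nat.Primes)) ∧
      ∀ s, w.1 s = partAt (S : Set Nat.Primes) (w.1 s) + Y s + wu.1 s := by
  classical
  set wS := partHom hε (S : Set Nat.Primes) w
  have hsupp : ∀ x : J K, x - partAt (S : Set Nat.Primes) x ∈ supportedIn K (S : Set Nat.Primes)ᶜ :=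
    fun x q hq σ => by
      rw [val_toMul_sub, val_partAt, if_pos (not_not.mp hq)]
      exact mul_inv_cancel _
  -- Off `S` the values at `p` times a basis have `p`-th roots, giving an equivariant `Y`.
  have hdiv : ∀ i, (w - wS).1 (mulP hε.smul_mem (Lat.e i 1)) ∈ divOrd K p (S : Set Nat.Primes) :=
    fun i => by
      refine sub_mem (hw _) (fun q hq g => ⟨0, ?_⟩)
      rw [mul_zero, zpow_zero]
      exact normAt_of_supported (partAt_mem_supportedIn (S : Set Nat.Primes) _) hq g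
  choose y hys hy using fun i => exists_qRoot (hdiv i)
  let Y : Lat (K ≃ₐ[ℚ] K) ι →+ J K := Lat.ofBasis fun i g => g • y i
  have hY : ∀ (g : K ≃ₐ[ℚ] K) x, Y (g • x) = g • Y x := fun g x =>
    Lat.map_smul_of_basis Y g (fun i h => by simp only [Y, Lat.ofBasis_e, mul_smul]) x
  have hYs : ∀ x, Y x ∈ supportedIn K (S : Set Nat.Primes)ᶜ := fun x => by
    rw [Lat.eq_sum x, map_sum]
    refine sum_mem fun q _ => ?_
    rw [map_zsmul, Lat.ofBasis_e]
    exact zsmul_mem (smul_mem_supportedIn _ (hys _)) _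
  let YR : equivHom (C := J K) hε.isStable_ker :=
    ⟨Y.comp ε.ker.subtype, fun g s => hY g (s : Lat (K ≃ₐ[ℚ] K) ι)⟩
  set wu := w - wS - YR
  -- What remains is a unit on `p` times the lattice, hence a unit.
  have hunit : ∀ x, wu.1 (mulP hε.smul_mem x) ∈ unitsOutside K (S : Set Nat.Primes) := fun x => by
    rw [Lat.eq_sum x, map_sum, map_sum]
    refine sum_mem fun q _ => ?_
    rw [map_zsmul, map_zsmul]
    refine zsmul_mem ?_ _
    have he : Lat.e q.1 q.2 = q.2 • Lat.e (G := K ≃ₐ[ℚ] K) q.1 1 := by rw [Lat.smul_e, mul_one]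
    show (w - wS).1 (mulP hε.smul_mem (Lat.e q.1 q.2)) -
      Y (mulP hε.smul_mem (Lat.e q.1 q.2) : Lat (K ≃ₐ[ℚ] K) ι) ∈ _
    rw [coe_mulP, map_nsmul, he, ← smulS_mulP hε.isStable_ker, (w - wS).2, hY,
      show Y (Lat.e q.1 (1 : K ≃ₐ[ℚ] K)) = y q.1 by simp only [Y, Lat.ofBasis_e, one_smul]]
    exact mem_divOrd_of_unitsOutside_sub (sub_nsmul_mem_unitsOutside (hy q.1))
  refine ⟨Y, wu, hY, fun s => mem_unitsOff_of_mem (sub_mem (hsupp _) (hYs _)) fun q hq g => ?_,
    fun s => ?_⟩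
  · have h := hunit (s : Lat (K ≃ₐ[ℚ] K) ι) q hq g
    rw [show mulP hε.smul_mem (s : Lat (K ≃ₐ[ℚ] K) ι) = p • s from mulP_coe _ s, map_nsmul,
      normAt_nsmul] at h
    exact (pow_eq_one_iff_of_nonneg (norm_nonneg _) hp.out.ne_zero).1 h
  · show w.1 s = partAt (S : Set Nat.Primes) (w.1 s) + Y s +
      (w.1 s - partAt (S : Set Nat.Primes) (w.1 s) - Y s)
    abel

variable {L : IntermediateField ℚ QBar} [FiniteDimensional ℚ L] [Normal ℚ L] (hKL : K ≤ L)
  {u : NormCocycle (L ≃ₐ[ℚ] L) (C L)} (hu : IsClassFormation p u)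
  (hk : IsPGroup p (levelRes hKL).ker)

/-- Maps from ideles with divisible orders outside `S` kill locally trivial cocycles. -/
theorem dual_eq_zero_of_divOrd (hLS : L.IsUnramifiedOutside S)
    (w : equivHom (C := J K) hε.isStable_ker)
    (hw : ∀ x, w.1 (mulP hε.smul_mem x) ∈ divOrd K p (S : Set Nat.Primes))
    (a : levelCocycles (levelRes hKL) A)
    (ha : ∀ q ∈ S, ∃ x : A, ∀ g ∈ Duality.decomp L q,
      (a : (L ≃ₐ[ℚ] L) → A) g = levelRes hKL g • x - x) :
    dual hε hKL hu hk (projHom hε w) a = 0 := by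
  obtain ⟨Y, wu, hY, hwu, he⟩ := exists_decomp (hε := hε) w hw
  let YR : equivHom (C := J K) hε.isStable_ker :=
    ⟨Y.comp ε.ker.subtype, fun g s => hY g (s : Lat (K ≃ₐ[ℚ] K) ι)⟩
  have e : w = partHom hε (S : Set Nat.Primes) w + YR + wu :=
    Subtype.ext (AddMonoidHom.ext fun s => he s)
  have h1 := dual_local hε hKL hu hk S (partHom hε (S : Set Nat.Primes) w)
    (fun s => partAt_mem_supportedIn _ _) a ha
  have h2 : dual hε hKL hu hk (projHom hε YR) = 0 := theta_eq_zero_of_ext (levelSystem hKL hu hk) hε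
    (projHom hε YR) ((proj K).comp Y)
    (fun g x => (congrArg (proj K) (hY g x)).trans (proj_smul K g (Y x))) fun s => rfl
  have h3 := dual_unitsOff hε hKL hu hk (T := (S : Set Nat.Primes))
    (fun q hq => (isUnramifiedOutside_iff L S).mp hLS q fun h => hq (Finset.mem_coe.mpr h)) wu hwu
  let Φ := (dual hε hKL hu hk).comp (projHom hε)
  show Φ w a = 0
  rw [e, Φ.map_add, Φ.map_add]
  have h2' : Φ YR a = 0 := by
    show dual hε hKL hu hk (projHom hε YR) a = 0
    rw [h2]; rfl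
  have h3' : Φ wu a = 0 := by
    show dual hε hKL hu hk (projHom hε wu) a = 0
    rw [h3]; rfl
  have h1' : Φ (partHom hε (S : Set Nat.Primes) w) a = 0 := h1
  exact add_three_eq_zero (M := ZMod p) h1' h2' h3'

/-- A map linked to a coboundary comes from ideles with divisible orders outside `S`. -/
theorem exists_proj_of_linked_coboundary {ζ : QBar} (hζ : IsPrimitiveRoot ζ p) (hζK : ζ ∈ K)
    {c : GQ × GQ → DualMod K A} {f : equivHom (C := C K) hε.isStable_ker}
    (hl : Linked hε S c f.1) {x : GQ → DualMod K A} (hx : IsLevelConstantS₁ S x)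
    (hc : ∀ g h, c (g, h) = dOne x (g, h)) :
    ∃ w : equivHom (C := J K) hε.isStable_ker,
      (∀ z, w.1 (mulP hε.smul_mem z) ∈ divOrd K p (S : Set Nat.Primes)) ∧ projHom hε w = f := by
  classical
  -- move the link to a level `L₁` at which `x` is constant
  obtain ⟨L₂, hfd₂, hn₂, le₂, hur₂, b₂, e₂, hl₂⟩ := hl
  obtain ⟨F, hF, hxF⟩ := hx
  obtain ⟨L₁, hL₁, hle⟩ := exists_levelS_ge (hF.sup hur₂)
  have := hL₁.fd; have := hL₁.normal; have := hfd₂; have := hn₂
  have h21 : L₂ ≤ L₁ := le_sup_right.trans hle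
  let le₁ := le₂.trans h21
  let b := (inclJ h21).comp b₂
  let e : (L₁ ≃ₐ[ℚ] L₁) → TwHom (levelRes le₁) (Lat (K ≃ₐ[ℚ] K) ι) (Additive L₁ˣ) :=
    fun σ => TwHom.of ((unitsIncl h21).comp (e₂ (levelRes h21 σ)).toHom)
  have hl₁ : LinkAt hε S le₁ c f.1 b e := hl₂.push h21
  clear_value b e
  -- `e - x ∘ ε` is a cocycle with values in `L₁ˣ`, hence the coboundary of some `E`
  choose x₀ hx₀ using fun g : L₁ ≃ₐ[ℚ] L₁ =>
    exists_toQHom_eq hζ hε.killed le₁ (le₁ hζK) (x (lift L₁ g))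
  have hx₀' : ∀ g, toQHom (x₀ (res L₁ g)) = x g := fun g => by
    rw [hx₀]
    exact eq_of_res_eq hxF (le_sup_left.trans hle) (res_lift L₁ _)
  let e' : (L₁ ≃ₐ[ℚ] L₁) → TwHom (levelRes le₁) (Lat (K ≃ₐ[ℚ] K) ι) (Additive L₁ˣ) :=
    fun g => e g - TwHom.pre ε (x₀ g)
  have he' : IsCocycle₁ e' := fun g h => by
    obtain ⟨g, rfl⟩ : ∃ g', res L₁ g' = g :=
      AlgEquiv.restrictNormalHom_surjective (K₁ := L₁) QBar g
    obtain ⟨h, rfl⟩ : ∃ h', res L₁ h' = h :=
      AlgEquiv.restrictNormalHom_surjective (K₁ := L₁) QBar h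
    refine TwHom.ext fun z => unitsToQ_injective L₁ ?_
    have e1 := congr_arg (fun φ : TwHom (res K) (Lat (K ≃ₐ[ℚ] K) ι) (Additive QBarˣ) => φ z)
      (hl₁.spec g h)
    rw [hc] at e1
    simp only [TwHom.pre_apply, dOne, ← hx₀', smul_toQHom, toQHom_apply, TwHom.add_apply,
      TwHom.sub_apply, TwHom.smul_apply, map_add, map_sub, map_mul] at e1
    simp only [e', TwHom.add_apply, TwHom.sub_apply, TwHom.smul_apply, TwHom.pre_apply, smul_sub,
      map_add, map_sub, hε.map_smul]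
    simp only [← smul_unitsToQ, levelRes_res, ← map_inv (res L₁)] at e1 ⊢
    rw [eq_comm, ← sub_eq_zero] at e1 ⊢
    rw [← e1]
    abel
  obtain ⟨E, hE⟩ := isCoboundary₁_twHom_of_h1Zero e' he' (h1Zero_units _)
  -- `b - diag E` is invariant, so it descends to a map `w` into the ideles of `K`
  let b' : ε.ker →+ J L₁ := b - ((diag L₁).comp E.toHom).comp ε.ker.subtype
  have hb' : ∀ g (s : ε.ker),
      g • b' (smulS hε.isStable_ker (levelRes le₁ g⁻¹) s) = b' s := fun g s => by
    have e1 := hl₁.coboundary g s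
    have e2 := congr_arg (fun φ : TwHom (levelRes le₁) (Lat (K ≃ₐ[ℚ] K) ι) (Additive L₁ˣ) =>
      diag L₁ (φ (s : Lat (K ≃ₐ[ℚ] K) ι))) (hE g)
    simp only [e', TwHom.sub_apply, TwHom.smul_apply, TwHom.pre_apply, map_sub, diag_smul,
      AddMonoidHom.mem_ker.mp s.2, map_zero, sub_zero] at e2
    rw [← sub_eq_zero]
    simp only [b', AddMonoidHom.sub_apply, AddMonoidHom.comp_apply, AddSubgroup.coe_subtype,
      coe_smulS, TwHom.toHom_apply, smul_sub]
    change _ = diag L₁ (e g s) at e1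
    rw [← e2] at e1
    rw [← sub_eq_zero] at e1
    rw [← e1]
    abel
  have hfix : ∀ s : ε.ker, ∀ n ∈ (levelRes le₁).ker, n • b' s = b' s := fun s n hn => by
    have e1 := hb' n s
    rwa [map_inv, MonoidHom.mem_ker.1 hn, inv_one,
      show smulS hε.isStable_ker (1 : K ≃ₐ[ℚ] K) s = s from Subtype.ext (one_smul _ _)] at e1
  choose w hw using fun s => exists_inclJ_eq le₁ (hfix s)
  let w' : ε.ker →+ J K := AddMonoidHom.mk' w fun s t => inclJ_injective le₁ (by
    rw [map_add (inclJ le₁), hw, hw, hw, map_add b'])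
  refine ⟨⟨w', fun σ s => inclJ_injective le₁ ?_⟩, fun z => ?_, Subtype.ext
    (AddMonoidHom.ext fun s => Duality.inclC_injective le₁ ?_)⟩
  · obtain ⟨g, rfl⟩ := levelRes_surjective le₁ σ
    show inclJ le₁ (w (smulS hε.isStable_ker (levelRes le₁ g) s)) =
      inclJ le₁ (levelRes le₁ g • w s)
    rw [hw, ← smul_inclJ, hw, ← hb' g (smulS hε.isStable_ker (levelRes le₁ g) s), smulS_smulS,
      map_inv, inv_mul_cancel,
      show smulS hε.isStable_ker (1 : K ≃ₐ[ℚ] K) s = s from Subtype.ext (one_smul _ _)]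
  · show w (mulP hε.smul_mem z) ∈ _
    rw [← inclJ_mem_divOrd_iff le₁, hw]
    simp only [b', AddMonoidHom.sub_apply, AddMonoidHom.comp_apply, AddSubgroup.coe_subtype,
      coe_mulP, TwHom.toHom_apply, map_nsmul]
    exact sub_mem (hl₁.good z) (nsmul_mem_divOrd hL₁.ur _)
  · show Duality.inclC le₁ (proj K (w s)) = Duality.inclC le₁ (f.1 s)
    rw [inclC_proj, hw, ← hl₁.proj_b]
    simp only [b', AddMonoidHom.sub_apply, AddMonoidHom.comp_apply, map_sub, Idele.proj_diag _,
      sub_zero]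

/-- **Maps linked to coboundaries kill the locally trivial cocycles.** -/
theorem dual_eq_zero_of_linked_coboundary {ζ : QBar} (hζ : IsPrimitiveRoot ζ p) (hζK : ζ ∈ K)
    (hLS : L.IsUnramifiedOutside S) {c : GQ × GQ → DualMod K A}
    {f : equivHom (C := C K) hε.isStable_ker} (hl : Linked hε S c f.1) {x : GQ → DualMod K A}
    (hx : IsLevelConstantS₁ S x) (hc : ∀ g h, c (g, h) = dOne x (g, h))
    (a : levelCocycles (levelRes hKL) A)
    (ha : ∀ q ∈ S, ∃ y : A, ∀ g ∈ Duality.decomp L q,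
      (a : (L ≃ₐ[ℚ] L) → A) g = levelRes hKL g • y - y) :
    dual hε hKL hu hk f a = 0 := by
  obtain ⟨w, hw, rfl⟩ := exists_proj_of_linked_coboundary (hε := hε) hζ hζK hl hx hc
  exact dual_eq_zero_of_divOrd (hε := hε) hKL hu hk hLS w hw a ha

end Fermat.Agent.CFT.PT
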