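import Fermat.Agent.CFT.Idele.NonNorm
import Fermat.Agent.CFT.Idele.Carry
import Fermat.Agent.CFT.TUnit.Exact
import Fermat.Agent.CFT.PT.WellDef

/-!
# The local fundamental classes inside the idele classes

At a prime whose decomposition group has order divisible by `p`, the map from the completion into
the idele classes respects the fundamental classes up to a multiple prime to `p`.

The main theorem is `exists_split`.
-/

set_option autoImplicit false

noncomputable section

namespace Fermat.Agent.CFT.PT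

attribute [-instance] IsCyclic.isMulCommutative CommMagma.to_isCommutative
    Subgroup.instIsCyclicOfDiscreteTopology IsSimpleGroup.isCyclic Units.mulAction'

open Fermat.Agent.Arith IntermediateField Fermat.Agent.CFT.Local Fermat.Agent.CFT.Idele
open Fermat.Agent.CFT.Duality Fermat.Agent.CFT.TUnit groupCohomology

variable {p : ℕ} [hp : Fact p.Prime] {L : IntermediateField ℚ QBar} [FiniteDimensional ℚ L]
  [Normal ℚ L] {ζ : QBar}

/-! ### Units moved by an element of order `p` -/

omit [FiniteDimensional ℚ ↥L] [Normal ℚ ↥L] in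
/-- An automorphism of order `p` fixes the `p`-th roots of unity. -/
theorem apply_zeta_eq_of_orderOf (hζ : IsPrimitiveRoot ζ p) (hζL : ζ ∈ L) {h : L ≃ₐ[ℚ] L}
    (hh : orderOf h = p) : h ⟨ζ, hζL⟩ = ⟨ζ, hζL⟩ := by
  set z : L := ⟨ζ, hζL⟩
  have hz : IsPrimitiveRoot z p :=
    IsPrimitiveRoot.of_map_of_injective (f := L.val) hζ L.val.injective
  have : NeZero p := ⟨hp.out.ne_zero⟩
  obtain ⟨a, -, ha⟩ := hz.eq_pow_of_pow_eq_one (ξ := h z)
    (by rw [← map_pow, hz.pow_eq_one, map_one])
  have hiter : ∀ i : ℕ, (h ^ i) z = z ^ (a ^ i) := fun i => by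
    induction i with
    | zero => simp
    | succ i ih => rw [pow_succ', AlgEquiv.mul_apply, ih, map_pow, ← ha, ← pow_mul, pow_succ']
  have e := hiter p
  rw [← hh, pow_orderOf_eq_one, AlgEquiv.one_apply, hh] at e
  have h1 : z ^ (a ^ p) = z ^ 1 := by rw [pow_one]; exact e.symm
  have h2 := (hz.isOfFinOrder hp.out.ne_zero).pow_eq_pow_iff_modEq.mp h1
  rw [← hz.eq_orderOf, ← ZMod.natCast_eq_natCast_iff, Nat.cast_pow, ZMod.pow_card] at h2
  rw [← ha]
  conv_rhs => rw [← pow_one z]
  refine (hz.isOfFinOrder hp.out.ne_zero).pow_eq_pow_iff_modEq.mpr ?_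
  rw [← hz.eq_orderOf, ← ZMod.natCast_eq_natCast_iff]
  exact h2

omit [Normal ℚ ↥L] in
/-- A unit moved by a given automorphism of order `p` by `ζ`. -/
theorem exists_smul_eq_zeta_mul (hζ : IsPrimitiveRoot ζ p) (hζL : ζ ∈ L) {h : L ≃ₐ[ℚ] L}
    (hh : orderOf h = p) : ∃ y : Lˣ, h (y : L) = ⟨ζ, hζL⟩ * (y : L) := by
  classical
  have : NeZero p := ⟨hp.out.ne_zero⟩
  set H := Subgroup.zpowers h
  have hfix := apply_zeta_eq_of_orderOf hζ hζL hh
  let z : Additive Lˣ := Additive.ofMul (Units.mk0 (⟨ζ, hζL⟩ : L)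
    fun e => hζ.ne_zero hp.out.ne_zero (congrArg Subtype.val e))
  have hpz : p • z = 0 := Additive.toMul.injective (Units.ext (Subtype.ext (by
    rw [toMul_nsmul, Units.val_pow_eq_pow_val]
    exact hζ.pow_eq_one)))
  have hzfix : ∀ g : H, (g : L ≃ₐ[ℚ] L) • z = z := fun g => by
    have : h ∈ MulAction.stabilizer (L ≃ₐ[ℚ] L) z :=
      Additive.toMul.injective (Units.ext hfix)
    exact Subgroup.zpowers_le.2 this g.2
  have hcard : Nat.card H = p := by rw [Nat.card_zpowers, hh]
  have hh' : IsOfFinOrder h := isOfFinOrder_of_finite h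
  -- `h ^ i ↦ ζ ^ i` is a cocycle on the group generated by `h`, as `h` fixes `ζ`.
  let c : H → Additive Lˣ := fun g => ((finEquivZPowers hh').symm g : ℕ) • z
  have hc : IsCocycle₁ c := fun g g' => by
    show ((finEquivZPowers hh').symm (g * g') : ℕ) • z =
      g • (((finEquivZPowers hh').symm g' : ℕ) • z) + ((finEquivZPowers hh').symm g : ℕ) • z
    rw [show g • (((finEquivZPowers hh').symm g' : ℕ) • z) =
      (g : L ≃ₐ[ℚ] L) • (((finEquivZPowers hh').symm g' : ℕ) • z) from rfl, smul_comm, hzfix,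
      ← add_smul]
    set i := ((finEquivZPowers hh').symm g : ℕ) with hi
    set j := ((finEquivZPowers hh').symm g' : ℕ) with hj
    set k := ((finEquivZPowers hh').symm (g * g') : ℕ) with hk
    have hg : ∀ x : H, h ^ (((finEquivZPowers hh').symm x : ℕ)) = (x : L ≃ₐ[ℚ] L) := fun x => by
      conv_rhs => rw [← (finEquivZPowers hh').apply_symm_apply x]
      rw [finEquivZPowers_apply]
    have e1 : h ^ k = h ^ (j + i) := by
      rw [add_comm, pow_add, hk, hi, hj, hg, hg, hg]
      rfl
    obtain ⟨d, hd⟩ | ⟨d, hd⟩ : (∃ d, k = (j + i) + p * d) ∨ ∃ d, j + i = k + p * d := by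
      have := pow_eq_pow_iff_modEq.mp e1
      rw [hh] at this
      rcases le_total k (j + i) with hle | hle
      · exact Or.inr ⟨(j + i - k) / p, by
          rw [Nat.mul_div_cancel' ((Nat.modEq_iff_dvd' hle).1 this)]; omega⟩
      · exact Or.inl ⟨(k - (j + i)) / p, by
          rw [Nat.mul_div_cancel' ((Nat.modEq_iff_dvd' hle).1 this.symm)]; omega⟩
    · rw [hd, add_smul, mul_comm p, mul_smul, hpz, smul_zero, add_zero]
    · rw [hd, add_smul, mul_comm p, mul_smul, hpz, smul_zero, add_zero]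
  -- By Hilbert 90 it is the coboundary of some `y`.
  obtain ⟨y, hy⟩ := h1Zero_units H c hc
  refine ⟨y.toMul, ?_⟩
  have e := hy ⟨h, Subgroup.mem_zpowers h⟩
  have e1 : ((finEquivZPowers hh').symm ⟨h, Subgroup.mem_zpowers h⟩ : ℕ) = 1 := by
    have hlt : 1 < orderOf h := hh ▸ hp.out.one_lt
    have : (finEquivZPowers hh').symm ⟨h, Subgroup.mem_zpowers h⟩ = ⟨1, hlt⟩ := by
      rw [Equiv.symm_apply_eq, finEquivZPowers_apply]
      exact Subtype.ext (pow_one h).symm
    rw [this]
  simp only [c, e1, one_smul, sub_eq_iff_eq_add] at e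
  have e2 := congrArg (fun x : Additive Lˣ => ((x.toMul : Lˣ) : L)) e
  exact e2

/-! ### An idele that is no norm class -/

omit hp in
/-- The norm from a cyclic group is fixed by its generator. -/
private theorem smul_sum_pow_range {G M : Type*} [Group G] [AddCommGroup M] [DistribMulAction G M]
    {h : G} (hh : h ^ p = 1) (w : M) :
    h • (∑ i ∈ Finset.range p, h ^ i • w) = ∑ i ∈ Finset.range p, h ^ i • w := by
  rw [Finset.smul_sum]
  simp only [smul_smul, ← pow_succ']
  have e := Finset.sum_range_succ' (fun i => h ^ i • w) p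
  rw [Finset.sum_range_succ, hh, pow_zero] at e
  exact (add_right_cancel e).symm

omit [FiniteDimensional ℚ ↥L] [Normal ℚ ↥L] in
/-- The `p`-th power of a radical moved by an element of the decomposition group has no `p`-th
root in the local field. -/
private theorem not_pow_emb (hζ : IsPrimitiveRoot ζ p) {F : IntermediateField ℚ QBar}
    (hζF : ζ ∈ F) {q : Nat.Primes} {τ : Ω q ≃ₐ[ℚ_[(q : ℕ)]] Ω q}
    (hg₀F : loc q τ ∈ F.fixingSubgroup) {r s₁ : GQ} (hs₁ : s₁ ∈ F.fixingSubgroup)
    {τ₁ : Ω q ≃ₐ[ℚ_[(q : ℕ)]] Ω q} (e₁ : (1 : GQ) = loc q τ₁ * r * s₁) {yQ : QBar} (hy0 : yQ ≠ 0)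
    (hg₀y : loc q τ yQ = ζ * yQ) (hbF : yQ ^ p ∈ F) (hb0 : yQ ^ p ≠ 0) :
    ∀ z ∈ fieldAt q F r, z ^ p ≠ emb q (r (yQ ^ p)) := fun z hz hzp => by
  set g₀ := loc q τ
  set b := yQ ^ p
  have hz1 : τ₁ z ∈ fieldAt q F 1 := by
    have := apply_mem_fieldAt τ₁ hs₁ hz
    rwa [← e₁] at this
  have hpow : τ₁ z ^ p = emb q b := by
    rw [← map_pow, hzp, ← emb_loc]
    congr 1
    conv_rhs => rw [show b = (1 : GQ) b from rfl, e₁]
    rw [AlgEquiv.mul_apply, AlgEquiv.mul_apply,
      (IntermediateField.mem_fixingSubgroup_iff _ _).1 hs₁ b hbF]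
  have : NeZero p := ⟨hp.out.ne_zero⟩
  have he0 : emb q yQ ≠ 0 := (map_ne_zero _).2 hy0
  obtain ⟨j, -, hj⟩ := (hζ.map_of_injective (f := emb q) (emb q).injective).eq_pow_of_pow_eq_one
    (ξ := τ₁ z / emb q yQ)
    (by rw [div_pow, hpow, ← map_pow]; exact div_self ((map_ne_zero _).2 hb0))
  rw [eq_div_iff he0, ← map_pow, ← map_mul] at hj
  have hfix : τ (τ₁ z) = τ₁ z := algEquiv_eq_self_of_conj (r := (1 : GQ))
    (by rw [inv_one, one_mul, mul_one]; exact hg₀F) hz1
  rw [← hj, ← emb_loc] at hfix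
  have e := (emb q).injective hfix
  rw [show loc q τ = g₀ from rfl, map_mul, map_pow, hg₀y,
    (IntermediateField.mem_fixingSubgroup_iff _ _).1 hg₀F ζ hζF] at e
  have h1 : (1 : QBar) * yQ = ζ * yQ := by
    rw [one_mul]
    exact (mul_left_cancel₀ (pow_ne_zero _ (hζ.ne_zero hp.out.ne_zero)) e).symm
  exact hζ.ne_one hp.out.one_lt (mul_right_cancel₀ hy0 h1).symm

/-- `L` lies in the Kummer extension of `F` by a radical on which a generator of the automorphisms
of `L` over `F` acts nontrivially. -/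
private theorem le_kumField (hζ : IsPrimitiveRoot ζ p) {F : IntermediateField ℚ QBar}
    (hζF : ζ ∈ F) {h : L ≃ₐ[ℚ] L} (hh : orderOf h = p) {g₀ : GQ}
    (hg₀ : res L g₀ = h) (hg₀F : g₀ ∈ F.fixingSubgroup)
    (hFfix : ∀ g ∈ F.fixingSubgroup, res L g ∈ Subgroup.zpowers h) {y : L} {iR : ℕ} {β : QBar}
    (hy0 : (y : QBar) ≠ 0) (hg₀y : g₀ y = ζ * y) (hroot : β = ζ ^ iR * y) :
    L ≤ kumField F β := by
  refine fun x hx => ?_
  rw [← InfiniteGalois.fixedField_fixingSubgroup (kumField F β),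
    IntermediateField.mem_fixedField_iff]
  intro g hg
  obtain ⟨hgF, hgβ⟩ := mem_fixingSubgroup_kumField.1 hg
  obtain ⟨i, hi⟩ := (isOfFinOrder_of_finite h).mem_powers_iff_mem_zpowers.mpr (hFfix g hgF)
  have hgy : g (y : QBar) = (y : QBar) := by
    have : g (ζ ^ iR * (y : QBar)) = ζ ^ iR * (y : QBar) := by rw [← hroot]; exact hgβ
    rw [map_mul, map_pow, (IntermediateField.mem_fixingSubgroup_iff _ _).1 hgF ζ hζF] at this
    exact mul_left_cancel₀ (pow_ne_zero _ (hζ.ne_zero hp.out.ne_zero)) this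
  have hpow : ∀ i : ℕ, (g₀ ^ i) (y : QBar) = ζ ^ i * (y : QBar) := fun i => by
    induction i with
    | zero => simp
    | succ i ih =>
      rw [pow_succ', AlgEquiv.mul_apply, ih, map_mul, map_pow, hg₀y,
        (IntermediateField.mem_fixingSubgroup_iff _ _).1 hg₀F ζ hζF, pow_succ, mul_assoc]
  have e1 : res L g = res L (g₀ ^ i) := by rw [map_pow, hg₀]; exact hi.symm
  have e2 : (g₀ ^ i) (y : QBar) = g (y : QBar) := by
    rw [← res_apply L (g₀ ^ i) y, ← e1, res_apply]
  rw [hgy, hpow] at e2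
  have e3 : ζ ^ i = 1 := mul_right_cancel₀ hy0 (e2.trans (one_mul _).symm)
  have e4 : res L g = 1 := by
    rw [e1, map_pow, hg₀, ← orderOf_dvd_iff_pow_eq_one, hh]
    exact (hζ.pow_eq_one_iff_dvd i).1 e3
  exact (IntermediateField.mem_fixingSubgroup_iff _ _).1 ((res_eq_one_iff L).1 e4) x hx

omit [FiniteDimensional ℚ ↥L] [Normal ℚ ↥L] in
/-- The fixed field of `h`, inside `QBar`. -/
private theorem mem_lift_fixedField {h : L ≃ₐ[ℚ] L} {x : QBar} :
    x ∈ IntermediateField.lift (IntermediateField.fixedField (Subgroup.zpowers h)) ↔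
      ∃ hx : x ∈ L, h ⟨x, hx⟩ = ⟨x, hx⟩ := by
  have hFL := IntermediateField.lift_le (IntermediateField.fixedField (Subgroup.zpowers h))
  refine ⟨fun hx => ⟨hFL hx, ?_⟩, fun ⟨hx, hfix⟩ => ?_⟩
  · obtain ⟨z, hz, hzx⟩ := hx
    have := (IntermediateField.mem_fixedField_iff _ _).1 hz h (Subgroup.mem_zpowers h)
    rwa [show (⟨x, hFL ⟨z, hz, hzx⟩⟩ : L) = z from Subtype.ext hzx.symm]
  · refine ⟨⟨x, hx⟩, (IntermediateField.mem_fixedField_iff _ _).2 fun g hg => ?_, rfl⟩
    exact Subgroup.zpowers_le.2 (show h ∈ MulAction.stabilizer _ (⟨x, hx⟩ : L) from hfix) hg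

/-- An automorphism of `QBar` fixing the fixed field of `h` restricts to a power of `h`. -/
private theorem res_mem_zpowers {h : L ≃ₐ[ℚ] L} {g : GQ}
    (hg : g ∈ (IntermediateField.lift
      (IntermediateField.fixedField (Subgroup.zpowers h))).fixingSubgroup) :
    res L g ∈ Subgroup.zpowers h := by
  rw [← IntermediateField.fixingSubgroup_fixedField (Subgroup.zpowers h),
    IntermediateField.mem_fixingSubgroup_iff]
  intro z hz
  exact Subtype.ext ((res_apply L g z).trans
    ((IntermediateField.mem_fixingSubgroup_iff _ _).1 hg _ ⟨z, hz, rfl⟩))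

omit [FiniteDimensional ℚ ↥L] in
/-- An idele of `L` coming from a single place over `q` of `F` is trivial off the decomposition
group, as that group contains the automorphisms of `L` over `F`. -/
private theorem val_singleAt_eq_one {F : IntermediateField ℚ QBar} [FiniteDimensional ℚ F]
    {q : Nat.Primes} {u : (Ω q)ˣ} (hu : (u : Ω q) ∈ fieldAt q F (placeRep q F 1))
    (hFfix : ∀ g ∈ F.fixingSubgroup, res L g ∈ Duality.decomp L q) {fL : idl L}
    (hfL : (fL : PreIdele) = singleAt F q (placeRep q F 1) u) (q' : Nat.Primes)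
    (σ : L ≃ₐ[ℚ] L) (hne : q' = q → σ ∉ Duality.decomp L q) : val fL q' σ = 1 := by
  obtain ⟨τ₁, s₁, hs₁, e₁⟩ := placeRep_spec (q := q) (K := F) 1
  obtain ⟨τ', s', hs', e'⟩ := placeRep_spec (q := q') (K := F) (Idele.lift L σ)
  refine Units.ext (Subtype.ext ?_)
  rw [coe_val fL q' (res_lift L σ), hfL,
    e', apply_eq_of_rep (singleAt_mem hu) q' τ' _ hs',
    singleAt_other hu (placeRep_idem _) (fun hq hr' => ?_)]
  · simp
  · subst hq
    refine hne rfl ?_
    have hσ : σ = res L (loc q' (τ' * τ₁⁻¹)) * res L (s₁⁻¹ * s') := by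
      rw [← map_mul (res L)]
      conv_lhs => rw [← res_lift L σ, e', hr']
      congr 1
      have hr : placeRep q' F 1 = (loc q' τ₁)⁻¹ * s₁⁻¹ := by
        have e₁' : (1 : GQ) = loc q' τ₁ * placeRep q' F 1 * s₁ := e₁
        rw [eq_comm, mul_assoc, ← eq_inv_mul_iff_mul_eq, mul_one] at e₁'
        exact eq_mul_inv_of_mul_eq e₁'
      rw [hr, map_mul, map_inv]
      group
    rw [hσ]
    refine mul_mem ?_ (hFfix _ (mul_mem (inv_mem hs₁) hs'))
    rw [← toGlobal_restrict]
    exact ⟨_, rfl⟩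

open Classical in
/-- An idele at `q` fixed by an element of order `p` of the decomposition group which is no norm
class. -/
theorem exists_loc'_notNorm (hp2 : p ≠ 2) (hζ : IsPrimitiveRoot ζ p) (hζL : ζ ∈ L) {q : Nat.Primes}
    {h : L ≃ₐ[ℚ] L} (hhD : h ∈ Duality.decomp L q) (hh : orderOf h = p) :
    ∃ v : Additive (E L q)ˣ, h • loc' L q v = loc' L q v ∧
      ∀ w : C L, proj L (loc' L q v) ≠ ∑ i ∈ Finset.range p, h ^ i • w := by
  -- `h` moves `y` by `ζ`; let `F` be the fixed field of `h`, so that `L = F(y)`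
  obtain ⟨y, hy⟩ := exists_smul_eq_zeta_mul hζ hζL hh
  obtain ⟨t, ht⟩ := MonoidHom.mem_range.1 hhD
  obtain ⟨τ, hτ⟩ := AlgEquiv.restrictNormalHom_surjective (K₁ := E L q) (Ω q) t
  set g₀ := loc q τ
  have hg₀ : res L g₀ = h := by rw [← ht, ← hτ, toGlobal_restrict]
  let F : IntermediateField ℚ QBar :=
    IntermediateField.lift (IntermediateField.fixedField (Subgroup.zpowers h))
  have hFL : F ≤ L := IntermediateField.lift_le _
  have : FiniteDimensional ℚ F := (IntermediateField.liftAlgEquiv _).toLinearEquiv.finiteDimensional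
  have hζF : ζ ∈ F := mem_lift_fixedField.2 ⟨hζL, apply_zeta_eq_of_orderOf hζ hζL hh⟩
  have hg₀F : g₀ ∈ F.fixingSubgroup :=
    (IntermediateField.mem_fixingSubgroup_iff _ _).2 fun x hx => by
    obtain ⟨hxL, hfix⟩ := mem_lift_fixedField.1 hx
    rw [← hg₀] at hfix
    exact (res_apply L g₀ ⟨x, hxL⟩).symm.trans (congrArg Subtype.val hfix)
  have hFfix : ∀ g ∈ F.fixingSubgroup, res L g ∈ Subgroup.zpowers h := fun g hg =>
    res_mem_zpowers hg
  -- the radicand `b = y ^ p` lies in `F` and `L` is its Kummer extension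
  set yQ : QBar := ((y : L) : QBar)
  set b : QBar := yQ ^ p
  have hg₀y : g₀ yQ = ζ * yQ := by
    rw [← hg₀] at hy
    exact (res_apply L g₀ (y : L)).symm.trans (congrArg Subtype.val hy)
  have hy0 : yQ ≠ 0 := fun e => y.ne_zero (Subtype.ext e)
  have hb0 : b ≠ 0 := pow_ne_zero _ hy0
  have hbF : b ∈ F := mem_lift_fixedField.2 ⟨pow_mem (y : L).2 p, by
    refine Subtype.ext ?_
    rw [← hg₀, res_apply]
    show g₀ (yQ ^ p) = yQ ^ p
    rw [map_pow, hg₀y, mul_pow, hζ.pow_eq_one, one_mul]⟩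
  have hkum : kum hζ g₀ b = 1 := by
    rw [kum_eq hζ hζF hg₀F hbF hb0 (β := yQ) rfl (i := 1) (by rw [pow_one, hg₀y]), Nat.cast_one]
  obtain ⟨iR, -, hroot⟩ := exists_eq_zeta_pow_mul hζ hy0
    (show rootP p b ^ p = yQ ^ p from rootP_pow b)
  have hLM : idl L ≤ idl (kumField F (rootP p b)) :=
    idl_mono (le_kumField hζ hζF hh hg₀ hg₀F hFfix hy0 hg₀y hroot)
  -- a unit at one place over `q` of `F` outside the norms, as an idele `x` of `L`
  set r := placeRep q F 1
  obtain ⟨τ₁, s₁, hs₁, e₁⟩ := placeRep_spec (q := q) (K := F) 1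
  obtain ⟨u, hu, hnot⟩ := exists_singleAt_notMem_normSub hp2 hζ hζF hbF hb0 hg₀F hkum
    (placeRep_idem 1) (not_pow_emb hζ hζF hg₀F hs₁ e₁ hy0 hg₀y hbF hb0)
  set f := singleAt F q r u
  have hfF : f ∈ idl F := singleAt_mem hu
  let fL : idl L := ⟨f, idl_mono hFL hfF⟩
  let x : J L := Additive.ofMul fL
  have hfixx : h • x = x := by
    refine congrArg Additive.ofMul (Subtype.ext ?_)
    show ((h • fL : idl L) : PreIdele) = f
    rw [coe_smul_idl L h fL hg₀]
    exact (mem_idl.1 hfF).2.2 g₀ hg₀F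
  have hone := val_singleAt_eq_one hu (fL := fL)
    (fun g hg => Subgroup.zpowers_le.2 hhD (hFfix g hg)) rfl
  -- `x` comes from its component at the distinguished place
  set v : Additive (E L q)ˣ := Additive.ofMul (val fL q 1)
  have hxv : loc' L q v = x := J_ext fun q' σ => by
    show val (locIdl q (val fL q 1)) q' σ = val fL q' σ
    rcases eq_or_ne q' q with rfl | hne
    · by_cases hσ : σ ∈ Duality.decomp L q'
      · obtain ⟨s, rfl⟩ := MonoidHom.mem_range.1 hσ
        rw [val_locIdl_self, ← val_toGlobal_mul, mul_one]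
      · rw [val_locIdl_of_notMem q' _ hσ, hone q' σ fun _ => hσ]
    · rw [val_locIdl_of_ne q _ hne, hone q' σ fun e => absurd e hne]
  -- if its class were a norm, `f` would be a norm times a principal idele of `F`
  refine ⟨v, by rw [hxv, hfixx], fun w hw => hnot ?_⟩
  obtain ⟨w, rfl⟩ := proj_surjective L w
  obtain ⟨a, ha⟩ := exists_diag_eq (x := x - ∑ i ∈ Finset.range p, h ^ i • w) (by
    simp only [map_sub, map_sum, proj_smul, ← hxv, hw, sub_self])
  have hN : h • (∑ i ∈ Finset.range p, h ^ i • w) = ∑ i ∈ Finset.range p, h ^ i • w :=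
    smul_sum_pow_range (by rw [← hh]; exact pow_orderOf_eq_one h) w
  have haF : ((a.toMul : Lˣ) : L) = h ((a.toMul : Lˣ) : L) := by
    have e : diag L (h • a) = diag L a := by rw [diag_smul, ha, smul_sub, hfixx, hN]
    exact (congrArg (fun z : Additive Lˣ => ((z.toMul : Lˣ) : L)) (diag_injective L e)).symm
  set c : QBarˣ := Units.map L.val.toRingHom.toMonoidHom a.toMul
  have hcF : c ∈ unitsOf F := mem_lift_fixedField.2 ⟨((a.toMul : Lˣ) : L).2, haF.symm⟩
  have e : f = normStep p g₀ ((w.toMul : idl L) : PreIdele) * prin c := by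
    have e1 : x = (∑ i ∈ Finset.range p, h ^ i • w) + diag L a := by rw [ha, add_sub_cancel]
    have e2 := congrArg (fun z : J L => ((z.toMul : idl L) : PreIdele)) e1
    simp only [toMul_add, toMul_sum, Subgroup.coe_mul] at e2
    refine e2.trans ?_
    congr 1
    rw [← coe_prod_smul L g₀ p w.toMul, hg₀]
    rfl
  rw [e, mul_comm]
  exact Subgroup.mul_mem_sup ⟨c, hcF, rfl⟩ ⟨_, hLM (w.toMul : idl L).2, rfl⟩

/-! ### The local classes in the idele classes -/

variable (L) in
/-- The completion at the distinguished place inside the idele classes. -/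
def locC (q : Nat.Primes) : LocUnits L q →+ C L :=
  (proj L).comp ((loc' L q).comp (LocUnits.of L q).symm.toAddMonoidHom)

theorem locC_of (q : Nat.Primes) (v : Additive (E L q)ˣ) :
    locC L q (LocUnits.of L q v) = proj L (loc' L q v) := by
  simp [locC]

theorem locC_smul (q : Nat.Primes) (d : Duality.decomp L q) (x : LocUnits L q) :
    locC L q (d • x) = (d : L ≃ₐ[ℚ] L) • locC L q x := by
  obtain ⟨t, rfl⟩ := (decompEquiv L q).surjective d
  obtain ⟨v, rfl⟩ := (LocUnits.of L q).surjective x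
  rw [LocUnits.smul_of, locC_of, locC_of, loc'_smul, proj_smul]
  rfl

/-- A nonzero class: the image of the local fundamental class at a subgroup of order `p`. -/
theorem not_isCoboundary₂_locC (hp2 : p ≠ 2) (hζ : IsPrimitiveRoot ζ p) (hζL : ζ ∈ L)
    {q : Nat.Primes} {uv : NormCocycle (Duality.decomp L q) (LocUnits L q)}
    (huv : IsClassFormation p uv) {h : Duality.decomp L q} (hh : orderOf h = p) :
    ¬ IsCoboundary₂ fun gh : Subgroup.zpowers h × Subgroup.zpowers h =>
      locC L q (uv.toFun (gh.1, gh.2)) := by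
  classical
  have : NeZero p := ⟨hp.out.ne_zero⟩
  intro hcob
  -- A fixed local unit `x` whose image in the idele classes is no norm from the group `H` of `h`.
  obtain ⟨v, hfix, hnot⟩ := exists_loc'_notNorm hp2 hζ hζL (h := (h : L ≃ₐ[ℚ] L)) h.2
    (by rw [Subgroup.orderOf_coe, hh])
  set H := Subgroup.zpowers h
  set x := LocUnits.of L q v
  have hxfix : ∀ g : H, g • x = x := by
    have e : h • x = x := by
      obtain ⟨t, ht⟩ := (decompEquiv L q).surjective h
      rw [← ht, LocUnits.smul_of]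
      congr 1
      have e1 : loc' L q (t • v) = loc' L q v := by
        rw [loc'_smul, ← coe_decompEquiv, ht]; exact hfix
      have e2 := congrArg (fun z : J L => val z.toMul q (toGlobal (q : ℕ) L 1)) e1
      simp only [loc', MonoidHom.toAdditive_apply_apply, toMul_ofMul, val_locIdl_self,
        one_smul] at e2
      exact Additive.toMul.injective e2
    exact fun g => Subgroup.zpowers_le.2 (show h ∈ MulAction.stabilizer _ x from e) g.2
  -- With a faithful character `χ` of `H`, the carry cocycle of `x` is `k` times the local class.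
  let eqv : H ≃* Multiplicative (ZMod p) := mulEquivOfCyclicCardEq (by
    rw [Nat.card_zpowers, hh, Nat.card_eq_fintype_card, Fintype.card_multiplicative, ZMod.card])
  let a : ZMod p := Multiplicative.toAdd (eqv ⟨h, Subgroup.mem_zpowers h⟩)
  have ha : a ≠ 0 := fun e0 => by
    have e1 : (⟨h, Subgroup.mem_zpowers h⟩ : H) = 1 := eqv.injective (by
      rw [map_one]; exact Multiplicative.toAdd.injective e0)
    have e2 : h = 1 := congrArg Subtype.val e1
    rw [e2, orderOf_one] at hh
    exact hp.out.ne_one hh.symm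
  let χ : H →* Multiplicative (ZMod p) :=
    (AddMonoidHom.toMultiplicative (AddMonoidHom.mulLeft a⁻¹)).comp eqv.toMonoidHom
  set γ : H := ⟨h, Subgroup.mem_zpowers h⟩
  have hγ : χ γ = Multiplicative.ofAdd 1 := by
    show Multiplicative.ofAdd (a⁻¹ * a) = _
    rw [inv_mul_cancel₀ ha]
  have hker : ∀ k ∈ χ.ker, k = 1 := fun k hk => by
    refine eqv.injective (Multiplicative.toAdd.injective ?_)
    have : a⁻¹ * Multiplicative.toAdd (eqv k) = 0 := congrArg Multiplicative.toAdd hk
    rw [map_one]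
    exact (mul_eq_zero.1 this).resolve_left (inv_ne_zero ha)
  have hpg : IsPGroup p H := IsPGroup.of_card (n := 1) (by rw [pow_one, Nat.card_zpowers, hh])
  obtain ⟨k, hk⟩ := huv.generates H hpg (carryN χ x) (isCocycle₂_carryN hxfix)
  obtain ⟨y, hy⟩ := hk
  obtain ⟨z, hz⟩ := hcob
  -- So it becomes a coboundary in the idele classes, and the image of `x` a norm.
  have h1 : H1Zero χ.ker (C L) := fun c hc => ⟨0, fun g => by
    obtain ⟨g, hg⟩ := g
    obtain rfl := hker g hg
    have e := hc 1 1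
    rw [one_mul, one_smul, left_eq_add] at e
    show (1 : χ.ker) • (0 : C L) - 0 = c 1
    rw [e, smul_zero, sub_zero]⟩
  have hcarry : IsCoboundary₂ (carryN χ (locC L q x)) := by
    refine ⟨fun g => locC L q (y g) + k • z g, fun g g' => ?_⟩
    have e1 := congrArg (locC L q) (hy g g')
    have e2 : g • z g' - z (g * g') + z g = locC L q (uv.toFun (g, g')) := hz g g'
    simp only [map_add, map_sub, map_zsmul] at e1
    rw [show g • y g' = (g : Duality.decomp L q) • y g' from rfl, locC_smul,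
      show locC L q (carryN χ x (g, g')) = carryN χ (locC L q x) (g, g') from map_nsmul _ _ _] at e1
    rw [smul_add, smul_comm g k]
    rw [← e2] at e1
    simp only [smul_add, smul_sub, Subgroup.smul_def] at e1 ⊢
    rw [← sub_eq_zero] at e1 ⊢
    rw [← e1]
    abel
  obtain ⟨w, -, hw⟩ := exists_eq_norm_of_carryN hp.out.one_lt hγ h1 hcarry
  refine hnot w ?_
  rw [← locC_of, show LocUnits.of L q v = x from rfl, hw]
  exact Finset.sum_congr rfl fun i _ => by
    rw [Subgroup.smul_def, Subgroup.smul_def, Subgroup.coe_pow, Subgroup.coe_pow]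

/-- **The local classes map to multiples prime to `p` of the global one.** -/
theorem exists_split (hp2 : p ≠ 2) (hζ : IsPrimitiveRoot ζ p) (hζL : ζ ∈ L) (q : Nat.Primes)
    {u : NormCocycle (L ≃ₐ[ℚ] L) (C L)} (hu : IsClassFormation p u)
    [Fintype (Duality.decomp L q)] (hD : p ∣ Nat.card (Duality.decomp L q)) :
    ∃ (uv : NormCocycle (Duality.decomp L q) (LocUnits L q))
    (σ : SplitHom (Duality.decomp L q) uv u)
      (m : ℕ), IsClassFormation p uv ∧ (σ.s : ZMod p) ≠ 0 ∧ σ.j = m • locC L q := by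
  classical
  set D := Duality.decomp L q
  obtain ⟨uv, huv⟩ := exists_fundamental_locUnits L (p := p) q
  -- On a Sylow subgroup `P` the image of the local class is `k` times the global one, so on `D`
  -- it is so after multiplying by the index `m` of `P`.
  obtain ⟨P⟩ := (inferInstance : Nonempty (Sylow p D))
  let cj : D × D → C L := fun gh => locC L q (uv.toFun gh)
  have hcj : IsCocycle₂ cj := fun a b d => by
    have e := congrArg (locC L q) (uv.isCocycle a b d)
    rw [map_add, map_add, locC_smul] at e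
    exact e
  obtain ⟨k, hk⟩ := (hu.restrict D).generates (P : Subgroup D) P.isPGroup'
    (fun gh => cj (gh.1, gh.2)) fun a b d => hcj (a : D) b d
  let c : D × D → C L := fun gh => cj gh - k • u.toFun ((gh.1 : L ≃ₐ[ℚ] L), (gh.2 : L ≃ₐ[ℚ] L))
  have hc : IsCocycle₂ c := fun a b d => by
    have e1 := hcj a b d
    have e2 := congrArg (k • ·) ((u.restrict D).isCocycle a b d)
    simp only [smul_add, NormCocycle.restrict, Subgroup.coe_mul] at e2
    simp only [c, smul_sub, smul_comm a k, Subgroup.coe_mul]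
    rw [← sub_eq_zero] at e1 e2 ⊢
    rw [← sub_zero (0 : C L)]
    nth_rw 1 [← e1]
    rw [← e2]
    abel
  obtain ⟨b, hb⟩ := index_nsmul_isCoboundary₂ (P : Subgroup D) c hc hk
  set m := (P : Subgroup D).index
  let σ : SplitHom D uv u :=
    { j := m • locC L q
      s := m * k
      b := b
      map_smul := fun d x => by
        rw [AddMonoidHom.smul_apply, AddMonoidHom.smul_apply, locC_smul, smul_comm]
      spec := fun g g' => by
        have e : (g : L ≃ₐ[ℚ] L) • b g' - b (g * g') + b g =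
            m • (cj (g, g') - k • u.toFun ((g : L ≃ₐ[ℚ] L), (g' : L ≃ₐ[ℚ] L))) := hb g g'
        rw [e, smul_sub, mul_smul, natCast_zsmul]
        exact (add_sub_cancel _ _).symm }
  refine ⟨uv, σ, m, huv, ?_, rfl⟩
  show ((m * k : ℤ) : ZMod p) ≠ 0
  rw [Int.cast_mul, Int.cast_natCast]
  refine mul_ne_zero (fun h0 => P.not_dvd_index ((ZMod.natCast_eq_zero_iff _ _).1 h0)) fun h0 => ?_
  -- If `p` divided `k`, the image would be a coboundary on a subgroup of order `p`.
  obtain ⟨k', hk'⟩ := (ZMod.intCast_zmod_eq_zero_iff_dvd k p).1 h0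
  have hPD : p ∣ Nat.card (P : Subgroup D) := by
    rw [P.card_eq_multiplicity]
    exact dvd_pow_self p (Nat.pos_iff_ne_zero.1
      (hp.out.factorization_pos_of_dvd Nat.card_pos.ne' hD))
  obtain ⟨h, hh⟩ := exists_prime_orderOf_dvd_card' p hPD
  have hh' : orderOf (h : D) = p := by rw [Subgroup.orderOf_coe, hh]
  set H := Subgroup.zpowers (h : D)
  have hHP : H ≤ (P : Subgroup D) := Subgroup.zpowers_le.2 h.2
  refine not_isCoboundary₂_locC hp2 hζ hζL huv hh' ?_
  obtain ⟨y, hy⟩ := hk
  have : Finite H := inferInstance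
  obtain ⟨z, hz⟩ := index_nsmul_isCoboundary₂ (⊥ : Subgroup H)
    (fun gh : H × H => u.toFun (((gh.1 : D) : L ≃ₐ[ℚ] L), ((gh.2 : D) : L ≃ₐ[ℚ] L)))
    (fun a b d => u.isCocycle _ _ _) ⟨fun _ => 0, fun a b => by
      obtain rfl : a = 1 := Subsingleton.elim _ _
      simp [u.one_left]⟩
  rw [Subgroup.index_bot, Nat.card_zpowers, hh'] at hz
  refine ⟨fun g => y ⟨g, hHP g.2⟩ + k' • z g, fun g g' => ?_⟩
  have e1 := hy ⟨g, hHP g.2⟩ ⟨g', hHP g'.2⟩
  have e2 := hz g g'
  simp only [Pi.smul_apply, cj, NormCocycle.restrict, Subgroup.smul_def, hk', Subgroup.coe_mul]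
    at e1 e2 ⊢
  rw [mul_comm (p : ℤ) k', mul_smul, natCast_zsmul, ← e2] at e1
  rw [smul_add, smul_comm _ k' (z g')]
  simp only [smul_add, smul_sub] at e1 ⊢
  rw [← sub_eq_zero] at e1 ⊢
  rw [← e1]
  simp only [MulMemClass.mk_mul_mk]
  abel

end Fermat.Agent.CFT.PT
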