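import Fermat.Agent.CFT.PT.Kernel

/-!
# The pairing of locally trivial classes in degrees one and two

At a level `K` with the `p`-th roots of unity, unramified outside `S`, the cocycles with values in
`A` and the `2`-cocycles with values in the dual module, both of levels unramified outside `S` and
trivial at `S`, pair into `ℤ/p` with kernels the coboundaries.
-/

set_option autoImplicit false

noncomputable section

namespace Fermat.Agent.CFT.PT

open ExtCitation Fermat.Agent.Arith Fermat.Agent.CFT.Local Fermat.Agent.CFT.Idele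
open Fermat.Agent.CFT.Duality groupCohomology

variable {p : ℕ} [hp : Fact p.Prime] {S : Finset Nat.Primes} {ζ : QBar}
  {K : IntermediateField ℚ QBar} [FiniteDimensional ℚ K] [Normal ℚ K]
  {A ι : Type} [AddCommGroup A] [DistribMulAction (K ≃ₐ[ℚ] K) A] [Fintype ι]
  {ε : Lat (K ≃ₐ[ℚ] K) ι →+ A}

/-- The cocycles of levels unramified outside `S`, locally trivial at `S`. -/
def sha₁Cocycles (K : IntermediateField ℚ QBar) [FiniteDimensional ℚ K] [Normal ℚ K] (A : Type)
    [AddCommGroup A] [DistribMulAction (K ≃ₐ[ℚ] K) A] (S : Finset Nat.Primes) :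
    AddSubgroup (GQ → A) where
  carrier := {a | (∀ g h, a (g * h) = res K g • a h + a g) ∧ IsLevelConstantS₁ S a ∧
    ∀ q ∈ S, IsLocTriv₁ (K := K) q a}
  add_mem' {a b} ha hb := ⟨fun g h => by
      simp only [Pi.add_apply, ha.1 g h, hb.1 g h, smul_add]; abel,
    ha.2.1.add hb.2.1, fun q hq => by
      obtain ⟨x, hx⟩ := ha.2.2 q hq
      obtain ⟨y, hy⟩ := hb.2.2 q hq
      refine ⟨x + y, fun τ => ?_⟩
      simp only [Pi.add_apply, hx, hy, smul_add]
      abel⟩
  zero_mem' := ⟨fun g h => by simp, isLevelConstantS₁_const S 0, fun q _ => ⟨0, fun τ => by simp⟩⟩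
  neg_mem' {a} ha := ⟨fun g h => by simp only [Pi.neg_apply, ha.1 g h, smul_neg]; abel,
    ha.2.1.comp Neg.neg, fun q hq => by
      obtain ⟨x, hx⟩ := ha.2.2 q hq
      refine ⟨-x, fun τ => ?_⟩
      simp only [Pi.neg_apply, hx, smul_neg]
      abel⟩

theorem mem_sha₁Cocycles {a : GQ → A} :
    a ∈ sha₁Cocycles K A S ↔ (∀ g h, a (g * h) = res K g • a h + a g) ∧ IsLevelConstantS₁ S a ∧
      ∀ q ∈ S, IsLocTriv₁ (K := K) q a := Iff.rfl

/-- The cocycles at the level containing the roots. -/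
theorem exists_toLevel (hζ : IsPrimitiveRoot ζ p) (hζK : ζ ∈ K)
    (hKS : K.IsUnramifiedOutside S) (hA : ∀ a : A, p • a = 0)
    {L : IntermediateField ℚ QBar} [FiniteDimensional ℚ L] [Normal ℚ L] (hKL : K ≤ L)
    (hLS : L.IsUnramifiedOutside S) (hroots : urRoots p S K ⊆ L) :
    ∃ R : sha₁Cocycles K A S →+ levelCocycles (levelRes hKL) A,
      (∀ a g, (R a : (L ≃ₐ[ℚ] L) → A) (res L g) = (a : GQ → A) g) ∧
      (∀ a, ∀ q ∈ S, R a ∈ locSub A hKL q) ∧
      ∀ a', (∀ q ∈ S, a' ∈ locSub A hKL q) → ∃ a, R a = a' := by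
  classical
  have hwd : ∀ (a : sha₁Cocycles K A S) (g g' : GQ), res L g = res L g' →
      (a : GQ → A) g = (a : GQ → A) g' := fun a g g' h =>
    cocycle_eq_of_res_eq hζ hζK hKS hA hKL hroots a.2.1 a.2.2.1 h
  have hmem : ∀ a : sha₁Cocycles K A S,
      (fun σ => (a : GQ → A) (Idele.lift L σ)) ∈ levelCocycles (levelRes hKL) A := fun a σ τ => by
    show (a : GQ → A) _ = res K (Idele.lift L σ) • _ + _
    rw [← a.2.1]
    exact hwd a _ _ (by rw [map_mul, res_lift, res_lift, res_lift])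
  let R : sha₁Cocycles K A S →+ levelCocycles (levelRes hKL) A :=
    AddMonoidHom.mk' (fun a => ⟨_, hmem a⟩) fun a b => rfl
  have hR : ∀ a g, (R a : (L ≃ₐ[ℚ] L) → A) (res L g) = (a : GQ → A) g := fun a g =>
    hwd a _ _ (res_lift L _)
  refine ⟨R, hR, fun a q hq => ?_, fun a' ha' => ?_⟩
  · obtain ⟨x, hx⟩ := a.2.2.2 q hq
    refine ⟨x, fun g hg => ?_⟩
    obtain ⟨t, rfl⟩ := MonoidHom.mem_range.1 hg
    obtain ⟨τ, rfl⟩ := AlgEquiv.restrictNormalHom_surjective (K₁ := E L q) (Ω q) t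
    rw [toGlobal_restrict, hR, levelRes_res, hx]
  · refine ⟨⟨fun g => (a' : (L ≃ₐ[ℚ] L) → A) (res L g), ⟨fun g h => ?_, ⟨L, hLS, fun g s hs => ?_⟩,
      fun q hq => ?_⟩⟩, Subtype.ext (funext fun σ => ?_)⟩
    · beta_reduce
      rw [map_mul, a'.2, levelRes_res]
    · beta_reduce
      rw [map_mul, (res_eq_one_iff L).2 hs, mul_one]
    · obtain ⟨x, hx⟩ := ha' q hq
      refine ⟨x, fun τ => ?_⟩
      beta_reduce
      rw [hx (res L (loc q τ)) (by rw [← toGlobal_restrict]; exact ⟨_, rfl⟩), levelRes_res]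
    · show (a' : (L ≃ₐ[ℚ] L) → A) (res L (Idele.lift L σ)) = _
      rw [res_lift]

variable {hε : Presentation p ε} {L : IntermediateField ℚ QBar} [FiniteDimensional ℚ L]
  [Normal ℚ L] {hKL : K ≤ L} {u : NormCocycle (L ≃ₐ[ℚ] L) (C L)} (hu : IsClassFormation p u)
  (hk : IsPGroup p (levelRes hKL).ker)

/-- Maps linked to one cocycle pair equally with the locally trivial cocycles. -/
theorem dual_eq_of_linked (hζ : IsPrimitiveRoot ζ p) (hζK : ζ ∈ K)
    (hLS : L.IsUnramifiedOutside S) {c : GQ × GQ → DualMod K A}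
    {f f' : equivHom (C := C K) hε.isStable_ker} (hl : Linked hε S c f.1)
    (hl' : Linked hε S c f'.1) (a : levelCocycles (levelRes hKL) A)
    (ha : ∀ q ∈ S, a ∈ locSub A hKL q) :
    dual hε hKL hu hk f a = dual hε hKL hu hk f' a := by
  have h0 : Linked hε S (c + -c) (f - f').1 := by
    rw [AddSubgroup.coe_sub, sub_eq_add_neg f.1]
    exact hl.add hl'.neg
  have e := dual_eq_zero_of_linked_coboundary (hε := hε) hKL hu hk hζ hζK hLS h0 (x := 0)
    (isLevelConstantS₁_const S 0) (fun g h => by simp [dOne]) a ha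
  rwa [map_sub, AddMonoidHom.sub_apply, sub_eq_zero] at e

/-- Functionals separate the points of a group killed by `p`. -/
theorem eq_zero_of_forall_hom {W : Type*} [AddCommGroup W] (hW : ∀ w : W, p • w = 0) (v : W)
    (h : ∀ φ : W →+ ZMod p, φ v = 0) : v = 0 := by
  let : Module (ZMod p) W := AddCommGroup.zmodModule hW
  have hfree : Module.Free (ZMod p) W := Module.Free.of_divisionRing (K := ZMod p) (V := W)
  have : Module.Projective (ZMod p) W := @Module.Projective.of_free (ZMod p) _ W _ _ hfree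
  exact (@Module.forall_dual_apply_eq_zero_iff W _ (ZMod p) _ _ this v).1 fun φ =>
    h φ.toAddMonoidHom

omit [FiniteDimensional ℚ ↥K] [FiniteDimensional ℚ ↥L] in
/-- A class killed by all functionals is a coboundary. -/
theorem exists_eq_sub_of_dual (hA : ∀ a : A, p • a = 0) (a : levelCocycles (levelRes hKL) A)
    (ha : ∀ μ : levelCocycles (levelRes hKL) A →+ ZMod p,
      (∀ b : levelCocycles (levelRes hKL) A, ∀ x : A,
        (∀ g, (b : (L ≃ₐ[ℚ] L) → A) g = levelRes hKL g • x - x) → μ b = 0) → μ a = 0) :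
    ∃ x : A, ∀ g, (a : (L ≃ₐ[ℚ] L) → A) g = levelRes hKL g • x - x := by
  classical
  let V := levelCocycles (levelRes hKL) A
  let B : AddSubgroup V :=
    { carrier := {b | ∃ x : A, ∀ g, (b : (L ≃ₐ[ℚ] L) → A) g = levelRes hKL g • x - x}
      add_mem' := fun {b b'} hb hb' => by
        obtain ⟨x, hx⟩ := hb
        obtain ⟨y, hy⟩ := hb'
        refine ⟨x + y, fun g => ?_⟩
        rw [AddSubgroup.coe_add, Pi.add_apply, hx, hy, smul_add]
        abel
      zero_mem' := ⟨0, fun g => by simp⟩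
      neg_mem' := fun {b} hb => by
        obtain ⟨x, hx⟩ := hb
        refine ⟨-x, fun g => ?_⟩
        rw [AddSubgroup.coe_neg, Pi.neg_apply, hx, smul_neg]
        abel }
  have hW : ∀ x : V ⧸ B, p • x = 0 := fun x => by
    obtain ⟨v, rfl⟩ := QuotientAddGroup.mk'_surjective _ x
    rw [← map_nsmul, show p • v = 0 from Subtype.ext (funext fun g => hA _), map_zero]
  refine (QuotientAddGroup.eq_zero_iff (N := B) a).1
    (eq_zero_of_forall_hom hW (QuotientAddGroup.mk' B a) fun φ => ?_)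
  exact ha (φ.comp (QuotientAddGroup.mk' B)) fun b x hx => by
    show φ (QuotientAddGroup.mk' B b) = 0
    rw [show QuotientAddGroup.mk' B b = 0 from (QuotientAddGroup.eq_zero_iff (N := B) b).2 ⟨x, hx⟩,
      map_zero]

/-- **The pairing.** -/
theorem exists_pairing (hp2 : p ≠ 2) (hζ : IsPrimitiveRoot ζ p) (hζK : ζ ∈ K)
    (hpS : pPrime p ∈ S) (hKS : K.IsUnramifiedOutside S) (hε : Presentation p ε) :
    ∃ Φ : sha₁Cocycles K A S →+ sha₂Cocycles K A S →+ ZMod p,
      (∀ a, (∀ c, Φ a c = 0) ↔ ∃ x : A, ∀ g, (a : GQ → A) g = res K g • x - x) ∧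
      ∀ c, (∀ a, Φ a c = 0) ↔ ∃ x : GQ → DualMod K A, IsLevelConstantS₁ S x ∧
        ∀ g h, (c : GQ × GQ → DualMod K A) (g, h) = dOne x (g, h) := by
  classical
  obtain ⟨L, hfd, hn, hKL, hLS, hk, hroots⟩ := exists_kummerLevel hp2 hζ hζK hpS hKS
  let := hfd; let := hn
  obtain ⟨u, hu⟩ := exists_fundamental L hp2 (IsPrimitiveRoot.of_map_of_injective (f := L.val)
    (show IsPrimitiveRoot (L.val ⟨ζ, hKL hζK⟩) p from hζ) L.val.injective)
  obtain ⟨R, hR, hRloc, hRsurj⟩ := exists_toLevel hζ hζK hKS hε.killed hKL hLS hroots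
  choose F hF using fun c : sha₂Cocycles K A S =>
    exists_linked_of_cocycle hp2 hζ hζK hKS hε c.2
  let D := dual hε hKL hu hk
  have hwd := fun {c : GQ × GQ → DualMod K A} {f f' : equivHom (C := C K) hε.isStable_ker}
    (hl : Linked hε S c f.1) (hl' : Linked hε S c f'.1) (a : sha₁Cocycles K A S) =>
    dual_eq_of_linked (hε := hε) hu hk hζ hζK hLS hl hl' (R a) (hRloc a)
  let Φ : sha₁Cocycles K A S →+ sha₂Cocycles K A S →+ ZMod p := AddMonoidHom.mk'
    (fun a => AddMonoidHom.mk' (fun c => D (F c) (R a)) fun c c' => by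
      rw [← AddMonoidHom.add_apply, ← map_add D]
      exact hwd (hF (c + c')) ((hF c).add (hF c')) a)
    fun a b => AddMonoidHom.ext fun c => by
      show D (F c) (R (a + b)) = D (F c) (R a) + D (F c) (R b)
      rw [map_add, map_add]
  refine ⟨Φ, fun a => ⟨fun h => ?_, ?_⟩, fun c => ⟨fun h => ?_, ?_⟩⟩
  · obtain ⟨x, hx⟩ := exists_eq_sub_of_dual hε.killed (R a) fun μ hμ => by
      obtain ⟨f, hf⟩ := exists_dual_eq hε hKL hu hk μ hμ
      obtain ⟨c, hc, hl⟩ := exists_cocycle_linked hε hp2 hζ hpS hKS f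
      rw [← hf, hwd hl (hF ⟨c, hc⟩) a]
      exact h ⟨c, hc⟩
    exact ⟨x, fun g => by rw [← hR, hx, levelRes_res]⟩
  · rintro ⟨x, hx⟩ c
    refine theta_coboundary (levelSystem hKL hu hk) hε (F c) (R a) x fun σ => ?_
    obtain ⟨g, rfl⟩ := AlgEquiv.restrictNormalHom_surjective (K₁ := L) QBar σ
    rw [hR, hx, levelRes_res]
  · refine exists_coboundary_of_kills (hε := hε) hKL hu hk hp2 hζ hζK hpS hKS hroots (hF c)
      fun a' ha' => ?_
    obtain ⟨a, rfl⟩ := hRsurj a' ha'
    exact h a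
  · rintro ⟨x, hx, hcx⟩ a
    exact dual_eq_zero_of_linked_coboundary (hε := hε) hKL hu hk hζ hζK hLS (hF c) hx hcx (R a)
      (hRloc a)

end Fermat.Agent.CFT.PT
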