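import Fermat.Agent.CFT.PT.Transfer
import Fermat.Agent.CFT.PT.Pairing
import Fermat.Agent.CFT.PT.Arith.Level

/-!
# The pairing of the Shafarevich groups in degrees one and two

`exists_sha_pairing`: for an odd prime `p ∈ S` and a finite module `M` killed by `p` and unramified
outside `S`, a pairing of `Ш¹_S` of the twisted dual with `Ш²_S` of `M` without kernels. It is the
statement of `S55`. The proof:

1. There is a level `K`, unramified outside `S`, with the `p`-th roots of unity and trivialising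
   both modules (`CFT/PT/Arith/Level`, `CFT/PT/Transfer`).
2. Every locally trivial class in degree one, resp. two, is that of a cocycle for the level module,
   resp. for its Cartier dual, locally trivial at `S`; the real place gives no condition as `p` is
   odd. The classes vanishing are those of coboundaries (`toSha₁`, `toSha₂` below).
3. These cocycles pair into `ℤ/p` with kernels the coboundaries (`CFT/PT/Pairing`).
4. The pairing descends to the classes (`exists_descended_pairing`).

## References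

* J. S. Milne, *Arithmetic Duality Theorems*, Chapter I.
* J. Neukirch, A. Schmidt, K. Wingberg, *Cohomology of Number Fields*.
* E. Artin, J. Tate, *Class Field Theory*.

Only modules killed by an odd prime `p` are treated, with explicit cocycles at finite levels over
the idele class formation of `CFT/Idele`, proved from the two inequalities.
-/

set_option autoImplicit false

noncomputable section

namespace Fermat.Agent.CFT.PT

open ExtCitation Fermat.Agent.Arith Fermat.Agent.CFT.Idele
open groupCohomology CategoryTheory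

variable {p : ℕ} [hp : Fact p.Prime] {S : Finset Nat.Primes}
  {K : IntermediateField ℚ QBar} [FiniteDimensional ℚ K] [Normal ℚ K]

/-! ## Local triviality read on cocycles -/

/-- A restricted class vanishes when a cochain of finite level bounds the restricted cocycle. -/
theorem locRes₂S_eq_zero_iff {M : Rep (ZMod p) GQ} {H : Type} [Group H] (f : H →* GQ)
    (z : levelCocyclesS₂ S M) :
    locRes₂S S M f (continuousH2Sπ S M z) = 0 ↔
      ∃ x : H → M, IsLevelConstant₁ f x ∧
        ∀ a b, M.ρ (f a) (x b) - x (a * b) + x a = (z : GQ × GQ → M) (f a, f b) := by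
  refine (continuousH2π_eq_zero_iff _ _ _).trans ((mem_levelCoboundaries₂_iff _ _ _).trans ?_)
  refine exists_congr fun x => and_congr_right fun _ => ?_
  rw [funext_iff, Prod.forall]
  refine forall₂_congr fun a b => ?_
  rw [d₁₂_hom_apply]
  rfl

/-- A class dies locally when the restricted cocycle is a coboundary. -/
theorem locRes_eq_zero_iff {N : Rep (ZMod p) GQ} (v : extArithIndex S) (c : cocycles₁ N) :
    (locRes (extArithLoc S) N v).hom ((H1π N).hom c) = 0 ↔
      ∃ x : N, ∀ g, N.ρ (extArithLoc S v g) x - x = (c : GQ → N) (extArithLoc S v g) := by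
  have e : (locRes (extArithLoc S) N v).hom ((H1π N).hom c) =
      (H1π (Rep.res (extArithLoc S v) N)).hom
        ((mapCocycles₁ (extArithLoc S v) (𝟙 (Rep.res (extArithLoc S v) N))).hom c) :=
    H1π_comp_map_apply _ _ c
  rw [e]
  refine (H1π_eq_zero_iff _).trans ?_
  constructor
  · rintro ⟨x, hx⟩
    exact ⟨x, fun g => congrFun hx g⟩
  · rintro ⟨x, hx⟩
    exact ⟨x, funext hx⟩

/-! ## Degree one -/

section One

variable {N : Rep (ZMod p) GQ} (hN : TrivOn K N)

/-- The cocycle of a cocycle of the level module. -/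
def repCocycle (a : sha₁Cocycles K (LevelMod N hN) S) : cocycles₁ N :=
  ⟨fun g => LevelMod.toRep ((a : GQ → LevelMod N hN) g), (mem_cocycles₁_iff _).2 fun g h => by
    rw [(mem_sha₁Cocycles.1 a.2).1 g h, map_add, LevelMod.toRep_res_smul]⟩

/-- The class of a cocycle of the pairing is locally trivial. -/
theorem H1π_repCocycle_mem (hp2 : p ≠ 2) (a : sha₁Cocycles K (LevelMod N hN) S) :
    (H1π N).hom (repCocycle hN a) ∈ sha₁ S N := by
  obtain ⟨hc, hl, hloc⟩ := mem_sha₁Cocycles.1 a.2
  refine ⟨(mem_continuousH1S_iff S N _).2 ⟨_, hl.comp LevelMod.toRep, rfl⟩, ?_⟩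
  refine LinearMap.mem_ker.2 (funext fun v => ?_)
  rw [locTotal_apply, Pi.zero_apply, locRes_eq_zero_iff]
  rcases v with ⟨⟩ | ⟨q, hq⟩
  · let : Fintype ↥archimedeanDecomposition := Fintype.ofFinite _
    exact coboundary₁_of_card (G := ↥archimedeanDecomposition) (Rep.res archimedeanLoc N)
      (arch_card_ne_zero hp2) (fun s =>
        LevelMod.toRep ((a : GQ → LevelMod N hN) (archimedeanLoc s)))
      fun s t => by
        rw [map_mul, hc, map_add, LevelMod.toRep_res_smul]
        rfl
  · obtain ⟨x, hx⟩ := hloc q hq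
    refine ⟨LevelMod.toRep x, fun (τ : Ω q ≃ₐ[ℚ_[(q : ℕ)]] Ω q) => ?_⟩
    show N.ρ (loc q τ) _ - _ = LevelMod.toRep ((a : GQ → LevelMod N hN) (loc q τ))
    rw [hx τ, map_sub, LevelMod.toRep_res_smul]

/-- The class of a cocycle of the level module. -/
def toSha₁ (hp2 : p ≠ 2) : sha₁Cocycles K (LevelMod N hN) S →+ sha₁ S N :=
  AddMonoidHom.mk' (fun a => ⟨_, H1π_repCocycle_mem hN hp2 a⟩) fun a b => Subtype.ext (by
    show (H1π N).hom (repCocycle hN (a + b)) = _
    rw [show repCocycle hN (a + b) = repCocycle hN a + repCocycle hN b from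
      Subtype.ext (funext fun g => map_add LevelMod.toRep _ _), map_add]
    rfl)

/-- The class vanishes exactly for coboundaries. -/
theorem toSha₁_eq_zero_iff (hp2 : p ≠ 2) (a : sha₁Cocycles K (LevelMod N hN) S) :
    toSha₁ hN hp2 a = 0 ↔
      ∃ x : LevelMod N hN, ∀ g, (a : GQ → LevelMod N hN) g = res K g • x - x := by
  rw [← Subtype.coe_inj, ZeroMemClass.coe_zero]
  refine (H1π_eq_zero_iff _).trans ?_
  constructor
  · rintro ⟨x, hx⟩
    refine ⟨LevelMod.toRep.symm x, fun g => LevelMod.toRep.injective ?_⟩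
    rw [map_sub, LevelMod.toRep_res_smul, AddEquiv.apply_symm_apply]
    exact (congrFun hx g).symm
  · rintro ⟨x, hx⟩
    refine ⟨LevelMod.toRep x, funext fun g => ?_⟩
    show N.ρ g _ - _ = LevelMod.toRep ((a : GQ → LevelMod N hN) g)
    rw [hx g, map_sub, LevelMod.toRep_res_smul]

/-- Every locally trivial class comes from a cocycle of the pairing. -/
theorem toSha₁_surjective (hp2 : p ≠ 2) :
    Function.Surjective (toSha₁ (S := S) hN hp2) := fun y => by
  obtain ⟨c, hc, hcy⟩ := (mem_continuousH1S_iff S N _).1 y.2.1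
  have hker := LinearMap.mem_ker.1 y.2.2
  refine ⟨⟨fun g => LevelMod.toRep.symm ((c : GQ → N) g), mem_sha₁Cocycles.2
    ⟨fun g h => LevelMod.toRep.injective ?_, hc.comp LevelMod.toRep.symm, fun q hq => ?_⟩⟩,
    Subtype.ext (Eq.trans ?_ hcy)⟩
  · rw [map_add, LevelMod.toRep_res_smul, AddEquiv.apply_symm_apply, AddEquiv.apply_symm_apply,
      AddEquiv.apply_symm_apply]
    exact (mem_cocycles₁_iff _).1 c.2 g h
  · let v : extArithIndex S := Sum.inr ⟨q, hq⟩
    have h0 : (locRes (extArithLoc S) N v).hom ((H1π N).hom c) = 0 := by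
      rw [hcy]
      exact congrFun hker v
    obtain ⟨x, hx⟩ := (locRes_eq_zero_iff v c).1 h0
    refine ⟨LevelMod.toRep.symm x, fun τ => LevelMod.toRep.injective ?_⟩
    rw [map_sub, LevelMod.toRep_res_smul, AddEquiv.apply_symm_apply, AddEquiv.apply_symm_apply]
    exact (hx τ).symm
  · rfl

end One

/-! ## Degree two -/

section Two

variable (M : Rep (ZMod p) GQ) [FiniteDimensional (ZMod p) M]
  (hN : TrivOn K (M.dualTwist (cycloChar p))) {ζ : QBar} (hζ : IsPrimitiveRoot ζ p)

/-- The cocycle of a cocycle in the dual module. -/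
def modCocycle (c : sha₂Cocycles K (LevelMod (M.dualTwist (cycloChar p)) hN) S) :
    levelCocyclesS₂ S M :=
  ⟨fun gh => (dualModEquiv M hN hζ).symm ((c : GQ × GQ → _) gh),
    (mem_levelCocyclesS₂_iff S M _).2
      ⟨(mem_cocycles₂_iff _).2 fun g h j => by
        rw [← dualModEquiv_symm_smul, ← map_add, ← map_add]
        exact congrArg _ ((mem_sha₂Cocycles.1 c.2).1 g h j),
      (mem_sha₂Cocycles.1 c.2).2.1.comp _⟩⟩

omit [FiniteDimensional ℚ ↥K] in
/-- The class of a `2`-cocycle of the pairing is locally trivial. -/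
theorem continuousH2Sπ_modCocycle_mem (hp2 : p ≠ 2)
    (c : sha₂Cocycles K (LevelMod (M.dualTwist (cycloChar p)) hN) S) :
    continuousH2Sπ S M (modCocycle M hN hζ c) ∈ sha₂ S M := by
  obtain ⟨hc, -, hloc⟩ := mem_sha₂Cocycles.1 c.2
  refine LinearMap.mem_ker.2 (funext fun v => ?_)
  rw [locTotal₂S_apply, Pi.zero_apply, locRes₂S_eq_zero_iff]
  rcases v with ⟨⟩ | ⟨q, hq⟩
  · let : Fintype ↥archimedeanDecomposition := Fintype.ofFinite _
    obtain ⟨F, hF, hF1⟩ := exists_arch_level
    obtain ⟨x, hx⟩ := coboundary₂_of_card (G := ↥archimedeanDecomposition)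
      (Rep.res archimedeanLoc M) (arch_card_ne_zero hp2)
      (fun st => (modCocycle M hN hζ c : GQ × GQ → M) (archimedeanLoc st.1, archimedeanLoc st.2))
      fun s t j => by
        rw [map_mul, map_mul]
        exact (mem_cocycles₂_iff _).1 (modCocycle M hN hζ c).2.1 _ _ _
    refine ⟨x, ⟨F, hF, fun (g : ↥archimedeanDecomposition) (s : ↥archimedeanDecomposition) hs =>
      ?_⟩, hx⟩
    have e : g * s = g := by rw [hF1 s hs, mul_one]
    exact congrArg x e
  · obtain ⟨F, x, hF, hxF, hx⟩ := hloc q hq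
    refine ⟨fun (τ : Ω q ≃ₐ[ℚ_[(q : ℕ)]] Ω q) => (dualModEquiv M hN hζ).symm (x τ),
      ⟨F, hF, fun (g : Ω q ≃ₐ[ℚ_[(q : ℕ)]] Ω q) (s : Ω q ≃ₐ[ℚ_[(q : ℕ)]] Ω q) hs =>
        congrArg (dualModEquiv M hN hζ).symm (hxF g s hs)⟩,
      fun (σ : Ω q ≃ₐ[ℚ_[(q : ℕ)]] Ω q) (τ : Ω q ≃ₐ[ℚ_[(q : ℕ)]] Ω q) => ?_⟩
    show M.ρ (loc q σ) _ - (dualModEquiv M hN hζ).symm (x (σ * τ)) + _ =
      (dualModEquiv M hN hζ).symm ((c : GQ × GQ → _) (loc q σ, loc q τ))
    rw [← dualModEquiv_symm_smul, ← map_sub, ← map_add, hx σ τ]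

/-- The class of a cocycle in the dual module. -/
def toSha₂ (hp2 : p ≠ 2) :
    sha₂Cocycles K (LevelMod (M.dualTwist (cycloChar p)) hN) S →+ sha₂ S M :=
  AddMonoidHom.mk' (fun c => ⟨_, continuousH2Sπ_modCocycle_mem M hN hζ hp2 c⟩) fun c c' =>
    Subtype.ext (by
      show continuousH2Sπ S M (modCocycle M hN hζ (c + c')) = _
      rw [show modCocycle M hN hζ (c + c') = modCocycle M hN hζ c + modCocycle M hN hζ c' from
        Subtype.ext (funext fun g => map_add (dualModEquiv M hN hζ).symm _ _), map_add]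
      rfl)

omit [FiniteDimensional ℚ ↥K] in
/-- The class vanishes exactly for coboundaries of levels unramified outside `S`. -/
theorem toSha₂_eq_zero_iff (hp2 : p ≠ 2)
    (c : sha₂Cocycles K (LevelMod (M.dualTwist (cycloChar p)) hN) S) :
    toSha₂ M hN hζ hp2 c = 0 ↔
      ∃ x : GQ → DualMod K (LevelMod (M.dualTwist (cycloChar p)) hN), IsLevelConstantS₁ S x ∧
        ∀ g h, (c : GQ × GQ → _) (g, h) = dOne x (g, h) := by
  rw [← Subtype.coe_inj, ZeroMemClass.coe_zero]
  refine (continuousH2Sπ_eq_zero_iff S M _).trans ((mem_levelCoboundariesS₂_iff S M _).trans ?_)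
  constructor
  · rintro ⟨x, hx, e⟩
    refine ⟨fun g => dualModEquiv M hN hζ (x g), hx.comp _, fun g h =>
      (dualModEquiv M hN hζ).symm.injective ?_⟩
    rw [dOne, map_add, map_sub, dualModEquiv_symm_smul, AddEquiv.symm_apply_apply,
      AddEquiv.symm_apply_apply, AddEquiv.symm_apply_apply]
    exact (congrFun e (g, h)).symm
  · rintro ⟨x, hx, e⟩
    refine ⟨fun g => (dualModEquiv M hN hζ).symm (x g), hx.comp _, funext fun gh => ?_⟩
    rw [d₁₂_hom_apply, ← dualModEquiv_symm_smul, ← map_sub, ← map_add]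
    exact congrArg _ (e gh.1 gh.2).symm

omit [FiniteDimensional ℚ ↥K] in
/-- Every locally trivial class in degree two comes from a cocycle of the pairing. -/
theorem toSha₂_surjective (hp2 : p ≠ 2) :
    Function.Surjective (toSha₂ (S := S) M hN hζ hp2) := fun z => by
  obtain ⟨f, hf⟩ := Submodule.mkQ_surjective _ (z : continuousH2S S M)
  have hker := LinearMap.mem_ker.1 z.2
  obtain ⟨hfc, hfl⟩ := (mem_levelCocyclesS₂_iff S M _).1 f.2
  refine ⟨⟨fun gh => dualModEquiv M hN hζ ((f : GQ × GQ → M) gh), mem_sha₂Cocycles.2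
    ⟨fun g h j => ?_, hfl.comp _, fun q hq => ?_⟩⟩, Subtype.ext (Eq.trans ?_ hf)⟩
  · beta_reduce
    rw [← dualModEquiv_rho, ← map_add, ← map_add]
    exact congrArg _ ((mem_cocycles₂_iff _).1 hfc g h j)
  · let v : extArithIndex S := Sum.inr ⟨q, hq⟩
    have h0 : locRes₂S S M (extArithLoc S v) (continuousH2Sπ S M f) = 0 := by
      rw [show continuousH2Sπ S M f = (z : continuousH2S S M) from hf]
      exact congrFun hker v
    obtain ⟨x, ⟨F, hF, hxF⟩, hx⟩ := (locRes₂S_eq_zero_iff (extArithLoc S v) f).1 h0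
    refine ⟨F, fun τ => dualModEquiv M hN hζ (x τ), hF,
      fun g s hs => congrArg (dualModEquiv M hN hζ) (hxF g s hs), fun σ τ => ?_⟩
    show loc q σ • dualModEquiv M hN hζ (x τ) - _ + _ = _
    rw [← dualModEquiv_rho, ← map_sub, ← map_add]
    exact congrArg _ (hx σ τ)
  · show continuousH2Sπ S M (modCocycle M hN hζ _) = _
    refine congrArg _ (Subtype.ext (funext fun gh => ?_))
    exact AddEquiv.symm_apply_apply _ _

end Two

/-! ## Descending a pairing -/

/-- A biadditive form descends to a nondegenerate one along surjections whose kernels are its left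
and right kernels. -/
theorem exists_descended_pairing {A B A' B' : Type} [AddCommGroup A] [AddCommGroup B]
    [AddCommGroup A'] [Module (ZMod p) A'] [AddCommGroup B'] [Module (ZMod p) B']
    (Φ : A →+ B →+ ZMod p) (P : A →+ A') (Q : B →+ B') (hP : Function.Surjective P)
    (hQ : Function.Surjective Q) (hA : ∀ a, (∀ b, Φ a b = 0) ↔ P a = 0)
    (hB : ∀ b, (∀ a, Φ a b = 0) ↔ Q b = 0) :
    ∃ Ψ : A' →ₗ[ZMod p] B' →ₗ[ZMod p] ZMod p,
      (∀ y, (∀ x, Ψ y x = 0) → y = 0) ∧ (∀ x, (∀ y, Ψ y x = 0) → x = 0) := by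
  choose s hs using hP
  choose t ht using hQ
  have hl : ∀ a a', P a = P a' → ∀ b, Φ a b = Φ a' b := fun a a' h b => by
    rw [← sub_eq_zero, ← AddMonoidHom.sub_apply, ← map_sub]
    exact (hA (a - a')).2 (by rw [map_sub, h, sub_self]) b
  have hr : ∀ b b', Q b = Q b' → ∀ a, Φ a b = Φ a b' := fun b b' h a => by
    rw [← sub_eq_zero, ← map_sub]
    exact (hB (b - b')).2 (by rw [map_sub, h, sub_self]) a
  let Φ' : A' → (B' →ₗ[ZMod p] ZMod p) := fun y => AddMonoidHom.toZModLinearMap p
    (AddMonoidHom.mk' (fun x => Φ (s y) (t x)) fun x x' => by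
      rw [← map_add]
      exact hr _ _ (by rw [map_add, ht, ht, ht]) _)
  have hΦ' : ∀ y x, Φ' y x = Φ (s y) (t x) := fun y x => rfl
  refine ⟨AddMonoidHom.toZModLinearMap p (AddMonoidHom.mk' Φ' fun y y' =>
    LinearMap.ext fun x => ?_), fun y h => ?_, fun x h => ?_⟩
  · rw [LinearMap.add_apply, hΦ', hΦ', hΦ', ← AddMonoidHom.add_apply, ← map_add]
    exact hl _ _ (by rw [map_add, hs, hs, hs]) _
  · rw [← hs y]
    refine (hA (s y)).1 fun b => ?_
    rw [hr b (t (Q b)) (by rw [ht])]
    exact h (Q b)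
  · rw [← ht x]
    refine (hB (t x)).1 fun a => ?_
    rw [hl a (s (P a)) (by rw [hs])]
    exact h (P a)

/-! ## The pairing -/

/-- **Poitou–Tate**: a perfect pairing of `Ш¹_S` of the twisted dual with `Ш²_S` of `M`, for an odd
prime `p ∈ S` and `M` unramified outside `S`. -/
theorem exists_sha_pairing (hp2 : p ≠ 2) (hpS : pPrime p ∈ S) (M : Rep (ZMod p) GQ)
    [FiniteDimensional (ZMod p) M]
    (hsm : ∀ m : M, ∃ F : IntermediateField ℚ QBar, FiniteDimensional ℚ F ∧
      ∀ s ∈ F.fixingSubgroup, M.ρ s m = m)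
    (hMur : ∀ q : Nat.Primes, q ∉ S → ∀ A : ValuationSubring QBar,
      A.LiesOverPrime (q : ℕ) → ∀ g ∈ A.inertiaSubgroupIn ℚ, M.ρ g = 1) :
    ∃ B : sha₁ S (M.dualTwist (cycloChar p)) →ₗ[ZMod p] sha₂ S M →ₗ[ZMod p] ZMod p,
      (∀ y, (∀ x, B y x = 0) → y = 0) ∧ (∀ x, (∀ y, B y x = 0) → x = 0) := by
  -- Step 1: the level `L0`.
  obtain ⟨L0, hfd, hn, hur, ⟨ζ, hζL, hζ⟩, hM⟩ := exists_level S hpS M hsm hMur
  let := hfd; let := hn
  have hN : TrivOn L0 (M.dualTwist (cycloChar p)) := trivOn_dualTwist hζ hζL hM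
  have : FiniteDimensional (ZMod p) (M.dualTwist (cycloChar p)) :=
    inferInstanceAs (FiniteDimensional (ZMod p) (Module.Dual (ZMod p) M))
  let : Fintype (LevelMod (M.dualTwist (cycloChar p)) hN) := Fintype.ofFinite _
  -- Step 3: the pairing `Φ` of cocycles.
  obtain ⟨Φ, hA, hB⟩ := exists_pairing hp2 hζ hζL hpS hur
    (presentation_selfEps (K := L0) (A := LevelMod (M.dualTwist (cycloChar p)) hN)
      LevelMod.nsmul_eq_zero)
  -- Steps 2 and 4: descend along the maps to classes.
  exact exists_descended_pairing Φ (toSha₁ hN hp2) (toSha₂ M hN hζ hp2)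
    (toSha₁_surjective hN hp2) (toSha₂_surjective M hN hζ hp2)
    (fun a => (hA a).trans (toSha₁_eq_zero_iff hN hp2 a).symm)
    (fun c => (hB c).trans (toSha₂_eq_zero_iff M hN hζ hp2 c).symm)

end Fermat.Agent.CFT.PT
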