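import Fermat.Agent.CFT.TWPrimes.Kummer

/-!
# The transfer between Galois modules and modules of a level

A finite module killed by `p` and trivial over a level `K` with the `p`-th roots of unity is the
Cartier dual of its twisted dual, seen as a module of `Gal(K/ℚ)`. The locally trivial classes of
both modules are those of cocycles of the pairing.
-/

set_option autoImplicit false

noncomputable section

namespace Fermat.Agent.CFT.PT

open ExtCitation Fermat.Agent.Arith IntermediateField Fermat.Agent.CFT.Idele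
open Fermat.Agent.CFT.TWPrimes CategoryTheory Module

variable {p : ℕ} [hp : Fact p.Prime]

/-- The cyclotomic character gives the action on the roots of unity. -/
theorem cycloChar_zeta {ζ : QBar} (hζ : IsPrimitiveRoot ζ p) (g : GQ) :
    g ζ = ζ ^ (cycloChar p g : ZMod p).val := by
  have : NeZero p := ⟨hp.out.ne_zero⟩
  have ht := (mem_rootsOfUnity p (hζ.isUnit hp.out.ne_zero).unit).mpr
    (Units.ext (by rw [Units.val_pow_eq_pow_val, IsUnit.unit_spec, hζ.pow_eq_one]; rfl))
  have h := modularCyclotomicCharacter.spec QBar (card_rootsOfUnity_eq_self p)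
    (g : QBar ≃+* QBar) ht
  rw [IsUnit.unit_spec] at h
  exact h

theorem cycloChar_eq_one_of_apply {ζ : QBar} (hζ : IsPrimitiveRoot ζ p) {g : GQ} (hg : g ζ = ζ) :
    cycloChar p g = 1 := by
  have : NeZero p := ⟨hp.out.ne_zero⟩
  have : Fact (1 < p) := ⟨hp.out.one_lt⟩
  have h := cycloChar_zeta hζ g
  rw [hg] at h
  have h1 := hζ.pow_inj (i := 1) hp.out.one_lt (ZMod.val_lt _) (by rw [pow_one]; exact h)
  exact Units.ext (ZMod.val_injective p (by rw [← h1, Units.val_one, ZMod.val_one]))

section Finite

variable {G : Type} [Group G] [Fintype G] (N : Rep (ZMod p) G)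

/-- A cocycle of a group of order prime to `p` is a coboundary. -/
theorem coboundary₁_of_card (hn : (Fintype.card G : ZMod p) ≠ 0) (c : G → N)
    (hc : ∀ g h, c (g * h) = N.ρ g (c h) + c g) : ∃ x : N, ∀ g, N.ρ g x - x = c g := by
  set i : ZMod p := (Fintype.card G : ZMod p)⁻¹
  refine ⟨-(i • ∑ h, c h), fun g => ?_⟩
  have hS : ∑ h, c h = N.ρ g (∑ h, c h) + (Fintype.card G : ZMod p) • c g := by
    rw [map_sum, Nat.cast_smul_eq_nsmul, ← Finset.card_univ, ← Finset.sum_const,
      ← Finset.sum_add_distrib]
    simp only [← hc]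
    exact (Fintype.sum_equiv (Equiv.mulLeft g) _ _ fun h => rfl).symm
  rw [map_neg, map_smul, neg_sub_neg, ← smul_sub, sub_eq_iff_eq_add'.mpr hS, smul_smul,
    inv_mul_cancel₀ hn, one_smul]

/-- A `2`-cocycle of a group of order prime to `p` is a coboundary. -/
theorem coboundary₂_of_card (hn : (Fintype.card G : ZMod p) ≠ 0) (c : G × G → N)
    (hc : ∀ g h j, c (g * h, j) + c (g, h) = N.ρ g (c (h, j)) + c (g, h * j)) :
    ∃ x : G → N, ∀ g h, N.ρ g (x h) - x (g * h) + x g = c (g, h) := by
  set i : ZMod p := (Fintype.card G : ZMod p)⁻¹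
  refine ⟨fun g => i • ∑ j, c (g, j), fun g h => ?_⟩
  have hS : ∑ j, c (g * h, j) + (Fintype.card G : ZMod p) • c (g, h) =
      N.ρ g (∑ j, c (h, j)) + ∑ j, c (g, j) := by
    rw [map_sum, Nat.cast_smul_eq_nsmul, ← Finset.card_univ, ← Finset.sum_const,
      ← Finset.sum_add_distrib]
    simp only [hc]
    rw [Finset.sum_add_distrib]
    exact congrArg _ (Fintype.sum_equiv (Equiv.mulLeft h) _ _ fun j => rfl)
  rw [map_smul, ← smul_sub, ← smul_add, sub_add_eq_add_sub, ← hS, add_sub_cancel_left, smul_smul,
    inv_mul_cancel₀ hn, one_smul]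

end Finite

section Arch

theorem arch_cases (s : archimedeanDecomposition) :
    (s : GQ) = 1 ∨ (s : GQ) = complexConjugation := by
  obtain ⟨n, hn⟩ := Subgroup.mem_zpowers_iff.mp s.2
  rw [← hn]
  rcases Int.even_or_odd n with ⟨k, rfl⟩ | ⟨k, rfl⟩
  · left
    rw [← two_mul, zpow_mul, zpow_two, complexConjugation_mul_self, one_zpow]
  · right
    rw [zpow_add, zpow_mul, zpow_two, complexConjugation_mul_self, one_zpow, one_mul, zpow_one]

instance finite_arch : Finite ↥archimedeanDecomposition := by
  refine Finite.of_surjective (fun b : Bool => if b then archimedeanGen else 1) fun s => ?_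
  rcases arch_cases s with h | h
  · exact ⟨false, Subtype.ext (by simpa using h.symm)⟩
  · exact ⟨true, Subtype.ext (by simpa [archimedeanGen] using h.symm)⟩

theorem arch_card_ne_zero (hp2 : p ≠ 2) [Fintype ↥archimedeanDecomposition] :
    (Fintype.card ↥archimedeanDecomposition : ZMod p) ≠ 0 := by
  rw [Ne, ZMod.natCast_eq_zero_iff]
  intro h
  have h2 : Fintype.card ↥archimedeanDecomposition ≤ 2 := by
    refine Fintype.card_bool ▸ Fintype.card_le_of_surjective
      (fun b : Bool => if b then archimedeanGen else 1) fun s => ?_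
    rcases arch_cases s with h | h
    · exact ⟨false, Subtype.ext (by simpa using h.symm)⟩
    · exact ⟨true, Subtype.ext (by simpa [archimedeanGen] using h.symm)⟩
  have := Nat.le_of_dvd Fintype.card_pos h
  have := hp.out.two_le
  omega

/-- A field whose fixing group meets the decomposition group at infinity trivially. -/
theorem exists_arch_level : ∃ F : IntermediateField ℚ QBar, FiniteDimensional ℚ F ∧
    ∀ s : archimedeanDecomposition, (s : GQ) ∈ F.fixingSubgroup → s = 1 := by
  obtain ⟨y, hy⟩ := IsAlgClosed.exists_eq_mul_self (-1 : QBar)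
  refine ⟨IntermediateField.adjoin ℚ {y},
    IntermediateField.adjoin.finiteDimensional (Algebra.IsIntegral.isIntegral y), fun s hs => ?_⟩
  rcases arch_cases s with h | h
  · exact Subtype.ext h
  exfalso
  rw [h, IntermediateField.mem_fixingSubgroup_iff] at hs
  have e := complexEmbedding_complexConjugation y
  rw [hs y (IntermediateField.subset_adjoin _ _ rfl)] at e
  obtain ⟨r, hr⟩ := Complex.conj_eq_iff_real.mp e.symm
  have h1 := congrArg complexEmbedding hy
  rw [map_mul, map_neg, map_one, hr, ← Complex.ofReal_mul] at h1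
  have h2 := congrArg Complex.re h1
  rw [Complex.neg_re, Complex.one_re, Complex.ofReal_re] at h2
  nlinarith [mul_self_nonneg r]

end Arch

variable {K : IntermediateField ℚ QBar} [Normal ℚ K]

/-- A module trivial over `K`. -/
def TrivOn (K : IntermediateField ℚ QBar) (N : Rep (ZMod p) GQ) : Prop :=
  ∀ g ∈ K.fixingSubgroup, N.ρ g = 1

omit [Normal ℚ ↥K] in
theorem trivOn_dualTwist {ζ : QBar} (hζ : IsPrimitiveRoot ζ p) (hζK : ζ ∈ K)
    {M : Rep (ZMod p) GQ} (hM : TrivOn K M) : TrivOn K (M.dualTwist (cycloChar p)) := by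
  intro g hg
  refine LinearMap.ext fun f => ?_
  rw [Rep.dualTwist_ρ_apply, cycloChar_eq_one_of_apply hζ
    ((IntermediateField.mem_fixingSubgroup_iff _ g).mp hg ζ hζK), hM g⁻¹ (inv_mem hg)]
  simp only [Units.val_one, one_smul]
  rfl

theorem rho_eq_of_res_eq {N : Rep (ZMod p) GQ} (hN : TrivOn K N) {g g' : GQ}
    (h : res K g = res K g') : N.ρ g = N.ρ g' := by
  have hm : g⁻¹ * g' ∈ K.fixingSubgroup :=
    (res_eq_one_iff K).1 (by rw [map_mul, map_inv, h, inv_mul_cancel])
  calc N.ρ g = N.ρ g * N.ρ (g⁻¹ * g') := by rw [hN _ hm, mul_one]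
    _ = N.ρ g' := by rw [← map_mul, mul_inv_cancel_left]

/-- A module trivial over `K`, as a module of `Gal(K/ℚ)`. -/
@[nolint unusedArguments]
def LevelMod (N : Rep (ZMod p) GQ) (_h : TrivOn K N) : Type := N

namespace LevelMod

variable {N : Rep (ZMod p) GQ} {h : TrivOn K N}

instance : AddCommGroup (LevelMod N h) := inferInstanceAs (AddCommGroup N)

/-- The identity. -/
def toRep : LevelMod N h ≃+ N := AddEquiv.refl N

instance : SMul (K ≃ₐ[ℚ] K) (LevelMod N h) :=
  ⟨fun σ a => toRep.symm (N.ρ (Idele.lift K σ) (toRep a))⟩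

theorem toRep_res_smul (g : GQ) (a : LevelMod N h) : toRep (res K g • a) = N.ρ g (toRep a) := by
  show N.ρ (Idele.lift K (res K g)) (toRep a) = _
  rw [rho_eq_of_res_eq h (res_lift K (res K g))]

instance : DistribMulAction (K ≃ₐ[ℚ] K) (LevelMod N h) where
  one_smul a := toRep.injective (by
    rw [← map_one (res K), toRep_res_smul, map_one, Module.End.one_apply])
  mul_smul σ τ a := toRep.injective (by
    rw [← res_lift K σ, ← res_lift K τ, ← map_mul, toRep_res_smul, toRep_res_smul, toRep_res_smul,
      map_mul, Module.End.mul_apply])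
  smul_zero σ := toRep.injective (by rw [← res_lift K σ, toRep_res_smul, map_zero, map_zero])
  smul_add σ a b := toRep.injective (by
    rw [← res_lift K σ, toRep_res_smul, map_add toRep, map_add, map_add toRep, toRep_res_smul,
      toRep_res_smul])

omit [Normal ℚ ↥K] in
/-- The level module is killed by `p`. -/
theorem nsmul_eq_zero (a : LevelMod N h) : p • a = 0 :=
  toRep.injective (by rw [map_nsmul, map_zero, ← Nat.cast_smul_eq_nsmul (ZMod p), ZMod.natCast_self,
    zero_smul])

instance [FiniteDimensional (ZMod p) N] : Finite (LevelMod N h) :=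
  (Module.finite_of_finite (ZMod p) : Finite N)

end LevelMod

/-! ### The Cartier dual -/

section Dual

variable (M : Rep (ZMod p) GQ) (hN : TrivOn K (M.dualTwist (cycloChar p)))

/-- Evaluation of the twisted dual. -/
def dualPair (m : M) : LevelMod (M.dualTwist (cycloChar p)) hN →+ ZMod p :=
  AddMonoidHom.mk' (fun a => (LevelMod.toRep a : Module.Dual (ZMod p) M) m) fun _ _ => rfl

theorem dualPair_smul (g : GQ) (a : LevelMod (M.dualTwist (cycloChar p)) hN) (m : M) :
    dualPair M hN m (res K g • a) =
      (cycloChar p g : ZMod p) * dualPair M hN (M.ρ g⁻¹ m) a := by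
  show (LevelMod.toRep (res K g • a) : Module.Dual (ZMod p) M) m = _
  rw [LevelMod.toRep_res_smul, Rep.dualTwist_ρ_apply]
  rfl

variable {ζ : QBar} (hζ : IsPrimitiveRoot ζ p)

/-- A vector as a homomorphism on the twisted dual. -/
def toDualMod : M →+ DualMod K (LevelMod (M.dualTwist (cycloChar p)) hN) :=
  AddMonoidHom.mk' (fun m => TwHom.of ((expMu hζ).comp (dualPair M hN m))) fun m m' =>
    TwHom.ext fun a => by
      rw [TwHom.add_apply, TwHom.of_apply, TwHom.of_apply, TwHom.of_apply]
      show expMu hζ (dualPair M hN (m + m') a) = _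
      rw [show dualPair M hN (m + m') a = dualPair M hN m a + dualPair M hN m' a from
        map_add (LevelMod.toRep a : Module.Dual (ZMod p) M) m m', map_add]
      rfl

theorem toDualMod_apply (m : M) (a : LevelMod (M.dualTwist (cycloChar p)) hN) :
    toDualMod M hN hζ m a = expMu hζ (dualPair M hN m a) := rfl

theorem toDualMod_rho (g : GQ) (m : M) :
    toDualMod M hN hζ (M.ρ g m) = g • toDualMod M hN hζ m := TwHom.ext fun a => by
  have : NeZero p := ⟨hp.out.ne_zero⟩
  rw [TwHom.smul_apply, toDualMod_apply, toDualMod_apply, dualPair_smul, inv_inv,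
    smul_expMu hζ (cycloChar_zeta hζ g), ZMod.natCast_zmod_val, map_inv, Units.mul_inv_cancel_left]

theorem toDualMod_injective : Function.Injective (toDualMod M hN hζ) := by
  rw [injective_iff_map_eq_zero]
  intro m hm
  refine (Module.forall_dual_apply_eq_zero_iff (ZMod p) m).1 fun f => expMu_injective hζ ?_
  rw [map_zero]
  exact DFunLike.congr_fun hm (LevelMod.toRep.symm f)

theorem toDualMod_surjective [FiniteDimensional (ZMod p) M] :
    Function.Surjective (toDualMod M hN hζ) := fun φ => by
  choose n hn using fun a => exists_expMu_eq hζ (φ a)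
    (by rw [← map_nsmul φ, LevelMod.nsmul_eq_zero, map_zero])
  let n' : LevelMod (M.dualTwist (cycloChar p)) hN →+ ZMod p := AddMonoidHom.mk' n fun a b =>
    expMu_injective hζ (by rw [map_add (expMu hζ), hn, hn, hn, map_add φ])
  let l : Module.Dual (ZMod p) (Module.Dual (ZMod p) M) :=
    AddMonoidHom.toZModLinearMap p
      (n'.comp (AddMonoidHom.mk' (fun f : Module.Dual (ZMod p) M =>
        (LevelMod.toRep.symm f : LevelMod (M.dualTwist (cycloChar p)) hN)) fun _ _ => rfl))
  refine ⟨(Module.evalEquiv (ZMod p) M).symm l, TwHom.ext fun a => ?_⟩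
  rw [toDualMod_apply, ← hn]
  exact congrArg _ (Module.apply_evalEquiv_symm_apply (ZMod p) M
    (LevelMod.toRep a : Module.Dual (ZMod p) M) l)

/-- The module is the Cartier dual of its twisted dual. -/
def dualModEquiv [FiniteDimensional (ZMod p) M] :
    M ≃+ DualMod K (LevelMod (M.dualTwist (cycloChar p)) hN) :=
  AddEquiv.ofBijective (toDualMod M hN hζ)
    ⟨toDualMod_injective M hN hζ, toDualMod_surjective M hN hζ⟩

theorem dualModEquiv_rho [FiniteDimensional (ZMod p) M] (g : GQ) (m : M) :
    dualModEquiv M hN hζ (M.ρ g m) = g • dualModEquiv M hN hζ m := toDualMod_rho M hN hζ g m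

theorem dualModEquiv_symm_smul [FiniteDimensional (ZMod p) M] (g : GQ)
    (φ : DualMod K (LevelMod (M.dualTwist (cycloChar p)) hN)) :
    (dualModEquiv M hN hζ).symm (g • φ) = M.ρ g ((dualModEquiv M hN hζ).symm φ) :=
  (dualModEquiv M hN hζ).injective (by
    rw [dualModEquiv_rho, AddEquiv.apply_symm_apply, AddEquiv.apply_symm_apply])

end Dual

end Fermat.Agent.CFT.PT
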